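import Fermat.Agent.Duality.Places.CupLoc

/-!
# Classes over `ℚ` and their localisations

The localisation at a prime, independence of the double coset, and symbols with natural entries.
-/

set_option autoImplicit false

noncomputable section

open IntermediateField

namespace Fermat.Agent.Duality.Places

variable {p : ℕ} [Fact p.Prime]

section Natural

variable {F L : Type} [Field F] [Field L] [Algebra F L] [CharZero L]

/-- A nonzero natural number as an invariant unit. -/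
def natInv (H : Subgroup (L ≃ₐ[F] L)) (n : ℕ) (hn : n ≠ 0) : Coh.inv H (Lx L) :=
  ⟨Additive.ofMul (Units.mk0 (n : L) (Nat.cast_ne_zero.2 hn)), fun g =>
    Additive.toMul.injective (Units.ext (map_natCast (g : L ≃ₐ[F] L) n))⟩

theorem coe_natInv (H : Subgroup (L ≃ₐ[F] L)) (n : ℕ) (hn : n ≠ 0) :
    ((((natInv H n hn : Coh.inv H (Lx L)) : Lx L).toMul : Lˣ) : L) = (n : L) := rfl

theorem natInv_mul (H : Subgroup (L ≃ₐ[F] L)) {a b : ℕ} (ha : a ≠ 0) (hb : b ≠ 0) :
    natInv H (a * b) (mul_ne_zero ha hb) = natInv H a ha + natInv H b hb :=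
  Subtype.ext (Additive.toMul.injective (Units.ext (Nat.cast_mul a b)))

theorem natInv_pow (H : Subgroup (L ≃ₐ[F] L)) {a : ℕ} (ha : a ≠ 0) (k : ℕ) :
    natInv H (a ^ k) (pow_ne_zero k ha) = k • natInv H a ha := by
  refine Subtype.ext (Additive.toMul.injective (Units.ext ?_))
  rw [AddSubgroup.coe_nsmul, toMul_nsmul, Units.val_pow_eq_pow_val, coe_natInv, coe_natInv,
    Nat.cast_pow]

end Natural

section Cocycle

variable {G A : Type} [Group G] [AddCommGroup A] [DistribMulAction G A]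

/-- Conjugation changes a cocycle by a coboundary. -/
theorem sub_conj_eq (f : G → G → A)
    (hf : ∀ a b c : G, a • f b c - f (a * b) c + f a (b * c) - f a b = 0) (g a b : G) :
    f a b - g • f (g⁻¹ * a * g) (g⁻¹ * b * g) =
      a • (f b g - f g (g⁻¹ * b * g)) - (f (a * b) g - f g (g⁻¹ * (a * b) * g)) +
        (f a g - f g (g⁻¹ * a * g)) := by
  have e1 : g * (g⁻¹ * a * g) = a * g := by group
  have e2 : g * (g⁻¹ * b * g) = b * g := by group
  have e3 : g⁻¹ * a * g * (g⁻¹ * b * g) = g⁻¹ * (a * b) * g := by group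
  have h1 := hf g (g⁻¹ * a * g) (g⁻¹ * b * g)
  have h2 := hf a g (g⁻¹ * b * g)
  have h3 := hf a b g
  rw [e1, e3] at h1
  rw [e2] at h2
  rw [← sub_eq_zero]
  have : f a b - g • f (g⁻¹ * a * g) (g⁻¹ * b * g) -
      (a • (f b g - f g (g⁻¹ * b * g)) - (f (a * b) g - f g (g⁻¹ * (a * b) * g)) +
        (f a g - f g (g⁻¹ * a * g))) =
      -(g • f (g⁻¹ * a * g) (g⁻¹ * b * g) - f (a * g) (g⁻¹ * b * g) + f g (g⁻¹ * (a * b) * g)
        - f g (g⁻¹ * a * g)) +
      ((a • f g (g⁻¹ * b * g) - f (a * g) (g⁻¹ * b * g) + f a (b * g) - f a g) -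
        (a • f b g - f (a * b) g + f a (b * g) - f a b)) := by
    rw [smul_sub]; abel
  rw [this, h1, h2, h3]
  simp

/-- Conjugate maps induce the same map on two-classes. -/
theorem H2_map_conj {G' B : Type} [Group G'] [AddCommGroup B] [DistribMulAction G' B]
    {𝓛 : Coh.Levels G} {𝓛' : Coh.Levels G'} {f₁ f₂ : G' →* G} {φ₁ φ₂ : A →+ B} (g : G)
    (h₁ : 𝓛'.Compat 𝓛 f₁) (e₁ : Coh.IsEquivariant f₁ φ₁)
    (h₂ : 𝓛'.Compat 𝓛 f₂) (e₂ : Coh.IsEquivariant f₂ φ₂)
    (hf : ∀ d, f₂ d = g⁻¹ * f₁ d * g) (hφ : ∀ a, φ₂ a = φ₁ (g • a)) (x : Coh.H2 𝓛 A) :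
    Coh.H2.map h₂ e₂ x = Coh.H2.map h₁ e₁ x := by
  obtain ⟨f, rfl⟩ := Coh.H2.mk_surjective x
  let u : G → A := fun a =>
    (f : G → G → A) g (g⁻¹ * a * g) - (f : G → G → A) a g
  have hu : Coh.IsConst₁ 𝓛 u := by
    obtain ⟨U, hU, hfU⟩ := f.2.1
    obtain ⟨N, hN, hNn, hNU⟩ := 𝓛.exists_normal hU
    refine ⟨N, hN, fun a s hs => ?_⟩
    have h1 : g⁻¹ * (a * s) * g = g⁻¹ * a * g * (g⁻¹ * s * g) := by group
    have h2 := hfU g (g⁻¹ * a * g) 1 (one_mem _) (g⁻¹ * s * g)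
      (hNU (by simpa using hNn.conj_mem s hs g⁻¹))
    have h3 := hfU a g s (hNU hs) 1 (one_mem _)
    rw [mul_one] at h2 h3
    simp only [u, h1, h2, h3]
  rw [Coh.H2.map_mk, Coh.H2.map_mk, Coh.H2.mk_eq_mk]
  refine ⟨fun d => φ₁ (u (f₁ d)), (hu.precomp h₁).comp φ₁, funext fun a => funext fun b => ?_⟩
  rw [Pi.add_apply, Pi.add_apply, Coh.Z2.map_apply, Coh.Z2.map_apply, e₁.d₁_map, ← map_add, hφ,
    hf, hf, Coh.d₁_apply]
  refine congrArg φ₁ ?_
  have h2 := sub_conj_eq (f : G → G → A) f.2.2 g (f₁ a) (f₁ b)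
  rw [sub_eq_iff_eq_add] at h2
  simp only [u, smul_sub] at h2 ⊢
  rw [h2]
  abel

end Cocycle

section Loc

variable (r : ℕ) [Fact r.Prime]

/-- The local Galois group at `r`, as the fixing subgroup of `ℚ_r`. -/
abbrev locBase : Subgroup (GalLoc r) :=
  (⊥ : IntermediateField ℚ_[r] (PadicAlgCl r)).fixingSubgroup

theorem mem_locBase (d : GalLoc r) : d ∈ locBase r := by
  rw [locBase, fixingSubgroup_bot]; trivial

theorem le_locBase (U : Subgroup (GalLoc r)) : U ≤ locBase r := fun d _ => mem_locBase r d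

/-- The map of local to global Galois groups. -/
def baseHom : locBase r →* (⊤ : Subgroup GalQ) :=
  ((localGaloisToGlobal r).comp (locBase r).subtype).codRestrict ⊤ fun _ => Subgroup.mem_top _

theorem coe_baseHom (d : locBase r) : (baseHom r d : GalQ) = localGaloisToGlobal r d := rfl

theorem compat_baseHom :
    ((galLevels ℚ_[r] (PadicAlgCl r)).restrict (locBase r)).Compat
      ((galLevels ℚ Qbar).restrict ⊤) (baseHom r) := fun _ ⟨V, hV, hVU⟩ =>
  ⟨V.comap (localGaloisToGlobal r), compat_localGaloisToGlobal r V hV, fun _ hd => hVU hd⟩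

omit [Fact (Nat.Prime p)] in
theorem isEquivariant_baseHom :
    Coh.IsEquivariant (A := Mu p Qbar) (B := Mu p (PadicAlgCl r)) (baseHom r) (muEmb r) :=
  fun d z => isEquivariant_muEmb r (d : GalLoc r) z

/-- The localisation at `r` of a class over `ℚ`. -/
def baseLoc : H2μ p (⊤ : Subgroup GalQ) →+ H2μ p (locBase r) :=
  Coh.H2.map (compat_baseHom r) (isEquivariant_baseHom r)

/-- The pullback to `ℚ_r` of a character over `ℚ`. -/
def baseChar (χ : Char1 p (⊤ : Subgroup GalQ)) : Char1 p (locBase r) :=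
  pullChar (compat_baseHom r) χ

theorem baseLoc_cupChi (χ : Char1 p (⊤ : Subgroup GalQ)) (n : ℕ) (hn : n ≠ 0) :
    baseLoc r (cupChi χ (natInv ⊤ n hn)) = cupChi (baseChar r χ) (natInv (locBase r) n hn) :=
  map_cupChi _ (padicEmbedding r).toRingHom
    (fun d x => padicEmbedding_localGaloisToGlobal r (d : GalLoc r) x)
    _ (fun _ => rfl) χ _ _
    (Additive.toMul.injective (Units.ext (map_natCast (padicEmbedding r) n).symm))

omit [Fact (Nat.Prime p)] in
/-- All double cosets give the same localisation. -/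
theorem locμ₂_top (g : GalQ) (x : H2μ p (⊤ : Subgroup GalQ)) :
    locμ₂ p r ⊤ g x = resLE₂ (le_locBase r (locGroup r ⊤ g)) (baseLoc r x) := by
  rw [baseLoc, resLE₂, Coh.H2.map_map]
  exact H2_map_conj (G := (⊤ : Subgroup GalQ)) ⟨g, Subgroup.mem_top g⟩ _ _ _ _
    (fun _ => Subtype.ext rfl) (fun _ => rfl) x

end Loc

section Rational

/-- Invariant units over `ℚ` are natural numbers up to `p`-th powers. -/
theorem exists_natInv_add_nsmul (hp2 : p ≠ 2) (a : Coh.inv (⊤ : Subgroup GalQ) (Lx Qbar)) :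
    ∃ (n : ℕ) (hn : n ≠ 0) (b : Coh.inv (⊤ : Subgroup GalQ) (Lx Qbar)),
      a = natInv ⊤ n hn + p • b := by
  have : IsGalois ℚ Qbar := Fermat.Agent.Gal.isGalois_rat_qbar
  set v := (((a : Lx Qbar).toMul : Qbarˣ) : Qbar)
  have hmem : v ∈ (⊥ : IntermediateField ℚ Qbar) := by
    refine (InfiniteGalois.fixedField_fixingSubgroup ⊥).le fun s => ?_
    exact congrArg (fun y : Lx Qbar => ((y.toMul : Qbarˣ) : Qbar))
      (a.2 ⟨(s : GalQ), Subgroup.mem_top _⟩)
  obtain ⟨x, hx⟩ := IntermediateField.mem_bot.1 hmem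
  have hx0 : x ≠ 0 := fun h => (a : Lx Qbar).toMul.ne_zero (by
    show v = 0
    rw [← hx, h, map_zero])
  have hodd : Odd p := (Fact.out : p.Prime).odd_of_ne_two hp2
  obtain ⟨s, hs, hsx⟩ : ∃ s : ℚ, s ^ p = s ∧ x.num = s * (x.num.natAbs : ℕ) := by
    rcases Int.natAbs_eq x.num with h | h
    · exact ⟨1, one_pow p, by rw [one_mul, ← Int.cast_natCast, ← h]⟩
    · exact ⟨-1, hodd.neg_one_pow, by rw [neg_one_mul, ← Int.cast_natCast, ← Int.cast_neg, ← h]⟩
  have hn : x.num.natAbs * x.den ^ (p - 1) ≠ 0 :=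
    mul_ne_zero (by simpa using Rat.num_ne_zero.2 hx0) (pow_ne_zero _ x.den_ne_zero)
  have hs0 : s ≠ 0 :=
    fun h => Rat.num_ne_zero.2 hx0 (by exact_mod_cast (h ▸ hsx).trans (zero_mul _))
  have hw : ((s / x.den : ℚ) : Qbar) ≠ 0 := by
    rw [Rat.cast_ne_zero]; exact div_ne_zero hs0 (Nat.cast_ne_zero.2 x.den_ne_zero)
  let b : Coh.inv (⊤ : Subgroup GalQ) (Lx Qbar) :=
    ⟨Additive.ofMul (Units.mk0 ((s / x.den : ℚ) : Qbar) hw), fun g =>
      Additive.toMul.injective (Units.ext (map_ratCast (g : GalQ) _))⟩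
  refine ⟨_, hn, b, Subtype.ext (Additive.toMul.injective (Units.ext ?_))⟩
  rw [AddSubgroup.coe_add, AddSubgroup.coe_nsmul, toMul_add, toMul_nsmul, Units.val_mul,
    Units.val_pow_eq_pow_val, coe_natInv]
  show v = _ * ((s / x.den : ℚ) : Qbar) ^ p
  rw [← hx, eq_ratCast, ← Rat.cast_natCast, ← Rat.cast_pow, ← Rat.cast_mul]
  refine congrArg _ ?_
  conv_lhs => rw [← Rat.num_div_den x, hsx]
  have hd : (x.den : ℚ) ≠ 0 := Nat.cast_ne_zero.2 x.den_ne_zero
  rw [Nat.cast_mul, Nat.cast_pow, div_pow, hs]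
  obtain ⟨k, hk⟩ : ∃ k, p = k + 1 := ⟨p - 1, (Nat.sub_add_cancel (Fact.out : p.Prime).pos).symm⟩
  rw [hk, Nat.add_sub_cancel, pow_succ]
  field_simp

end Rational

end Fermat.Agent.Duality.Places

end
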