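import Fermat.Agent.Duality.Places.LocalKummer

/-!
# Cup products on local classes at a place

Nondegeneracy, and naturality of the cup product under localisation. The root of unity at the place
`(q, g)` is the image of the chosen one under `(q, g)`.
-/

set_option autoImplicit false

noncomputable section

namespace Fermat.Agent.Duality.Places

variable {p : ℕ} [Fact p.Prime]

section Pair

variable {F Ω : Type} [Field F] [Field Ω] [Algebra F Ω] [Normal F Ω] [IsAlgClosed Ω]
  {D : Subgroup (Ω ≃ₐ[F] Ω)} {z₀ : Mu p Ω} (hz : z₀ ≠ 0)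
  (hμ : ∀ (d : D) (z : Mu p Ω), d • z = z)

/-- The cup product of classes in `H¹(μ_p)` when `μ_p` is fixed. -/
def cupMu : H1μ p D →+ H1μ p D →+ H2μ p D :=
  Coh.cup₁₁ (isPairing_muPair hz hμ) (isSmooth_restrict isSmooth_Mu D)

end Pair

section Nondeg

variable {q : ℕ} [Fact q.Prime] {L : IntermediateField ℚ_[q] (PadicAlgCl q)}
  [FiniteDimensional ℚ_[q] L] {D : Subgroup (GalLoc q)} {z₀ : Mu p (PadicAlgCl q)} (hz : z₀ ≠ 0)
  (hμ : ∀ (d : D) (z : Mu p (PadicAlgCl q)), d • z = z)

/-- Nondegeneracy of the local cup product. -/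
theorem exists_cupMu_ne_zero (hD : D = L.fixingSubgroup) {c : H1μ p D} (hc : c ≠ 0) :
    ∃ c', cupMu hz hμ c c' ≠ 0 := by
  subst hD
  obtain ⟨a, rfl⟩ := kummer_surjective (Fact.out : p.Prime).pos _ (Local.ok_fixingSubgroup L) c
  obtain ⟨b, hb⟩ := Local.exists_symb_ne_zero hz hμ hc
  exact ⟨kummer L.fixingSubgroup (Fact.out : p.Prime).pos b, hb⟩

end Nondeg

section AtPlace

variable (q : ℕ) [Fact q.Prime] {H : Subgroup GalQ} (g : GalQ) {z₀ : Mu p Qbar} (hz : z₀ ≠ 0)
  (hμ : ∀ (h : H) (z : Mu p Qbar), h • z = z)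

/-- The root of unity at the place `(q, g)`. -/
def placeZeta (z₀ : Mu p Qbar) : Mu p (PadicAlgCl q) := Coh.twistMap (muEmb q) g z₀

include hz in
theorem placeZeta_ne_zero : placeZeta q g z₀ ≠ 0 := by
  intro h
  have : NeZero p := ⟨(Fact.out : p.Prime).ne_zero⟩
  have h1 : g • z₀ = 0 := (muEmb_bijective (p := p) q).1 (h.trans (map_zero _).symm)
  exact hz ((smul_eq_zero_iff_eq g).1 h1)

include hμ in
theorem locGroup_smul (d : locGroup q H g) (z : Mu p (PadicAlgCl q)) : d • z = z := by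
  have : NeZero p := ⟨(Fact.out : p.Prime).ne_zero⟩
  obtain ⟨w, rfl⟩ := (muEmb_bijective (p := p) q).2 z
  have h1 := (Coh.isEquivariant_twistMap (isEquivariant_muEmb (p := p) q) g H) d (g⁻¹ • w)
  rw [hμ] at h1
  have h2 : Coh.twistMap (muEmb (p := p) q) g (g⁻¹ • w) = muEmb q w := by
    show muEmb q (g • g⁻¹ • w) = _
    rw [smul_inv_smul]
  rw [h2] at h1
  exact h1.symm

/-- Localisation of a Kummer class. -/
theorem locμ₁_kummer (a : Coh.inv H (Lx Qbar)) :
    locμ₁ p q H g (kummer H (Fact.out : p.Prime).pos a) =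
      kummer (locGroup q H g) (Fact.out : p.Prime).pos (locInv q g a) := by
  have hp : 0 < p := (Fact.out : p.Prime).pos
  refine kummerFun_eq (locGroup q H g) hp (locInv q g a)
    (r := lxMap (padicEmbedding q).toRingHom (g • rootP p (a : Lx Qbar))) ?_ fun d => ?_
  · rw [← map_nsmul, nsmul_smul_lx, nsmul_rootP hp]
    rfl
  · rw [Coh.Z1.map_apply]
    show muVal (muEmb q (g • (kummerFun H hp a : H → Mu p Qbar)
      (Coh.twistHom (localGaloisToGlobal q) g H d))) = _
    rw [show ∀ z : Mu p Qbar, muVal (muEmb q z) = lxMap (padicEmbedding q).toRingHom (muVal z) from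
      fun z => Additive.toMul.injective (Units.ext rfl), muVal_smul, muVal_kummerFun,
        smul_sub, map_sub]
    refine congrArg (· - _) (Additive.toMul.injective (Units.ext ?_))
    set w := (((rootP p (a : Lx Qbar)).toMul : Qbarˣ) : Qbar)
    show padicEmbedding q (g ((g⁻¹ * localGaloisToGlobal q d * g : GalQ) w)) =
      (d : GalLoc q) (padicEmbedding q (g w))
    rw [← padicEmbedding_localGaloisToGlobal, AlgEquiv.mul_apply,
      AlgEquiv.mul_apply, AlgEquiv.aut_inv, AlgEquiv.apply_symm_apply]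

/-- Localisation commutes with the cup product, for every family of levels. -/
theorem locTwist₂_cup {𝓛 : Coh.Levels GalQ}
    (hc : (galLevels ℚ_[q] (PadicAlgCl q)).Compat 𝓛 (localGaloisToGlobal q))
    (hsm : Coh.IsSmooth (𝓛.restrict H) (Mu p Qbar))
    (x y : Coh.H1 (𝓛.restrict H) (Mu p Qbar)) :
    Coh.locTwist₂ hc (isEquivariant_muEmb q) g H
        (Coh.cup₁₁ (isPairing_muPair hz hμ) hsm x y) =
      cupMu (placeZeta_ne_zero q g hz) (locGroup_smul q g hμ)
        (Coh.locTwist₁ hc (isEquivariant_muEmb q) g H x)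
        (Coh.locTwist₁ hc (isEquivariant_muEmb q) g H y) := by
  obtain ⟨a, rfl⟩ := Coh.H1.mk_surjective x
  obtain ⟨b, rfl⟩ := Coh.H1.mk_surjective y
  set φ := Coh.twistMap (muEmb (p := p) q) g
  have hdlog : ∀ z : Mu p Qbar,
      muDlog (placeZeta_ne_zero q g hz) (φ z) = muDlog hz z := fun z => by
    apply (zpSmul_flip_bijective (placeZeta_ne_zero q g hz)).1
    show zpSmul (muDlog (placeZeta_ne_zero q g hz) (φ z)) (placeZeta q g z₀) =
      zpSmul (muDlog hz z) (φ z₀)
    rw [zpSmul_muDlog, zpSmul_apply, ← map_nsmul, ← zpSmul_apply, zpSmul_muDlog]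
  have hpair : ∀ z w : Mu p Qbar,
      φ (muPair hz z w) = muPair (placeZeta_ne_zero q g hz) (φ z) (φ w) := fun z w => by
    rw [muPair_apply, muPair_apply, hdlog, zpSmul_apply, zpSmul_apply, map_nsmul]
  show Coh.H2.mk _ = Coh.H2.mk _
  refine congrArg _ (Subtype.ext (funext fun d => funext fun e => ?_))
  show φ (muPair hz ((a : H → Mu p Qbar) (Coh.twistHom (localGaloisToGlobal q) g H d))
      (Coh.twistHom (localGaloisToGlobal q) g H d •
        (b : H → Mu p Qbar) (Coh.twistHom (localGaloisToGlobal q) g H e))) = _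
  rw [hpair, Coh.isEquivariant_twistMap (isEquivariant_muEmb q) g H d]
  rfl

end AtPlace

end Fermat.Agent.Duality.Places

end
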