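import Fermat.Agent.Density.Places
import Fermat.Agent.Gal.Places

/-!
# Auxiliary primes `ℓ ≡ 1 mod p` with prescribed non-`p`-th powers
-/

set_option autoImplicit false

open IntermediateField
open scoped Pointwise

namespace Fermat.Agent.Duality.Places

local notation "Qbar" => AlgebraicClosure ℚ
local notation "GalQ" => AlgebraicClosure ℚ ≃ₐ[ℚ] AlgebraicClosure ℚ

/-- A prime is not a `p`-th power in `ℚ(ζ_p)`. -/
theorem exists_fix_zeta_move_root {p : ℕ} (hp : p.Prime) {q : ℕ} (hq : q.Prime) {ζ r : Qbar}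
    (hζ : IsPrimitiveRoot ζ p) (hr : r ^ p = (q : Qbar)) :
    ∃ s : GalQ, s ζ = ζ ∧ s r ≠ r := by
  by_contra hne
  push Not at hne
  have : IsGalois ℚ Qbar := Fermat.Agent.Gal.isGalois_rat_qbar
  have hint : IsIntegral ℚ ζ := (hζ.isIntegral hp.pos).tower_top
  have : FiniteDimensional ℚ ℚ⟮ζ⟯ := adjoin.finiteDimensional hint
  have hmem : r ∈ ℚ⟮ζ⟯ := by
    rw [← InfiniteGalois.fixedField_fixingSubgroup ℚ⟮ζ⟯]
    rintro ⟨s, hs⟩
    exact hne s ((mem_fixingSubgroup_iff _ s).1 hs ζ (mem_adjoin_simple_self ℚ ζ))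
  have hd : Module.finrank ℚ ℚ⟮ζ⟯ = p - 1 := by
    rw [adjoin.finrank hint, ← Polynomial.cyclotomic_eq_minpoly_rat hζ hp.pos,
      Polynomial.natDegree_cyclotomic, Nat.totient_prime hp]
  set x : ℚ⟮ζ⟯ := ⟨r, hmem⟩
  have hxp : x ^ p = algebraMap ℚ ℚ⟮ζ⟯ (q : ℚ) := by
    refine Subtype.ext ?_
    rw [SubmonoidClass.coe_pow, show (x : Qbar) = r from rfl, hr]
    simp
  have hN := congrArg (Algebra.norm ℚ) hxp
  rw [map_pow, Algebra.norm_algebraMap, hd] at hN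
  have hN0 : Algebra.norm ℚ x ≠ 0 := fun h => by
    rw [h, zero_pow hp.ne_zero] at hN
    exact pow_ne_zero _ (by exact_mod_cast hq.ne_zero) hN.symm
  have : Fact q.Prime := ⟨hq⟩
  have hv := congrArg (padicValRat q) hN
  rw [padicValRat.pow, padicValRat.pow, padicValRat.self hq.one_lt, mul_one] at hv
  have h2 : (p : ℤ) ∣ ((p - 1 : ℕ) : ℤ) := ⟨_, hv.symm⟩
  have := Nat.le_of_dvd (by have := hp.two_le; omega) (Int.natCast_dvd_natCast.1 h2)
  have := hp.two_le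
  omega

/-- **Auxiliary primes.** -/
theorem exists_aux_prime {p : ℕ} (hp : p.Prime) {q₁ q₂ : ℕ} (h₁ : q₁.Prime) (h₂ : q₂.Prime)
    (S : Finset ℕ) :
    ∃ ℓ : ℕ, ℓ.Prime ∧ ℓ ∉ S ∧ ℓ ≠ q₁ ∧ ℓ ≠ q₂ ∧ p ∣ ℓ - 1 ∧
      (∀ y : ZMod ℓ, y ^ p ≠ (q₁ : ZMod ℓ)) ∧ ∀ y : ZMod ℓ, y ^ p ≠ (q₂ : ZMod ℓ) := by
  classical
  have : NeZero p := ⟨hp.ne_zero⟩
  have : IsGalois ℚ Qbar := Fermat.Agent.Gal.isGalois_rat_qbar
  obtain ⟨ζ, hζ⟩ := HasEnoughRootsOfUnity.exists_primitiveRoot Qbar p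
  obtain ⟨r₁, hr₁⟩ := IsAlgClosed.exists_pow_nat_eq ((q₁ : ℕ) : Qbar) hp.pos
  obtain ⟨r₂, hr₂⟩ := IsAlgClosed.exists_pow_nat_eq ((q₂ : ℕ) : Qbar) hp.pos
  obtain ⟨a, haζ, ha⟩ := exists_fix_zeta_move_root hp h₁ hζ hr₁
  obtain ⟨b, hbζ, hb⟩ := exists_fix_zeta_move_root hp h₂ hζ hr₂
  obtain ⟨σ, hσζ, hσ₁, hσ₂⟩ : ∃ σ : GalQ, σ ζ = ζ ∧ σ r₁ ≠ r₁ ∧ σ r₂ ≠ r₂ := by
    by_cases h : a r₂ = r₂
    · by_cases h' : b r₁ = r₁
      · refine ⟨a * b, ?_, ?_, ?_⟩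
        · rw [AlgEquiv.mul_apply, hbζ, haζ]
        · rwa [AlgEquiv.mul_apply, h']
        · rw [AlgEquiv.mul_apply]
          intro hh
          exact hb (a.injective (hh.trans h.symm))
      · exact ⟨b, hbζ, h', hb⟩
    · exact ⟨a, haζ, ha, h⟩
  set L := IntermediateField.adjoin ℚ ({ζ, r₁, r₂} : Set Qbar)
  have : FiniteDimensional ℚ L :=
    IntermediateField.finiteDimensional_adjoin fun x _ =>
      (Algebra.IsAlgebraic.isAlgebraic x).isIntegral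
  set N := IntermediateField.normalClosure ℚ L Qbar
  have : Normal ℚ N := normalClosure.normal ℚ L Qbar
  obtain ⟨ℓ, hℓ, hℓS, hex⟩ :=
    Density.exists_prime_zpowers_restrict_eq N σ (S ∪ {p, q₁, q₂})
  simp only [Finset.mem_union, Finset.mem_insert, Finset.mem_singleton, not_or] at hℓS
  obtain ⟨hS, hℓp, hℓ1, hℓ2⟩ := hℓS
  obtain ⟨A, hA⟩ := Gal.exists_liesOverPrime (L := Qbar) hℓ
  obtain ⟨τ, hτ⟩ := Gal.exists_isFrobeniusAt hℓ hA
  obtain ⟨g, hg⟩ := (hex A hA).2 τ hτ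
  set t := g * τ * g⁻¹
  have hmemN : ∀ x, x ∈ ({ζ, r₁, r₂} : Set Qbar) → x ∈ N := fun x hx =>
    L.le_normalClosure (subset_adjoin ℚ _ hx)
  -- fixed points of `σ` and `t` on `N` agree
  have hfix : ∀ x ∈ N, σ x = x ↔ t x = x := by
    intro x hx
    have key : ∀ u v : GalQ, AlgEquiv.restrictNormalHom N v ∈
        Subgroup.zpowers (AlgEquiv.restrictNormalHom N u) → u x = x → v x = x := by
      intro u v hv hu
      have hu' : AlgEquiv.restrictNormalHom N u ∈ MulAction.stabilizer (N ≃ₐ[ℚ] N) (⟨x, hx⟩ : N) :=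
        Subtype.ext ((AlgEquiv.restrictNormal_commutes u N ⟨x, hx⟩).trans hu)
      have h1 := Subgroup.zpowers_le.2 hu' hv
      exact (AlgEquiv.restrictNormal_commutes v N ⟨x, hx⟩).symm.trans
        (congrArg Subtype.val (MulAction.mem_stabilizer_iff.1 h1))
    exact ⟨key σ t (by rw [← hg]; exact Subgroup.mem_zpowers _),
      key t σ (by rw [hg]; exact Subgroup.mem_zpowers _)⟩
  have htζ : t ζ = ζ := (hfix ζ (hmemN ζ (by simp))).1 hσζ
  have hτfix : ∀ x, τ x = x → t (g x) = g x := fun x hx => by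
    simp only [t, AlgEquiv.mul_apply, AlgEquiv.aut_inv, AlgEquiv.symm_apply_apply, hx]
  have hℓp' : ¬ ℓ ∣ p := fun h => hℓp ((Nat.prime_dvd_prime_iff_eq hℓ hp).1 h)
  -- `ℓ ≡ 1 mod p`
  have hdiv : p ∣ ℓ - 1 := by
    have h1 : τ (g⁻¹ ζ) = g⁻¹ ζ := by
      have := congrArg (g⁻¹ : GalQ) htζ
      simpa [t, AlgEquiv.mul_apply, AlgEquiv.aut_inv] using this
    have hζ' : IsPrimitiveRoot (g⁻¹ ζ) p := hζ.map_of_injective (g⁻¹ : GalQ).injective
    rw [Gal.apply_rootOfUnity_of_isFrobeniusAt hτ hℓ hA hℓp' hζ'.pow_eq_one] at h1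
    conv_rhs at h1 => rw [← pow_one (g⁻¹ ζ)]
    rw [(hζ'.isUnit hp.ne_zero).unit_spec.symm] at h1
    have h2 : (g⁻¹ ζ) ^ (ℓ - 1) = 1 := by
      have hne : g⁻¹ ζ ≠ 0 := hζ'.ne_zero hp.ne_zero
      have h3 : (g⁻¹ ζ) ^ (ℓ - 1) * g⁻¹ ζ = 1 * g⁻¹ ζ := by
        rw [← pow_succ, Nat.sub_add_cancel hℓ.pos, one_mul]
        simpa using h1
      exact mul_right_cancel₀ hne h3
    exact hζ'.dvd_of_pow_eq_one _ h2
  -- a `p`-th power residue splits
  have hres : ∀ (q : ℕ), q.Prime → ℓ ≠ q → ∀ y : ZMod ℓ, y ^ p = (q : ZMod ℓ) →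
      ∀ x : Qbar, x ^ p = (q : Qbar) → τ x = x := by
    intro q hq hℓq y hy x hx
    have : Fact ℓ.Prime := ⟨hℓ⟩
    obtain ⟨k, rfl⟩ := ZMod.natCast_zmod_surjective y
    have hxA : x ∈ A := Gal.mem_of_isIntegral A
      (IsIntegral.of_pow hp.pos (hx ▸ isIntegral_algebraMap (x := (q : ℤ))))
    have hqu : ((q : ℕ) : Qbar) ∉ A.nonunits := fun h =>
      hℓq ((Nat.prime_dvd_prime_iff_eq hℓ hq).1 ((Gal.natCast_mem_nonunits_iff A hℓ hA q).1 h))
    obtain ⟨m, hm⟩ : (ℓ : ℤ) ∣ ((k : ℤ) ^ p - q) := by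
      rw [← ZMod.intCast_zmod_eq_zero_iff_dvd]; push_cast; rw [hy, sub_self]
    have hk : ¬ ℓ ∣ k := fun h => by
      rw [(ZMod.natCast_eq_zero_iff k ℓ).2 h, zero_pow hp.ne_zero, eq_comm,
        ZMod.natCast_eq_zero_iff] at hy
      exact hℓq ((Nat.prime_dvd_prime_iff_eq hℓ hq).1 hy)
    obtain ⟨m', hm'⟩ : (ℓ : ℤ) ∣ ((k : ℤ) ^ (ℓ - 1) - 1) := by
      rw [← ZMod.intCast_zmod_eq_zero_iff_dvd]; push_cast
      rw [ZMod.pow_card_sub_one_eq_one (by rwa [Ne, ZMod.natCast_eq_zero_iff]), sub_self]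
    obtain ⟨j, hj⟩ := hdiv
    -- `x^ℓ - x` is a multiple of `ℓ` in `A`
    have hxl : x ^ ℓ - x ∈ A.nonunits := by
      have e : x ^ ℓ - x = x * (((q : ℕ) : Qbar) ^ j - 1) := by
        conv_lhs => rw [← Nat.sub_add_cancel hℓ.pos]
        rw [pow_succ, hj, pow_mul, hx]; ring
      obtain ⟨c, hc⟩ := (sub_dvd_pow_sub_pow ((k : ℤ) ^ p) (q : ℤ) j)
      have hq' : ((q : ℤ) ^ j - 1) = (ℓ : ℤ) * (m' - m * c) := by
        rw [← pow_mul, ← hj, hm] at hc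
        linear_combination hm' - hc
      rw [e]
      refine Gal.mul_mem_nonunits_right A hxA ?_
      have hq'' : ((q : ℕ) : Qbar) ^ j - 1 = (ℓ : Qbar) * ((m' - m * c : ℤ) : Qbar) := by
        have := congrArg (fun z : ℤ => (z : Qbar)) hq'
        simpa using this
      rw [hq'']
      exact Gal.mul_mem_nonunits_left A hA (intCast_mem A _)
    have hdiff : τ x - x ∈ A.nonunits := by
      have := add_mem (((Gal.isFrobeniusAt_iff A τ ℓ).1 hτ).2 x hxA) hxl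
      rwa [sub_add_sub_cancel] at this
    by_contra hne
    obtain ⟨η, hη, hτx⟩ : ∃ η : Qbar, η ^ p = 1 ∧ τ x = η * x := by
      have hx0 : x ≠ 0 := fun h => by
        rw [h, zero_pow hp.ne_zero, eq_comm, Nat.cast_eq_zero] at hx
        exact hq.ne_zero hx
      refine ⟨τ x / x, ?_, (div_mul_cancel₀ _ hx0).symm⟩
      rw [div_pow, ← map_pow, hx, map_natCast, div_self (by exact_mod_cast hq.ne_zero)]
    have hη1 : η ≠ 1 := fun h => hne (by rw [hτx, h, one_mul])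
    have hηprim : IsPrimitiveRoot η p := by
      obtain ⟨i, hi, rfl⟩ := hζ.eq_pow_of_pow_eq_one hη
      refine hζ.pow_of_coprime i ((hp.coprime_iff_not_dvd.2 fun hd => hη1 ?_).symm)
      obtain ⟨w, rfl⟩ := hd
      rw [pow_mul, hζ.pow_eq_one, one_pow]
    apply hℓp'
    rw [← Gal.natCast_mem_nonunits_iff A hℓ hA]
    -- `p = ∏ (1 - η^i)`
    have hprod : (p : Qbar) = (1 - η) * ∏ i ∈ (Finset.range (p - 1)).erase 0,
        (1 - η ^ (i + 1)) := by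
      have h1 := hηprim.pow_sub_one_eq (R := Qbar) hp.one_lt
      have h2 : ∏ i ∈ Finset.range (p - 1), (1 - η ^ (i + 1)) = (p : Qbar) := by
        obtain ⟨w, hw⟩ : ∃ w, p = w + 1 := ⟨p - 1, (Nat.sub_add_cancel hp.pos).symm⟩
        have hη' : IsPrimitiveRoot η (w + 1) := hw ▸ hηprim
        rw [hw, Nat.add_sub_cancel]
        simpa using hη'.prod_one_sub_pow_eq_order
      rw [← h2, ← Finset.mul_prod_erase _ _ (Finset.mem_range.2 (by have := hp.two_le; omega) :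
        0 ∈ Finset.range (p - 1)), zero_add, pow_one]
    have hηA : η ∈ A := Gal.mem_of_isIntegral A (hηprim.isIntegral hp.pos)
    rw [hprod]
    refine Gal.mul_mem_nonunits_left A ?_ (prod_mem fun i _ => sub_mem (one_mem A) (pow_mem hηA _))
    have hxu : x⁻¹ ∈ A := by
      rcases A.mem_or_inv_mem x⁻¹ with h | h
      · exact h
      · by_contra hnx
        refine hqu ?_
        rw [← hx]
        have hxn : x ∈ A.nonunits := by
          rw [ValuationSubring.mem_nonunits_iff_or]; exact Or.inr hnx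
        obtain ⟨w, hw⟩ : ∃ w, p = w + 1 := ⟨p - 1, (Nat.sub_add_cancel hp.pos).symm⟩
        rw [hw, pow_succ]
        exact Gal.mul_mem_nonunits_right A (pow_mem hxA w) hxn
    have hx0 : x ≠ 0 := fun h => by
      rw [h, zero_pow hp.ne_zero, eq_comm, Nat.cast_eq_zero] at hx
      exact hq.ne_zero hx
    have h3 : 1 - η = (τ x - x) * (-x⁻¹) := by
      rw [hτx]; field_simp; ring
    rw [h3]
    exact Gal.mul_mem_nonunits_left A hdiff (neg_mem hxu)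
  have hmove : ∀ (q : ℕ) (r : Qbar), q.Prime → ℓ ≠ q → r ^ p = (q : Qbar) →
      r ∈ ({ζ, r₁, r₂} : Set Qbar) → σ r ≠ r → ∀ y : ZMod ℓ, y ^ p ≠ (q : ZMod ℓ) := by
    intro q r hq hℓq hr hmem hσr y hy
    refine hσr ((hfix r (hmemN r hmem)).2 ?_)
    have h1 := hτfix _ (hres q hq hℓq y hy (g⁻¹ r) (by rw [← map_pow, hr, map_natCast]))
    rwa [AlgEquiv.aut_inv, AlgEquiv.apply_symm_apply] at h1
  exact ⟨ℓ, hℓ, hS, hℓ1, hℓ2, hdiv, hmove q₁ r₁ h₁ hℓ1 hr₁ (by simp) hσ₁,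
    hmove q₂ r₂ h₂ hℓ2 hr₂ (by simp) hσ₂⟩

end Fermat.Agent.Duality.Places
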