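import Fermat.Agent.Duality.Places.Local

/-!
# Local fields of a number field inside `ℚ̄`

For `F ⊂ ℚ̄`, `localField q F` is the subfield of `PadicAlgCl q` generated by the image of `F`:
its Galois group is the preimage of that of `F`, the image of `F` is dense in it and every finite
extension of `ℚ_q` is of this form.
-/

set_option autoImplicit false

open Polynomial IntermediateField
open scoped Pointwise

namespace Fermat.Agent.Duality.Places

local notation "Qbar" => AlgebraicClosure ℚ

variable (q : ℕ) [Fact q.Prime]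

local notation "Ω" => PadicAlgCl q
local notation "ι" => padicEmbedding q

/-- The local field generated by the image of `F`. -/
noncomputable def localField (F : IntermediateField ℚ Qbar) : IntermediateField ℚ_[q] Ω :=
  adjoin ℚ_[q] (ι '' (F : Set Qbar))

theorem embedding_mem_localField {F : IntermediateField ℚ Qbar} {x : Qbar} (hx : x ∈ F) :
    ι x ∈ localField q F :=
  subset_adjoin _ _ (Set.mem_image_of_mem _ hx)

theorem localField_mono {F F' : IntermediateField ℚ Qbar} (h : F ≤ F') :
    localField q F ≤ localField q F' :=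
  adjoin.mono _ _ _ (Set.image_mono h)

theorem localField_adjoin (s : Set Qbar) :
    localField q (adjoin ℚ s) = adjoin ℚ_[q] (ι '' s) := by
  refine le_antisymm ?_ (adjoin.mono _ _ _ (Set.image_mono (subset_adjoin ℚ s)))
  rw [localField, adjoin_le_iff, Set.image_subset_iff]
  have h : adjoin ℚ s ≤ ((adjoin ℚ_[q] (ι '' s)).restrictScalars ℚ).comap (padicEmbedding q) :=
    adjoin_le_iff.2 fun a ha => subset_adjoin _ _ (Set.mem_image_of_mem _ ha)
  exact h

/-- Every finite subfield of `ℚ̄` is generated by one element. -/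
theorem exists_eq_adjoin_simple (F : IntermediateField ℚ Qbar) [FiniteDimensional ℚ F] :
    ∃ b : Qbar, F = ℚ⟮b⟯ := by
  obtain ⟨b, hb⟩ := Field.exists_primitive_element ℚ F
  refine ⟨b, ?_⟩
  have h := congrArg (IntermediateField.map F.val) hb
  erw [adjoin_map, ← AlgHom.fieldRange_eq_map, IntermediateField.fieldRange_val,
    Set.image_singleton] at h
  exact h.symm

theorem isIntegral_embedding (a : Qbar) : IsIntegral ℚ_[q] (ι a) :=
  (Algebra.IsAlgebraic.isAlgebraic _).isIntegral

instance finiteDimensional_localField (F : IntermediateField ℚ Qbar) [FiniteDimensional ℚ F] :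
    FiniteDimensional ℚ_[q] (localField q F) := by
  obtain ⟨b, rfl⟩ := exists_eq_adjoin_simple F
  rw [localField_adjoin, Set.image_singleton]
  exact adjoin.finiteDimensional (isIntegral_embedding q b)

/-- The Galois group of the local field is the preimage of that of `F`. -/
theorem fixingSubgroup_localField (F : IntermediateField ℚ Qbar) :
    (localField q F).fixingSubgroup = F.fixingSubgroup.comap (localGaloisToGlobal q) := by
  ext τ
  rw [Subgroup.mem_comap, IntermediateField.mem_fixingSubgroup_iff,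
    IntermediateField.mem_fixingSubgroup_iff]
  refine ⟨fun h x hx => (padicEmbedding q).toRingHom.injective
    ((padicEmbedding_localGaloisToGlobal q τ x).trans (h _ (embedding_mem_localField q hx))),
    fun h x hx => ?_⟩
  have hle : localField q F ≤ fixedField (Subgroup.zpowers τ) := by
    rw [localField, adjoin_le_iff]
    rintro _ ⟨a, ha, rfl⟩ ⟨g, m, rfl⟩
    show (τ ^ m) (ι a) = ι a
    refine MulAction.mem_stabilizer_iff.1
      (zpow_mem (K := MulAction.stabilizer (Ω ≃ₐ[ℚ_[q]] Ω) (ι a)) ?_ m)
    show τ (ι a) = ι a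
    rw [← padicEmbedding_localGaloisToGlobal, h a ha]
  exact hle hx ⟨τ, Subgroup.mem_zpowers τ⟩

/-- The image of a finite subfield is dense in its local field. -/
theorem localField_subset_closure (F : IntermediateField ℚ Qbar) [FiniteDimensional ℚ F] :
    (localField q F : Set Ω) ⊆ closure (ι '' (F : Set Qbar)) := by
  let R : Subring Ω := (F.toSubalgebra.map (padicEmbedding q)).toSubring.topologicalClosure
  have hR : (R : Set Ω) = closure (ι '' (F : Set Qbar)) := rfl
  have hconst : ∀ c : ℚ_[q], algebraMap ℚ_[q] Ω c ∈ R := by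
    intro c
    show algebraMap ℚ_[q] Ω c ∈ (R : Set Ω)
    rw [hR]
    have hc : c ∈ closure (Set.range (Rat.cast : ℚ → ℚ_[q])) := Padic.denseRange_ratCast q c
    refine (map_mem_closure (f := algebraMap ℚ_[q] Ω) (continuous_algebraMap _ _) hc ?_)
    rintro _ ⟨r, rfl⟩
    exact ⟨(r : Qbar), by simp, (algebraMap_rat_eq q r).symm⟩
  intro x hx
  have hx' : x ∈ Algebra.adjoin ℚ_[q] (ι '' (F : Set Qbar)) := by
    rw [← adjoin_toSubalgebra_of_isAlgebraic fun y _ => Algebra.IsAlgebraic.isAlgebraic y]
    exact hx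
  rw [← hR]
  refine Algebra.adjoin_induction (p := fun y _ => y ∈ R) ?_ hconst
    (fun y z _ _ => R.add_mem) (fun y z _ _ => R.mul_mem) hx'
  exact fun y hy => subset_closure hy

theorem exists_mem_norm_sub_lt (F : IntermediateField ℚ Qbar) [FiniteDimensional ℚ F] {x : Ω}
    (hx : x ∈ localField q F) {ε : ℝ} (hε : 0 < ε) : ∃ a ∈ F, ‖x - ι a‖ < ε := by
  obtain ⟨_, ⟨a, ha, rfl⟩, h⟩ :=
    Metric.mem_closure_iff.1 (localField_subset_closure q F hx) ε hε
  exact ⟨a, ha, by rwa [dist_eq_norm] at h⟩

/-- Every finite extension of `ℚ_q` inside `Ω` is the local field of a number field. -/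
theorem exists_localField_eq (L : IntermediateField ℚ_[q] Ω) [FiniteDimensional ℚ_[q] L] :
    ∃ F : IntermediateField ℚ Qbar, FiniteDimensional ℚ F ∧ localField q F = L := by
  classical
  obtain ⟨x, hx⟩ := Field.exists_primitive_element ℚ_[q] L
  have hL : L = ℚ_[q]⟮(x : Ω)⟯ := by
    have h := congrArg (IntermediateField.map L.val) hx
    rw [adjoin_map, ← AlgHom.fieldRange_eq_map, IntermediateField.fieldRange_val,
      Set.image_singleton] at h
    exact h.symm
  have hxi : IsIntegral ℚ_[q] (x : Ω) := (Algebra.IsAlgebraic.isAlgebraic _).isIntegral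
  set f := minpoly ℚ_[q] (x : Ω)
  set S : Finset Ω := (f.aroots Ω).toFinset.erase (x : Ω)
  obtain ⟨δ, hδ, hSδ⟩ : ∃ δ : ℝ, 0 < δ ∧ ∀ y ∈ S, δ ≤ ‖(x : Ω) - y‖ := by
    by_cases hS : S.Nonempty
    · obtain ⟨y, hy, hmin⟩ := S.exists_min_image (fun y => ‖(x : Ω) - y‖) hS
      refine ⟨‖(x : Ω) - y‖, norm_pos_iff.2 (sub_ne_zero.2 ?_), hmin⟩
      exact fun h => (Finset.mem_erase.1 hy).1 h.symm
    · exact ⟨1, one_pos, fun y hy => absurd ⟨y, hy⟩ hS⟩
  obtain ⟨a, g, hgm, hgd, hga, ha⟩ := exists_root_near q (x : Ω) hδ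
  have hmem : (x : Ω) ∈ ℚ_[q]⟮ι a⟯ :=
    IsKrasner.krasner (minpoly.irreducible hxi).separable (IsAlgClosed.splits _)
      (isIntegral_embedding q a) fun y hy hne => lt_of_lt_of_le ha (hSδ y (Finset.mem_erase.2
        ⟨hne.symm, by
          rw [Multiset.mem_toFinset, mem_aroots]
          exact ⟨minpoly.ne_zero hxi, hy.aeval_eq_zero⟩⟩))
  have hai : IsIntegral ℚ a := ⟨g, hgm, hga⟩
  refine ⟨ℚ⟮a⟯, adjoin.finiteDimensional hai, ?_⟩
  rw [localField_adjoin, Set.image_singleton, hL]
  have : FiniteDimensional ℚ_[q] ℚ_[q]⟮ι a⟯ := adjoin.finiteDimensional (isIntegral_embedding q a)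
  refine (IntermediateField.eq_of_le_of_finrank_le (adjoin_simple_le_iff.2 hmem) ?_).symm
  rw [adjoin.finrank hxi, adjoin.finrank (isIntegral_embedding q a)]
  change _ ≤ f.natDegree
  rw [show f.natDegree = (g.map (algebraMap ℚ ℚ_[q])).natDegree by
    rw [natDegree_map]; exact hgd.symm]
  refine natDegree_le_of_dvd (minpoly.dvd _ _ ?_) (hgm.map _).ne_zero
  rw [aeval_map_algebraMap, aeval_algHom_apply, hga, map_zero]

end Fermat.Agent.Duality.Places
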