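import Fermat.Agent.Duality.Places.Adic
import Fermat.Agent.Gal.Frobenius
import Fermat.Prelude.Def_ExtCitation_KummerBridge

/-!
# An auxiliary cyclic field of conductor a prime `ℓ ≡ 1 mod p`

`exists_auxChar` gives a character of `GalQ` of order `p` cut out inside `ℚ(ζ_ℓ)`. It is unramified
away from `ℓ`, nonzero at the primes which are not `p`-th powers modulo `ℓ`, and nonzero at `ℓ`,
where `ℓ` is a local norm.
-/

set_option autoImplicit false

open ExtCitation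
open scoped Pointwise

namespace Fermat.Agent.Duality.Places

/-- A surjection of a finite cyclic group of order divisible by `p` onto `ZMod p`. -/
theorem exists_hom_zmod (G : Type*) [CommGroup G] [Finite G] [IsCyclic G] (p : ℕ)
    (hp : p ∣ Nat.card G) :
    ∃ ψ : G →* Multiplicative (ZMod p),
      Function.Surjective ψ ∧ ∀ u, ψ u = 1 ↔ ∃ v, v ^ p = u := by
  have : NeZero (Nat.card G) := ⟨Nat.card_pos.ne'⟩
  let e := zmodCyclicMulEquiv (G := G) inferInstance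
  let c : Multiplicative (ZMod (Nat.card G)) →* Multiplicative (ZMod p) :=
    AddMonoidHom.toMultiplicative (ZMod.castHom hp (ZMod p)).toAddMonoidHom
  have hc : Function.Surjective c := fun z => by
    obtain ⟨w, hw⟩ := ZMod.castHom_surjective hp z.toAdd
    exact ⟨Multiplicative.ofAdd w, Multiplicative.toAdd.injective hw⟩
  refine ⟨c.comp e.symm.toMonoidHom, fun z => ?_, fun u => ⟨fun h => ?_, ?_⟩⟩
  · obtain ⟨w, rfl⟩ := hc z
    exact ⟨e w, by simp⟩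
  · set k := (e.symm u).toAdd
    have hk : ((k.val : ℕ) : ZMod p) = 0 := by
      rw [ZMod.natCast_val]
      exact congrArg Multiplicative.toAdd h
    obtain ⟨j, hj⟩ := (ZMod.natCast_eq_zero_iff _ _).1 hk
    refine ⟨e (Multiplicative.ofAdd (j : ZMod (Nat.card G))), ?_⟩
    rw [← map_pow, ← e.apply_symm_apply u]
    congr 1
    refine Multiplicative.toAdd.injective ?_
    rw [toAdd_pow, toAdd_ofAdd, nsmul_eq_mul, ← Nat.cast_mul, ← hj, ZMod.natCast_zmod_val]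
  · rintro ⟨v, rfl⟩
    rw [map_pow]
    refine Multiplicative.toAdd.injective ?_
    rw [toAdd_pow, toAdd_one]
    exact ZModModule.char_nsmul_eq_zero p _

variable (p : ℕ) [Fact p.Prime] {ℓ : ℕ} [Fact ℓ.Prime]

/-- A character of order `p` of `GalQ` of conductor `ℓ`. -/
structure AuxChar (χ : GalQ →* Multiplicative (ZMod p)) (ψ : (ZMod ℓ)ˣ →* Multiplicative (ZMod p)) :
    Prop where
  surj : Function.Surjective ψ
  eq_one_iff : ∀ u, ψ u = 1 ↔ ∃ v, v ^ p = u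
  eq : χ = ψ.comp (cycloChar ℓ)

theorem apply_eq_pow_cycloChar {ζ : Qbar} (hζ : ζ ^ ℓ = 1) (g : GalQ) :
    g ζ = ζ ^ ((cycloChar ℓ g : (ZMod ℓ)ˣ) : ZMod ℓ).val := by
  have : NeZero ℓ := ⟨(Fact.out : ℓ.Prime).ne_zero⟩
  exact modularCyclotomicCharacter.spec Qbar (card_rootsOfUnity_eq_self ℓ) (g : Qbar ≃+* Qbar)
    (rootsOfUnity.mkOfPowEq ζ hζ).2

theorem cycloChar_eq_of_apply_eq {ζ : Qbar} (hζ : IsPrimitiveRoot ζ ℓ) {g : GalQ} {u : (ZMod ℓ)ˣ}
    (h : g ζ = ζ ^ (u : ZMod ℓ).val) : cycloChar ℓ g = u := by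
  have : NeZero ℓ := ⟨(Fact.out : ℓ.Prime).ne_zero⟩
  refine Units.ext (ZMod.val_injective ℓ ?_)
  exact hζ.pow_inj (ZMod.val_lt _) (ZMod.val_lt _)
    ((apply_eq_pow_cycloChar hζ.pow_eq_one g).symm.trans h)

theorem exists_auxChar (hℓ : p ∣ ℓ - 1) :
    ∃ (χ : GalQ →* Multiplicative (ZMod p)) (ψ : (ZMod ℓ)ˣ →* Multiplicative (ZMod p)),
      AuxChar p χ ψ := by
  have : NeZero ℓ := ⟨(Fact.out : ℓ.Prime).ne_zero⟩
  obtain ⟨ψ, h1, h2⟩ := exists_hom_zmod (ZMod ℓ)ˣ p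
    (by rwa [Nat.card_eq_fintype_card, ZMod.card_units])
  exact ⟨_, ψ, h1, h2, rfl⟩

variable {p} {χ : GalQ →* Multiplicative (ZMod p)} {ψ : (ZMod ℓ)ˣ →* Multiplicative (ZMod p)}
  (hχ : AuxChar p χ ψ)

include hχ in
/-- The character factors through `ℚ(ζ_ℓ)`. -/
theorem AuxChar.eq_one_of_fixes {ζ : Qbar} (hζ : IsPrimitiveRoot ζ ℓ) {g : GalQ} (h : g ζ = ζ) :
    χ g = 1 := by
  rw [hχ.eq, MonoidHom.comp_apply, cycloChar_eq_of_apply_eq hζ (u := 1), map_one]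
  have : Fact (1 < ℓ) := ⟨(Fact.out : ℓ.Prime).one_lt⟩
  rw [Units.val_one, ZMod.val_one, pow_one, h]

include hχ in
theorem AuxChar.ok_ker : (galLevels ℚ Qbar).ok χ.ker := by
  obtain ⟨ζ, hζ⟩ := HasEnoughRootsOfUnity.exists_primitiveRoot Qbar ℓ
  have : NeZero ℓ := ⟨(Fact.out : ℓ.Prime).ne_zero⟩
  refine ⟨IntermediateField.adjoin ℚ {ζ},
    IntermediateField.adjoin.finiteDimensional (hζ.isIntegral (NeZero.pos ℓ)).tower_top,
    fun g hg => MonoidHom.mem_ker.2 (hχ.eq_one_of_fixes hζ ?_)⟩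
  exact (IntermediateField.mem_fixingSubgroup_iff _ g).1 hg ζ
    (IntermediateField.mem_adjoin_simple_self ℚ ζ)

include hχ in
theorem AuxChar.surjective : Function.Surjective χ := by
  intro z
  obtain ⟨u, rfl⟩ := hχ.surj z
  obtain ⟨ζ, hζ⟩ := HasEnoughRootsOfUnity.exists_primitiveRoot Qbar ℓ
  have hℓ : ℓ.Prime := Fact.out
  have : NeZero ℓ := ⟨hℓ.ne_zero⟩
  have hcop : (u : ZMod ℓ).val.Coprime ℓ := ZMod.val_coe_unit_coprime u
  have hζ' : IsPrimitiveRoot (ζ ^ (u : ZMod ℓ).val) ℓ := hζ.pow_of_coprime _ hcop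
  have : Normal ℚ Qbar := Fermat.Agent.Gal.isGalois_rat_qbar.to_normal
  have hmin : minpoly ℚ ζ = minpoly ℚ (ζ ^ (u : ZMod ℓ).val) := by
    rw [← Polynomial.cyclotomic_eq_minpoly_rat hζ hℓ.pos,
      ← Polynomial.cyclotomic_eq_minpoly_rat hζ' hℓ.pos]
  obtain ⟨g, hg⟩ := (isConjRoot_iff_exists_algEquiv (K := ℚ)).1 hmin.symm
  exact ⟨g, by rw [hχ.eq, MonoidHom.comp_apply, cycloChar_eq_of_apply_eq hζ hg]⟩

section LocalBehaviour

variable (r : ℕ) [Fact r.Prime]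

include hχ in
/-- Unramified away from `ℓ`. -/
theorem AuxChar.eq_one_of_mem_inertia (hr : r ≠ ℓ) {A : ValuationSubring Qbar}
    (hA : A.LiesOverPrime r) {g : GalQ} (hg : g ∈ A.inertiaSubgroupIn ℚ) : χ g = 1 := by
  obtain ⟨ζ, hζ⟩ := HasEnoughRootsOfUnity.exists_primitiveRoot Qbar ℓ
  obtain ⟨F, hF⟩ := Fermat.Agent.Gal.exists_isFrobeniusAt (Fact.out : r.Prime) hA
  have hrℓ : ¬ r ∣ ℓ := fun h =>
    hr ((Nat.prime_dvd_prime_iff_eq (Fact.out : r.Prime) Fact.out).1 h)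
  have h1 := Fermat.Agent.Gal.apply_rootOfUnity_of_isFrobeniusAt hF Fact.out hA hrℓ hζ.pow_eq_one
  have h2 := Fermat.Agent.Gal.apply_rootOfUnity_of_isFrobeniusAt
    (Fermat.Agent.Gal.isFrobeniusAt_mul_inertia hF hg) Fact.out hA hrℓ hζ.pow_eq_one
  rw [AlgEquiv.mul_apply] at h2
  refine hχ.eq_one_of_fixes hζ (F.injective ?_)
  rw [h2, h1]

include hχ in
/-- Inert at primes which are not `p`-th powers modulo `ℓ`. -/
theorem AuxChar.exists_local_ne_one (hr : r ≠ ℓ)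
    (hpow : ∀ y : ZMod ℓ, y ^ p ≠ (r : ZMod ℓ)) :
    ∃ d : GalLoc r, χ (localGaloisToGlobal r d) ≠ 1 := by
  obtain ⟨ζ, hζ⟩ := HasEnoughRootsOfUnity.exists_primitiveRoot Qbar ℓ
  have hA := liesOverPrime_padicPlace r
  obtain ⟨F, hF⟩ := Fermat.Agent.Gal.exists_isFrobeniusAt (Fact.out : r.Prime) hA
  have hrℓ : ¬ r ∣ ℓ := fun h =>
    hr ((Nat.prime_dvd_prime_iff_eq (Fact.out : r.Prime) Fact.out).1 h)
  have h1 := Fermat.Agent.Gal.apply_rootOfUnity_of_isFrobeniusAt hF Fact.out hA hrℓ hζ.pow_eq_one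
  have hmem : F ∈ (localGaloisToGlobal r).range := by
    rw [range_localGaloisToGlobal]
    exact ((Fermat.Agent.Gal.isFrobeniusAt_iff _ F r).1 hF).1
  obtain ⟨d, rfl⟩ := hmem
  refine ⟨d, fun h => ?_⟩
  have hr0 : (r : ZMod ℓ) ≠ 0 := by
    rw [Ne, ZMod.natCast_eq_zero_iff]
    exact fun h => hr ((Nat.prime_dvd_prime_iff_eq Fact.out (Fact.out : r.Prime)).1 h).symm
  have hc : cycloChar ℓ (localGaloisToGlobal r d) = Units.mk0 _ hr0 := by
    refine cycloChar_eq_of_apply_eq hζ (h1.trans ?_)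
    rw [Units.val_mk0, ZMod.val_natCast]
    conv_lhs => rw [← Nat.mod_add_div r ℓ]
    rw [pow_add, pow_mul, hζ.pow_eq_one, one_pow, mul_one]
  rw [hχ.eq, MonoidHom.comp_apply, hc, hχ.eq_one_iff] at h
  obtain ⟨v, hv⟩ := h
  exact hpow v (by simpa using congrArg Units.val hv)

end LocalBehaviour

section AtEll

variable (hp : p ∣ ℓ - 1)

theorem norm_one_sub_pow_eq {z : PadicAlgCl ℓ} (hz : IsPrimitiveRoot z ℓ) (i : ℕ)
    (hi : i.Coprime ℓ) : ‖1 - z ^ i‖ = ‖1 - z‖ := by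
  have hle : ∀ (z : PadicAlgCl ℓ) (j : ℕ), IsPrimitiveRoot z ℓ → ‖1 - z ^ j‖ ≤ ‖1 - z‖ := by
    intro z j hz
    rw [← mul_neg_geom_sum, norm_mul]
    refine mul_le_of_le_one_right (norm_nonneg _) (norm_le_one_of_isIntegral ℓ ?_)
    exact IsIntegral.sum _ fun k _ => (hz.isIntegral (Fact.out : ℓ.Prime).pos).pow k
  refine le_antisymm (hle z i hz) ?_
  obtain ⟨j, hj⟩ := Nat.exists_mul_mod_eq_one_of_coprime hi (Fact.out : ℓ.Prime).one_lt
  calc ‖1 - z‖ = ‖1 - (z ^ i) ^ j‖ := by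
        rw [← pow_mul, ← Nat.mod_add_div (i * j) ℓ, pow_add, pow_mul, hz.pow_eq_one, one_pow,
          mul_one, hj.2, pow_one]
    _ ≤ ‖1 - z ^ i‖ := hle _ j (hz.pow_of_coprime i hi)

/-- The partial product of `1 - ζ^u` over a fibre of `ψ`; the product over all fibres is `ℓ`. -/
noncomputable def auxUnif (ψ : (ZMod ℓ)ˣ →* Multiplicative (ZMod p)) (ζ : Qbar)
    (z : Multiplicative (ZMod p)) : Qbar :=
  ∏ u ∈ Finset.univ.filter (fun u => ψ u = z), (1 - ζ ^ (u : ZMod ℓ).val)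

include hχ in
theorem AuxChar.apply_auxUnif {ζ : Qbar} (hζ : IsPrimitiveRoot ζ ℓ) (g : GalQ)
    (z : Multiplicative (ZMod p)) : g (auxUnif ψ ζ z) = auxUnif ψ ζ (χ g * z) := by
  have : NeZero ℓ := ⟨(Fact.out : ℓ.Prime).ne_zero⟩
  rw [auxUnif, map_prod, auxUnif]
  refine Finset.prod_equiv (Equiv.mulLeft (cycloChar ℓ g)) (fun u => ?_) fun u _ => ?_
  · simp [hχ.eq, MonoidHom.comp_apply]
  · rw [map_sub, map_one, map_pow, apply_eq_pow_cycloChar hζ.pow_eq_one g, ← pow_mul,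
      Equiv.coe_mulLeft, Units.val_mul, ZMod.val_mul]
    congr 1
    conv_lhs => rw [← Nat.mod_add_div (_ * _) ℓ]
    rw [pow_add, pow_mul ζ ℓ, hζ.pow_eq_one, one_pow, mul_one]

theorem prod_auxUnif {ζ : Qbar} (hζ : IsPrimitiveRoot ζ ℓ) :
    ∏ z, auxUnif ψ ζ z = (ℓ : Qbar) := by
  have : NeZero ℓ := ⟨(Fact.out : ℓ.Prime).ne_zero⟩
  have hprod : ∏ u : (ZMod ℓ)ˣ, (1 - ζ ^ (u : ZMod ℓ).val) = (ℓ : Qbar) := by
    have h1 := congrArg (Polynomial.eval (1 : Qbar))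
      (Polynomial.cyclotomic_eq_prod_X_sub_primitiveRoots hζ)
    rw [Polynomial.eval_one_cyclotomic_prime, Polynomial.eval_prod] at h1
    simp only [Polynomial.eval_sub, Polynomial.eval_X, Polynomial.eval_C] at h1
    rw [h1]
    refine Finset.prod_bij (fun u _ => ζ ^ (u : ZMod ℓ).val) (fun u _ => ?_) (fun u _ v _ h => ?_)
      (fun w hw => ?_) (fun _ _ => rfl)
    · rw [mem_primitiveRoots (NeZero.pos ℓ)]
      exact hζ.pow_of_coprime _ (ZMod.val_coe_unit_coprime u)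
    · exact Units.ext (ZMod.val_injective ℓ (hζ.pow_inj (ZMod.val_lt _) (ZMod.val_lt _) h))
    · rw [mem_primitiveRoots (NeZero.pos ℓ)] at hw
      obtain ⟨i, hi, hcop, rfl⟩ := (hζ.isPrimitiveRoot_iff).1 hw
      refine ⟨ZMod.unitOfCoprime i hcop, Finset.mem_univ _, ?_⟩
      rw [ZMod.coe_unitOfCoprime, ZMod.val_natCast, Nat.mod_eq_of_lt hi]
  rw [← hprod]
  exact Finset.prod_fiberwise _ ψ _

omit hp in
include hχ in
/-- Totally ramified at `ℓ`. -/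
theorem AuxChar.exists_local_ne_one_self : ∃ d : GalLoc ℓ, χ (localGaloisToGlobal ℓ d) ≠ 1 := by
  by_contra hne
  push Not at hne
  obtain ⟨ζ, hζ⟩ := HasEnoughRootsOfUnity.exists_primitiveRoot Qbar ℓ
  have : NeZero ℓ := ⟨(Fact.out : ℓ.Prime).ne_zero⟩
  have hp1 : 1 < p := (Fact.out : p.Prime).one_lt
  have hz : IsPrimitiveRoot (padicEmbedding ℓ ζ) ℓ :=
    hζ.map_of_injective (padicEmbedding ℓ).toRingHom.injective
  set x := padicEmbedding ℓ (auxUnif ψ ζ 1)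
  -- all the factors have the same norm
  have hfac : ∀ z, ‖padicEmbedding ℓ (auxUnif ψ ζ z)‖ = ‖x‖ := by
    intro z
    obtain ⟨u₀, rfl⟩ := hχ.surj z
    have e : ∀ u : (ZMod ℓ)ˣ, ‖padicEmbedding ℓ (1 - ζ ^ (u : ZMod ℓ).val)‖
        = ‖1 - padicEmbedding ℓ ζ‖ := fun u => by
      rw [map_sub, map_one, map_pow, norm_one_sub_pow_eq hz _ (ZMod.val_coe_unit_coprime u)]
    simp only [x, auxUnif, map_prod, norm_prod, e, Finset.prod_const]
    congr 1
    refine Finset.card_equiv (Equiv.mulLeft u₀⁻¹) fun u => ?_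
    simp [inv_mul_eq_one, eq_comm (a := ψ u)]
  have hxp : ‖x‖ ^ p = (ℓ : ℝ)⁻¹ := by
    have h1 := congrArg (fun y => ‖padicEmbedding ℓ y‖) (prod_auxUnif (ψ := ψ) hζ)
    simp only [map_prod, norm_prod, hfac, Finset.prod_const, Finset.card_univ] at h1
    rwa [Fintype.card_multiplicative, ZMod.card, map_natCast, norm_natCast_self] at h1
  -- the local Galois group fixes the product
  obtain ⟨c, hc⟩ : ∃ c : ℚ_[ℓ], algebraMap ℚ_[ℓ] (PadicAlgCl ℓ) c = x := by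
    have : IsGalois ℚ_[ℓ] (PadicAlgCl ℓ) := IsAlgClosure.isGalois ℚ_[ℓ] (PadicAlgCl ℓ)
    have hmem : x ∈ (⊥ : IntermediateField ℚ_[ℓ] (PadicAlgCl ℓ)) := by
      rw [InfiniteGalois.mem_bot_iff_fixed]
      intro d
      simp only [x]
      rw [← padicEmbedding_localGaloisToGlobal, hχ.apply_auxUnif hζ, hne d, one_mul]
    exact IntermediateField.mem_bot.1 hmem
  have hc0 : c ≠ 0 := fun h => by
    rw [← hc, h, map_zero, norm_zero, zero_pow (Fact.out : p.Prime).ne_zero] at hxp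
    exact (inv_pos.2 (by exact_mod_cast (Fact.out : ℓ.Prime).pos : (0 : ℝ) < ℓ)).ne hxp
  rw [← hc, PadicAlgCl.norm_extends, Padic.norm_eq_zpow_neg_valuation hc0, ← zpow_natCast,
    ← zpow_mul, ← zpow_neg_one] at hxp
  have h2 : -c.valuation * (p : ℤ) = -1 :=
    zpow_right_injective₀ (by exact_mod_cast (Fact.out : ℓ.Prime).pos)
      (by exact_mod_cast (Fact.out : ℓ.Prime).one_lt.ne') hxp
  have h3 : (p : ℤ) ∣ 1 := ⟨c.valuation, by linarith⟩
  have h4 := Int.le_of_dvd one_pos h3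
  omega

end AtEll

end Fermat.Agent.Duality.Places
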