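import Fermat.Agent.Duality.CyclicKernel
import Fermat.Agent.Gal.Places

/-!
# The cyclic extension cut out by a character
-/

set_option autoImplicit false

noncomputable section

open IntermediateField

namespace Fermat.Agent.Duality.Places

variable {p : ℕ} [Fact p.Prime]

/-- An open subgroup of `GalQ` is closed. -/
theorem isClosed_of_galLevels_ok {U : Subgroup GalQ} (hU : (galLevels ℚ Qbar).ok U) :
    IsClosed (U : Set GalQ) := by
  obtain ⟨E, hE, hEU⟩ := hU
  have := hE
  exact U.isClosed_of_isOpen (Subgroup.isOpen_mono hEU E.fixingSubgroup_isOpen)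

theorem fixingSubgroup_fixedField_of_ok {U : Subgroup GalQ} (hU : (galLevels ℚ Qbar).ok U) :
    (fixedField U).fixingSubgroup = U := by
  have : IsGalois ℚ Qbar := Fermat.Agent.Gal.isGalois_rat_qbar
  exact InfiniteGalois.fixingSubgroup_fixedField ⟨U, isClosed_of_galLevels_ok hU⟩

theorem finiteDimensional_fixedField_of_ok {U : Subgroup GalQ} (hU : (galLevels ℚ Qbar).ok U) :
    FiniteDimensional ℚ (fixedField U) := by
  have : IsGalois ℚ Qbar := Fermat.Agent.Gal.isGalois_rat_qbar
  obtain ⟨E, hE, hEU⟩ := hU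
  have := hE
  have hle : fixedField U ≤ E := by
    rw [← InfiniteGalois.fixedField_fixingSubgroup E]
    exact fun x hx s => hx ⟨s, hEU s.2⟩
  exact FiniteDimensional.of_injective (IntermediateField.inclusion hle).toLinearMap
    (IntermediateField.inclusion_injective hle)

variable (K : IntermediateField ℚ Qbar) (χ : Char1 p K.fixingSubgroup)

/-- The kernel of a character, inside `GalQ`. -/
def kerGroup : Subgroup GalQ := (chiKer χ).map K.fixingSubgroup.subtype

omit [Fact (Nat.Prime p)] in
theorem kerGroup_le : kerGroup K χ ≤ K.fixingSubgroup := Subgroup.map_subtype_le _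

omit [Fact (Nat.Prime p)] in
theorem mem_kerGroup {h : K.fixingSubgroup} : (h : GalQ) ∈ kerGroup K χ ↔ h ∈ chiKer χ := by
  rw [kerGroup, Subgroup.mem_map]
  exact ⟨fun ⟨x, hx, hxe⟩ => Subtype.ext (hxe : (x : GalQ) = h) ▸ hx, fun hh => ⟨h, hh, rfl⟩⟩

omit [Fact (Nat.Prime p)] in
theorem ok_kerGroup [FiniteDimensional ℚ K] : (galLevels ℚ Qbar).ok (kerGroup K χ) := by
  obtain ⟨V, hV, hVU⟩ := ok_chiKer χ
  refine (galLevels ℚ Qbar).mono ((galLevels ℚ Qbar).inf_ok hV (galLevels_ok_fixingSubgroup K))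
    fun g hg => ?_
  exact Subgroup.mem_map.2 ⟨⟨g, hg.2⟩, hVU hg.1, rfl⟩

/-- The field cut out by a character. -/
def splitField : IntermediateField ℚ Qbar := fixedField (kerGroup K χ)

omit [Fact (Nat.Prime p)] in
theorem fixingSubgroup_splitField [FiniteDimensional ℚ K] :
    (splitField K χ).fixingSubgroup = kerGroup K χ :=
  fixingSubgroup_fixedField_of_ok (ok_kerGroup K χ)

omit [Fact (Nat.Prime p)] in
theorem le_splitField : K ≤ splitField K χ := fun x hx s =>
  (mem_fixingSubgroup_iff K (s : GalQ)).1 (kerGroup_le K χ s.2) x hx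

instance finiteDimensional_splitField [FiniteDimensional ℚ K] :
    FiniteDimensional ℚ (splitField K χ) :=
  finiteDimensional_fixedField_of_ok (ok_kerGroup K χ)

/-- `K`-algebra structure on the split field. -/
@[reducible]
def splitAlgebra : Algebra K (splitField K χ) :=
  (IntermediateField.inclusion (le_splitField K χ)).toRingHom.toAlgebra

omit [Fact (Nat.Prime p)] in
theorem smul_mem_splitField [FiniteDimensional ℚ K] (h : K.fixingSubgroup) {y : Qbar}
    (hy : y ∈ splitField K χ) : (h : GalQ) y ∈ splitField K χ := by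
  rintro ⟨s, hs⟩
  obtain ⟨n, hn, rfl⟩ := Subgroup.mem_map.1 hs
  have h1 := (chiKer_normal χ).conj_mem n hn h⁻¹
  rw [inv_inv] at h1
  have h2 : ((h : GalQ)⁻¹ * n * h) y = y := hy ⟨_, Subgroup.mem_map.2 ⟨_, h1, rfl⟩⟩
  show (n : GalQ) ((h : GalQ) y) = (h : GalQ) y
  have h3 := congrArg (h : GalQ) h2
  rw [AlgEquiv.mul_apply, AlgEquiv.mul_apply, AlgEquiv.aut_inv, AlgEquiv.apply_symm_apply] at h3
  exact h3

/-- The automorphism of the split field induced by an element of the Galois group of `K`. -/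
def splitAut [FiniteDimensional ℚ K] (h : K.fixingSubgroup) :
    letI := splitAlgebra K χ
    splitField K χ ≃ₐ[K] splitField K χ :=
  letI := splitAlgebra K χ
  { toFun := fun y => ⟨(h : GalQ) y, smul_mem_splitField K χ h y.2⟩
    invFun := fun y => ⟨((h⁻¹ : K.fixingSubgroup) : GalQ) y, smul_mem_splitField K χ h⁻¹ y.2⟩
    left_inv := fun y => Subtype.ext <| by
      show ((h : GalQ)⁻¹) ((h : GalQ) y) = y
      rw [AlgEquiv.aut_inv, AlgEquiv.symm_apply_apply]
    right_inv := fun y => Subtype.ext <| by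
      show (h : GalQ) (((h : GalQ)⁻¹) y) = y
      rw [AlgEquiv.aut_inv, AlgEquiv.apply_symm_apply]
    map_mul' := fun a b => Subtype.ext (map_mul (h : GalQ) _ _)
    map_add' := fun a b => Subtype.ext (map_add (h : GalQ) _ _)
    commutes' := fun x => Subtype.ext ((mem_fixingSubgroup_iff K _).1 h.2 _ x.2) }

/-- The split field is cyclic of degree `p`, with automorphisms the powers of `t`. -/
theorem exists_equiv_aut [FiniteDimensional ℚ K] (_hχ : χ ≠ 0) {t : K.fixingSubgroup}
    (ht : chiVal χ t = 1) :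
    letI := splitAlgebra K χ
    IsGalois K (splitField K χ) ∧ Module.finrank K (splitField K χ) = p ∧
      ∃ e : Fin p ≃ (splitField K χ ≃ₐ[K] splitField K χ), ∀ (j : Fin p) (y : splitField K χ),
        ((e j y : splitField K χ) : Qbar) = ((t ^ (j : ℕ) : K.fixingSubgroup) : GalQ) y := by
  let := splitAlgebra K χ
  have : IsScalarTower ℚ K (splitField K χ) :=
    IsScalarTower.of_algebraMap_eq' (Subsingleton.elim _ _)
  have : FiniteDimensional K (splitField K χ) := FiniteDimensional.right ℚ K _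
  have : IsGalois ℚ Qbar := Fermat.Agent.Gal.isGalois_rat_qbar
  have hgal : IsGalois K (splitField K χ) := by
    refine IsGalois.of_fixedField_eq_bot K _ (eq_bot_iff.2 fun y hy => ?_)
    have hyK : (y : Qbar) ∈ K := by
      refine (InfiniteGalois.fixedField_fixingSubgroup K).le ?_
      intro h
      exact congrArg Subtype.val (hy ⟨splitAut K χ h, trivial⟩)
    exact IntermediateField.mem_bot.2 ⟨⟨y, hyK⟩, Subtype.ext rfl⟩
  have hpow : ∀ j : ℕ, chiVal χ (t ^ j) = j % p := by
    intro j
    induction j with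
    | zero => rw [pow_zero, Nat.zero_mod, chiVal_eq_zero]; exact one_mem _
    | succ i ih => rw [pow_succ, chiVal_mul, ih, ht, Nat.mod_add_mod]
  let f : Fin p → (splitField K χ ≃ₐ[K] splitField K χ) := fun j => splitAut K χ (t ^ (j : ℕ))
  have hker : ∀ h h' : K.fixingSubgroup, splitAut K χ h = splitAut K χ h' →
      chiVal χ h = chiVal χ h' := by
    intro h h' he
    have h1 : ((h⁻¹ * h' : K.fixingSubgroup) : GalQ) ∈ (splitField K χ).fixingSubgroup := by
      rw [IntermediateField.mem_fixingSubgroup_iff]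
      intro y hy
      show ((h : GalQ)⁻¹ * h') y = y
      rw [AlgEquiv.mul_apply, show (h' : GalQ) y = (h : GalQ) y from
        congrArg Subtype.val (AlgEquiv.congr_fun he.symm ⟨y, hy⟩),
        AlgEquiv.aut_inv, AlgEquiv.symm_apply_apply]
    rw [fixingSubgroup_splitField, mem_kerGroup] at h1
    conv_rhs => rw [← mul_inv_cancel_left h h', chiVal_mul_ker_right χ h1]
  have hbij : Function.Bijective f := by
    refine ⟨fun i j hij => Fin.ext ?_, fun σ => ?_⟩
    · have h1 := hker _ _ hij
      rwa [hpow, hpow, Nat.mod_eq_of_lt i.2, Nat.mod_eq_of_lt j.2] at h1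
    · have : Normal ℚ Qbar := IsGalois.to_normal
      set s : GalQ := AlgEquiv.liftNormal (σ.restrictScalars ℚ) Qbar
      have hs : ∀ y : splitField K χ, s (y : Qbar) = (σ y : splitField K χ) := fun y =>
        AlgEquiv.liftNormal_commutes (σ.restrictScalars ℚ) Qbar y
      have hsK : s ∈ K.fixingSubgroup := (mem_fixingSubgroup_iff K s).2 fun x hx => by
        have h1 := hs (IntermediateField.inclusion (le_splitField K χ) ⟨x, hx⟩)
        exact h1.trans (congrArg Subtype.val (σ.commutes ⟨x, hx⟩))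
      refine ⟨⟨chiVal χ ⟨s, hsK⟩, chiVal_lt χ _⟩, AlgEquiv.ext fun y => Subtype.ext ?_⟩
      show ((t ^ chiVal χ ⟨s, hsK⟩ : K.fixingSubgroup) : GalQ) (y : Qbar) = _
      rw [← hs]
      have hmem : ((t ^ chiVal χ ⟨s, hsK⟩)⁻¹ * ⟨s, hsK⟩ : K.fixingSubgroup) ∈ chiKer χ := by
        set r := t ^ chiVal χ ⟨s, hsK⟩
        have h2 : (χ : K.fixingSubgroup → Zp p) r = (χ : K.fixingSubgroup → Zp p) ⟨s, hsK⟩ :=
          Zp.of.symm.injective (ZMod.val_injective p
            ((hpow _).trans (Nat.mod_eq_of_lt (chiVal_lt χ _))))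
        rw [mem_chiKer, chi_mul, ← h2, ← chi_mul, inv_mul_cancel, chi_one]
      rw [← mem_kerGroup, ← fixingSubgroup_splitField,
        IntermediateField.mem_fixingSubgroup_iff] at hmem
      have h4 := hmem (y : Qbar) y.2
      conv_lhs => rw [← h4]
      rw [Subgroup.coe_mul, Subgroup.coe_inv, AlgEquiv.mul_apply, AlgEquiv.aut_inv,
        AlgEquiv.apply_symm_apply]
  refine ⟨hgal, ?_, Equiv.ofBijective f hbij, fun j y => rfl⟩
  have := hgal
  rw [← IsGalois.card_aut_eq_finrank, ← Nat.card_eq_of_bijective f hbij, Nat.card_fin]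

end Fermat.Agent.Duality.Places

end
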