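import Fermat.Agent.Duality.Places.Adic
import Fermat.Agent.Duality.Localisation
import Fermat.Agent.Gal.Unramified

/-!
# Value groups of unramified local fields

If the inertia groups over `q` fix a number field, the absolute value on its local fields at `q`
takes values in the powers of `q`.
-/

set_option autoImplicit false

open IsDedekindDomain WithZero
open NumberField
open scoped Pointwise

namespace Fermat.Agent.Duality.Places

variable (q : ℕ) [Fact q.Prime]

local notation "Ω" => PadicAlgCl q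
local notation "ι" => padicEmbedding q

theorem exists_norm_embedding_eq_zpow (L : IntermediateField ℚ Qbar) [NumberField L]
    [IsGalois ℚ L] (h : ∀ σ ∈ (padicPlace q).inertiaSubgroupIn ℚ, ∀ x ∈ L, σ x = x)
    {x : Qbar} (hx : x ∈ L) (hx0 : x ≠ 0) : ∃ m : ℤ, ‖ι x‖ = (q : ℝ) ^ m := by
  have hq : q.Prime := Fact.out
  let τ : L →ₐ[ℚ] Ω := (padicEmbedding q).comp L.val
  have hP : (placeOf q τ).asIdeal = Fermat.Agent.Gal.primeBelow L (padicPlace q) := by
    ext a
    rw [Fermat.Agent.Gal.mem_primeBelow, mem_nonunits_padicPlace, mem_placeOf]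
    rfl
  have hu : Algebra.IsUnramifiedAt ℤ (placeOf q τ).asIdeal := by
    have hu' := Fermat.Agent.Gal.isUnramifiedAt_primeBelow_of_fixed L hq
      (liesOverPrime_padicPlace q) h
    convert hu' using 1
  have hov : (placeOf q τ).asIdeal.LiesOver (Ideal.span {(q : ℤ)}) := by
    refine ⟨(PrincipalIdealRing.isMaximal_of_irreducible
      (Nat.prime_iff_prime_int.1 hq).irreducible).eq_of_le
        (Ideal.IsPrime.under ℤ _).ne_top ?_⟩
    rw [Ideal.span_le, Set.singleton_subset_iff]
    show algebraMap ℤ (𝓞 L) (q : ℤ) ∈ (placeOf q τ).asIdeal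
    simpa using natCast_mem_placeOf q τ
  have hne : (Ideal.span {(q : ℤ)}).map (algebraMap ℤ (𝓞 L)) ≠ ⊥ := by
    rw [Ideal.map_span, Set.image_singleton, Ne, Ideal.span_singleton_eq_bot]
    simpa using hq.ne_zero
  have hmul : multiplicity (placeOf q τ).asIdeal (Ideal.span {((q : ℕ) : 𝓞 L)}) = 1 := by
    have h1 := Ideal.IsDedekindDomain.ramificationIdx_eq_multiplicity (Ideal.span {(q : ℤ)})
      (placeOf q τ).asIdeal hne
    rw [Ideal.ramificationIdx_eq_one, Ideal.map_span, Set.image_singleton] at h1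
    simpa using h1.symm
  have hvq : (placeOf q τ).valuation L ((q : ℕ) : L) = exp (-1) := by
    rw [← map_natCast (algebraMap (𝓞 L) L), HeightOneSpectrum.valuation_of_algebraMap,
      HeightOneSpectrum.intValuation_eq_exp_neg_multiplicity _ (by exact_mod_cast hq.ne_zero), hmul]
    norm_num
  obtain ⟨r, hr0, -, hr⟩ := exists_norm_apply_eq q τ
  have hrq : r = (q : ℝ)⁻¹ := by
    have h2 := hr _ 1 hvq
    rw [zpow_one, map_natCast, norm_natCast_self] at h2
    exact h2.symm
  have hv0 : (placeOf q τ).valuation L (⟨x, hx⟩ : L) ≠ 0 := by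
    rw [Valuation.ne_zero_iff]
    exact fun h => hx0 (congrArg Subtype.val h)
  refine ⟨log ((placeOf q τ).valuation L (⟨x, hx⟩ : L)), ?_⟩
  have h3 := hr ⟨x, hx⟩ (-log ((placeOf q τ).valuation L (⟨x, hx⟩ : L)))
    (by rw [neg_neg, exp_log hv0])
  rw [hrq, inv_zpow, zpow_neg, inv_inv] at h3
  exact h3

/-- The value group of an unramified local field. -/
theorem exists_norm_eq_zpow_of_inertia_fixed (L : IntermediateField ℚ Qbar)
    [FiniteDimensional ℚ L] [IsGalois ℚ L]
    (h : ∀ σ ∈ (padicPlace q).inertiaSubgroupIn ℚ, ∀ x ∈ L, σ x = x) {z : Ω}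
    (hz : z ∈ localField q L) (hz0 : z ≠ 0) : ∃ m : ℤ, ‖z‖ = (q : ℝ) ^ m := by
  have : NumberField L := ⟨⟩
  obtain ⟨a, ha, haz⟩ := exists_mem_norm_sub_lt q L hz (norm_pos_iff.2 hz0)
  have he : ‖ι a‖ = ‖z‖ := by
    have h1 := IsUltrametricDist.norm_add_eq_max_of_norm_ne_norm (x := z) (y := ι a - z)
      (by rw [norm_sub_rev]; exact haz.ne')
    rw [add_sub_cancel, norm_sub_rev, max_eq_left haz.le] at h1
    exact h1
  rw [← he]
  refine exists_norm_embedding_eq_zpow q L h ha fun h0 => ?_
  rw [h0, map_zero, norm_zero] at he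
  exact hz0 (norm_eq_zero.1 he.symm)

/-- The local fields of a field unramified outside `S` at primes outside `S`. -/
theorem exists_norm_eq_zpow_of_isUnramifiedOutside {S : Finset Nat.Primes}
    {E : IntermediateField ℚ Qbar} (hE : E.IsUnramifiedOutside S)
    (hq : (⟨q, Fact.out⟩ : Nat.Primes) ∉ S) (g : GalQ) {z : Ω}
    (hz : z ∈ localField q (E.map g.toAlgHom)) (hz0 : z ≠ 0) : ∃ m : ℤ, ‖z‖ = (q : ℝ) ^ m := by
  have := hE.1
  set N := IntermediateField.normalClosure ℚ E Qbar
  have hN := isUnramifiedOutside_normalClosure hE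
  have := hN.1
  have : Normal ℚ N := normalClosure.normal ℚ E Qbar
  have : IsGalois ℚ N := ⟨⟩
  refine exists_norm_eq_zpow_of_inertia_fixed q N (fun σ hσ x hx =>
    (IntermediateField.mem_fixingSubgroup_iff _ σ).1
      (hN.2 ⟨q, Fact.out⟩ hq _ (liesOverPrime_padicPlace q) hσ) x hx)
    (localField_mono q ?_ hz) hz0
  exact le_normalClosure_map E g
where
  le_normalClosure_map (E : IntermediateField ℚ Qbar) (g : GalQ) :
      E.map g.toAlgHom ≤ IntermediateField.normalClosure ℚ E Qbar := by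
    rintro _ ⟨x, hx, rfl⟩
    exact AlgHom.fieldRange_le_normalClosure (g.toAlgHom.comp E.val) ⟨⟨x, hx⟩, rfl⟩

end Fermat.Agent.Duality.Places
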