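import Fermat.Agent.Duality.Places.BaseClass
import Fermat.Agent.Duality.Places.Cyclo
import Fermat.Agent.Duality.Places.SplitField
import Fermat.Agent.Duality.Places.Unramified
import Fermat.Agent.Duality.Local.UnramifiedCoh
import Fermat.Agent.Gal.Residue

/-!
# Local vanishing of the symbols `χ_ℓ ∪ κ(n)`

For the auxiliary character of conductor `ℓ`: away from `ℓ` units give zero and vanishing forces
the valuation to be divisible by `p` at inert primes; at `ℓ` the entry `ℓ` gives zero and a unit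
entry gives zero only if it is a `p`-th power modulo `ℓ`.
-/

set_option autoImplicit false

noncomputable section

open IntermediateField
open scoped Pointwise

namespace Fermat.Agent.Duality.Places

variable {p : ℕ} [Fact p.Prime]

/-- A character of `GalQ` of finite level, as a cocycle. -/
def topChar (χ : GalQ →* Multiplicative (ZMod p)) (hok : (galLevels ℚ Qbar).ok χ.ker) :
    Char1 p (⊤ : Subgroup GalQ) :=
  ⟨fun g => Zp.of (Multiplicative.toAdd (χ g)),
    ⟨χ.ker.subgroupOf ⊤, ⟨χ.ker, hok, le_rfl⟩, fun g s hs => by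
      show Zp.of (Multiplicative.toAdd (χ (g * s : GalQ))) = Zp.of (Multiplicative.toAdd (χ g))
      rw [map_mul, show χ (s : GalQ) = 1 from MonoidHom.mem_ker.1 hs, mul_one]⟩, by
    funext a b
    simp only [Coh.d₁_apply, Zp.smul_eq, Pi.zero_apply, Subgroup.coe_mul, map_mul, toAdd_mul,
      map_add]
    abel⟩

theorem topChar_apply (χ : GalQ →* Multiplicative (ZMod p)) (hok : (galLevels ℚ Qbar).ok χ.ker)
    (g : (⊤ : Subgroup GalQ)) :
    (topChar χ hok : (⊤ : Subgroup GalQ) → Zp p) g = Zp.of (Multiplicative.toAdd (χ g)) := rfl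

theorem mem_chiKer_baseChar (χ : GalQ →* Multiplicative (ZMod p))
    (hok : (galLevels ℚ Qbar).ok χ.ker) (r : ℕ) [Fact r.Prime] (d : locBase r) :
    d ∈ chiKer (baseChar r (topChar χ hok)) ↔ χ (localGaloisToGlobal r d) = 1 := by
  rw [mem_chiKer, baseChar, pullChar_apply, topChar_apply]
  simp only [coe_baseHom]
  exact ⟨fun h => Multiplicative.toAdd.injective (Zp.of.injective (h.trans (map_zero Zp.of).symm)),
    fun h => by rw [h, toAdd_one, map_zero]⟩

section Symbols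

variable {ℓ : ℕ} [Fact ℓ.Prime] {χ : GalQ →* Multiplicative (ZMod p)}
  {ψ : (ZMod ℓ)ˣ →* Multiplicative (ZMod p)} (hχ : AuxChar p χ ψ) (r : ℕ) [Fact r.Prime]

include hχ in
theorem AuxChar.baseChar_ne_zero {d : GalLoc r} (hd : χ (localGaloisToGlobal r d) ≠ 1) :
    baseChar r (topChar χ hχ.ok_ker) ≠ 0 := fun h => hd <| by
  have h1 := (mem_chiKer_baseChar χ hχ.ok_ker r ⟨d, mem_locBase r d⟩).1
  exact h1 (by rw [mem_chiKer, h]; rfl)

include hχ in
theorem AuxChar.chiVal_baseChar (d : locBase r) :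
    chiVal (baseChar r (topChar χ hχ.ok_ker)) d =
      (Multiplicative.toAdd (χ (localGaloisToGlobal r d))).val := by
  rw [baseChar, chiVal_pullChar, chiVal, topChar_apply]
  rfl

include hχ in
theorem AuxChar.isGalois_fixedField : IsGalois ℚ (fixedField χ.ker) := by
  have : IsGalois ℚ Qbar := Fermat.Agent.Gal.isGalois_rat_qbar
  have h : @IsGalois ℚ _ (fixedField χ.ker) _ (IntermediateField.algebra' _) := by
    rw [← InfiniteGalois.normal_iff_isGalois, fixingSubgroup_fixedField_of_ok hχ.ok_ker]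
    infer_instance
  convert h using 2
  exact Subsingleton.elim _ _

include hχ in
/-- A symbol vanishing at a non-split prime has a norm entry. -/
theorem AuxChar.exists_norm_of_baseLoc {d : GalLoc r} (hd : χ (localGaloisToGlobal r d) ≠ 1)
    {n : ℕ} (hn : n ≠ 0) (h : baseLoc r (cupChi (topChar χ hχ.ok_ker) (natInv ⊤ n hn)) = 0) :
    ∃ z ∈ localField r (fixedField χ.ker), ∃ s : locBase r,
      ∏ j ∈ Finset.range p, ((s ^ j : locBase r) : GalLoc r) z = (n : PadicAlgCl r) := by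
  set χ' := baseChar r (topChar χ hχ.ok_ker)
  have hχ' : χ' ≠ 0 := hχ.baseChar_ne_zero r hd
  have hok : (galLevels ℚ_[r] (PadicAlgCl r)).ok (locBase r) := galLevels_ok_fixingSubgroup ⊥
  have := ((galLevels ℚ_[r] (PadicAlgCl r)).restrict (locBase r)).finiteIndex (ok_chiKer χ')
  let : Fintype (locBase r ⧸ chiKer χ') := Fintype.ofFinite _
  rw [baseLoc_cupChi] at h
  obtain ⟨b, hb⟩ := (cupChi_eq_zero_iff χ' hχ' hok _).1 h
  refine ⟨(((b : Lx (PadicAlgCl r)).toMul : (PadicAlgCl r)ˣ) : PadicAlgCl r), ?_,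
    chiGen χ' hχ', ?_⟩
  · have : IsGalois ℚ_[r] (PadicAlgCl r) := IsAlgClosure.isGalois ℚ_[r] (PadicAlgCl r)
    refine (InfiniteGalois.fixedField_fixingSubgroup (localField r (fixedField χ.ker))).le ?_
    rintro ⟨e, he⟩
    rw [fixingSubgroup_localField, fixingSubgroup_fixedField_of_ok hχ.ok_ker, Subgroup.mem_comap,
      MonoidHom.mem_ker] at he
    exact congrArg (fun y : Lx (PadicAlgCl r) => ((y.toMul : (PadicAlgCl r)ˣ) : PadicAlgCl r))
      (b.2 ⟨⟨e, mem_locBase r e⟩, (mem_chiKer_baseChar χ hχ.ok_ker r _).2 he⟩)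
  · have h1 := congrArg (fun y : Coh.inv (locBase r) (Lx (PadicAlgCl r)) =>
      ((((y : Lx (PadicAlgCl r))).toMul : (PadicAlgCl r)ˣ) : PadicAlgCl r)) hb
    rw [cor₀_chiKer χ' hχ', genSum, toMul_sum, Units.coe_prod] at h1
    exact h1

omit [Fact (Nat.Prime p)] in
theorem norm_prod_smul (s : locBase r) (z : PadicAlgCl r) :
    ‖∏ j ∈ Finset.range p, ((s ^ j : locBase r) : GalLoc r) z‖ = ‖z‖ ^ p := by
  rw [norm_prod, Finset.prod_congr rfl fun j _ =>
    show ‖((s ^ j : locBase r) : GalLoc r) z‖ = ‖z‖ by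
      rw [← coe_nnnorm, nnnorm_padicAlgCl_algEquiv, coe_nnnorm], Finset.prod_const,
    Finset.card_range]

theorem norm_natCast (n : ℕ) : ‖(n : PadicAlgCl r)‖ = ‖(n : ℚ_[r])‖ := by
  rw [← map_natCast (algebraMap ℚ_[r] (PadicAlgCl r)), PadicAlgCl.norm_extends]

include hχ in
/-- At inert primes vanishing forces valuations divisible by `p`. -/
theorem AuxChar.dvd_padicValNat (hr : r ≠ ℓ) (hpow : ∀ y : ZMod ℓ, y ^ p ≠ (r : ZMod ℓ)) {n : ℕ}
    (hn : n ≠ 0) (h : baseLoc r (cupChi (topChar χ hχ.ok_ker) (natInv ⊤ n hn)) = 0) :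
    p ∣ padicValNat r n := by
  obtain ⟨d, hd⟩ := hχ.exists_local_ne_one r hr hpow
  obtain ⟨z, hz, s, hs⟩ := hχ.exists_norm_of_baseLoc r hd hn h
  have := finiteDimensional_fixedField_of_ok hχ.ok_ker
  have := hχ.isGalois_fixedField
  have h1 : ‖z‖ ^ p = (r : ℝ) ^ (-(padicValNat r n : ℤ)) := by
    rw [← norm_prod_smul r s z, hs, norm_natCast,
      Padic.norm_eq_zpow_neg_valuation (Nat.cast_ne_zero.2 hn), Padic.valuation_natCast]
  have hz0 : z ≠ 0 := fun h0 => by
    rw [h0, norm_zero, zero_pow (Fact.out : p.Prime).ne_zero] at h1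
    exact (zpow_pos (by exact_mod_cast (Fact.out : r.Prime).pos : (0 : ℝ) < r) _).ne h1
  obtain ⟨m, hm⟩ := exists_norm_eq_zpow_of_inertia_fixed r (fixedField χ.ker)
    (fun σ hσ x hx => hx ⟨σ, MonoidHom.mem_ker.2
      (hχ.eq_one_of_mem_inertia r hr (liesOverPrime_padicPlace r) hσ)⟩) hz hz0
  rw [hm, ← zpow_natCast, ← zpow_mul] at h1
  have h2 := zpow_right_injective₀ (by exact_mod_cast (Fact.out : r.Prime).pos)
    (by exact_mod_cast (Fact.out : r.Prime).one_lt.ne') h1
  exact Int.natCast_dvd_natCast.1 ⟨-m, by linarith⟩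

include hχ in
/-- Units give zero away from `ℓ`. -/
theorem AuxChar.baseLoc_eq_zero (hr : r ≠ ℓ) {n : ℕ} (hn : n ≠ 0) (hrn : ¬ r ∣ n) :
    baseLoc r (cupChi (topChar χ hχ.ok_ker) (natInv ⊤ n hn)) = 0 := by
  rw [baseLoc_cupChi]
  set χ' := baseChar r (topChar χ hχ.ok_ker)
  by_cases hχ' : χ' = 0
  · rw [hχ']; simp [cupChi]
  have := finiteDimensional_fixedField_of_ok hχ.ok_ker
  have := hχ.isGalois_fixedField
  have hok : (galLevels ℚ_[r] (PadicAlgCl r)).ok (locBase r) := galLevels_ok_fixingSubgroup ⊥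
  have := ((galLevels ℚ_[r] (PadicAlgCl r)).restrict (locBase r)).finiteIndex (ok_chiKer χ')
  let : Fintype (locBase r ⧸ chiKer χ') := Fintype.ofFinite _
  have hunr : Local.IsUnramExt ⊥ (Local.kerField χ') := by
    intro g _ hg
    have : Normal ℚ (fixedField χ.ker) := IsGalois.to_normal
    have hfix := Local.apply_eq_self_of_residue (q := r) (fixedField χ.ker)
      (fun σ hσ => by
        rw [fixingSubgroup_fixedField_of_ok hχ.ok_ker]
        exact hχ.eq_one_of_mem_inertia r hr (liesOverPrime_padicPlace r) hσ) g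
      fun x hx hxi => by
        refine hg _ ((Local.mem_kerField χ').2 fun σ hσ => ?_) ((mem_padicPlace r).1
          (Fermat.Agent.Gal.mem_of_isIntegral (padicPlace r) hxi))
        rw [← padicEmbedding_localGaloisToGlobal]
        exact congrArg _ (hx ⟨_, MonoidHom.mem_ker.2 ((mem_chiKer_baseChar χ hχ.ok_ker r σ).1 hσ)⟩)
    intro y hy
    refine (Local.mem_kerField χ').1 hy ⟨g, mem_locBase r g⟩
      ((mem_chiKer_baseChar χ hχ.ok_ker r _).2 ?_)
    have h2 : g ∈ (localField r (fixedField χ.ker)).fixingSubgroup :=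
      (IntermediateField.mem_fixingSubgroup_iff _ g).2 hfix
    rw [fixingSubgroup_localField, fixingSubgroup_fixedField_of_ok hχ.ok_ker] at h2
    exact h2
  have hu : (n : (⊥ : IntermediateField ℚ_[r] (PadicAlgCl r))) ≠ 0 := Nat.cast_ne_zero.2 hn
  have e : natInv (locBase r) n hn = Local.ofUnit ⊥ (Units.mk0 _ hu) :=
    Subtype.ext (Additive.toMul.injective (Units.ext
      (map_natCast (⊥ : IntermediateField ℚ_[r] (PadicAlgCl r)).val n).symm))
  rw [e, cupChi_eq_zero_iff χ' hχ' hok, Local.exists_cor₀_eq_iff χ' hχ', hunr.mem_range_norm_iff]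
  refine ⟨1, ?_⟩
  rw [norm_one, one_pow, Units.val_mk0]
  show ‖((n : (⊥ : IntermediateField ℚ_[r] (PadicAlgCl r))) : PadicAlgCl r)‖ = 1
  rw [show ((n : (⊥ : IntermediateField ℚ_[r] (PadicAlgCl r))) : PadicAlgCl r) = n from
    map_natCast (⊥ : IntermediateField ℚ_[r] (PadicAlgCl r)).val n, norm_natCast,
    Padic.norm_natCast_eq_one_iff]
  exact (Fact.out : r.Prime).coprime_iff_not_dvd.2 hrn

end Symbols

section AtEll

variable {ℓ : ℕ} [Fact ℓ.Prime] {χ : GalQ →* Multiplicative (ZMod p)}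
  {ψ : (ZMod ℓ)ˣ →* Multiplicative (ZMod p)} (hχ : AuxChar p χ ψ) (hp : p ∣ ℓ - 1)

omit hp in
include hχ in
/-- `ℓ` is a norm at `ℓ`. -/
theorem AuxChar.baseLoc_self_eq_zero :
    baseLoc ℓ (cupChi (topChar χ hχ.ok_ker) (natInv ⊤ ℓ (Fact.out : ℓ.Prime).ne_zero)) = 0 := by
  have hℓ : ℓ.Prime := Fact.out
  have : NeZero ℓ := ⟨hℓ.ne_zero⟩
  obtain ⟨d, hd⟩ := hχ.exists_local_ne_one_self
  obtain ⟨ζ, hζ⟩ := HasEnoughRootsOfUnity.exists_primitiveRoot Qbar ℓ
  set χ' := baseChar ℓ (topChar χ hχ.ok_ker)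
  have hχ' : χ' ≠ 0 := hχ.baseChar_ne_zero ℓ hd
  have hok : (galLevels ℚ_[ℓ] (PadicAlgCl ℓ)).ok (locBase ℓ) := galLevels_ok_fixingSubgroup ⊥
  have := ((galLevels ℚ_[ℓ] (PadicAlgCl ℓ)).restrict (locBase ℓ)).finiteIndex (ok_chiKer χ')
  let : Fintype (locBase ℓ ⧸ chiKer χ') := Fintype.ofFinite _
  set w := padicEmbedding ℓ (auxUnif ψ ζ 1)
  have hprod : ∏ z, padicEmbedding ℓ (auxUnif ψ ζ z) = (ℓ : PadicAlgCl ℓ) := by
    rw [← map_prod, prod_auxUnif hζ, map_natCast]
  have hw : w ≠ 0 := fun h0 => (Nat.cast_ne_zero.2 hℓ.ne_zero : (ℓ : PadicAlgCl ℓ) ≠ 0)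
    (hprod ▸ Finset.prod_eq_zero (Finset.mem_univ 1) h0)
  rw [baseLoc_cupChi, cupChi_eq_zero_iff χ' hχ' hok]
  refine ⟨⟨Additive.ofMul (Units.mk0 w hw), fun e => Additive.toMul.injective (Units.ext ?_)⟩,
    Subtype.ext ?_⟩
  · show ((e : locBase ℓ) : GalLoc ℓ) w = w
    rw [← padicEmbedding_localGaloisToGlobal, hχ.apply_auxUnif hζ,
      (mem_chiKer_baseChar χ hχ.ok_ker ℓ _).1 e.2, one_mul]
  · rw [cor₀_chiKer χ' hχ', genSum]
    refine Additive.toMul.injective (Units.ext ?_)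
    rw [toMul_sum, Units.coe_prod]
    show ∏ j ∈ Finset.range p, ((chiGen χ' hχ' ^ j : locBase ℓ) : GalLoc ℓ) w = (ℓ : PadicAlgCl ℓ)
    rw [← hprod]
    have h1 : χ (localGaloisToGlobal ℓ (chiGen χ' hχ' : locBase ℓ)) = Multiplicative.ofAdd 1 := by
      have h := chiVal_chiGen χ' hχ'
      rw [hχ.chiVal_baseChar ℓ] at h
      refine Multiplicative.toAdd.injective (ZMod.val_injective p ?_)
      have : Fact (1 < p) := ⟨(Fact.out : p.Prime).one_lt⟩
      rw [h, toAdd_ofAdd, ZMod.val_one]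
    refine Finset.prod_nbij' (fun j => Multiplicative.ofAdd (j : ZMod p))
      (fun z => (Multiplicative.toAdd z).val) (fun _ _ => Finset.mem_univ _)
      (fun z _ => Finset.mem_range.2 (ZMod.val_lt _)) (fun j hj => ?_) (fun z _ => ?_) fun j _ => ?_
    · simp [ZMod.val_natCast, Nat.mod_eq_of_lt (Finset.mem_range.1 hj)]
    · simp
    · rw [← padicEmbedding_localGaloisToGlobal, hχ.apply_auxUnif hζ, SubgroupClass.coe_pow, map_pow,
        map_pow, h1, mul_one, ← ofAdd_nsmul, nsmul_one]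

include hχ in
/-- Inertia at `ℓ` surjects onto the values of the character. -/
theorem AuxChar.exists_inertia_eq (g : GalQ) :
    ∃ i ∈ (padicPlace ℓ).inertiaSubgroupIn ℚ, χ i = χ g := by
  obtain ⟨i, hi, hne⟩ : ∃ i ∈ (padicPlace ℓ).inertiaSubgroupIn ℚ, χ i ≠ 1 := by
    by_contra hall
    push Not at hall
    have := finiteDimensional_fixedField_of_ok hχ.ok_ker
    have htriv : χ = 1 := by
      refine Fermat.Agent.Gal.eq_one_of_inertia_trivial χ ⟨fixedField χ.ker, inferInstance,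
        fun σ hσ => MonoidHom.mem_ker.1 ?_⟩ fun q hq A hA σ hσ => ?_
      · rw [← fixingSubgroup_fixedField_of_ok hχ.ok_ker, IntermediateField.mem_fixingSubgroup_iff]
        exact hσ
      · have := Fact.mk hq
        by_cases hql : q = ℓ
        · subst hql
          obtain ⟨ρ, rfl⟩ := exists_smul_padicPlace_eq q hA
          have h1 := Fermat.Agent.Gal.conj_mem_inertia hσ ρ⁻¹
          rw [show ρ⁻¹ • ρ • padicPlace q = padicPlace q from inv_smul_smul ρ (padicPlace q),
            inv_inv] at h1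
          have h2 := hall _ h1
          rwa [map_mul, map_mul, mul_comm (χ ρ⁻¹), mul_assoc, ← map_mul, inv_mul_cancel, map_one,
            mul_one] at h2
        · exact hχ.eq_one_of_mem_inertia q hql hA hσ
    obtain ⟨u, hu⟩ := hχ.surjective (Multiplicative.ofAdd 1)
    rw [htriv, MonoidHom.one_apply] at hu
    have : Fact (1 < p) := ⟨(Fact.out : p.Prime).one_lt⟩
    have h01 := congrArg Multiplicative.toAdd hu
    rw [toAdd_one, toAdd_ofAdd] at h01
    exact zero_ne_one h01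
  refine ⟨i ^ (Multiplicative.toAdd (χ g) * (Multiplicative.toAdd (χ i))⁻¹).val, pow_mem hi _, ?_⟩
  refine Multiplicative.toAdd.injective ?_
  rw [map_pow, toAdd_pow, nsmul_eq_mul, ZMod.natCast_zmod_val,
    inv_mul_cancel_right₀ (fun h0 => hne (Multiplicative.toAdd.injective h0))]

omit hp in
include hχ in
/-- At `ℓ` a unit entry gives zero only if it is a `p`-th power modulo `ℓ`. -/
theorem AuxChar.exists_pow_eq_of_baseLoc {n : ℕ} (hn : n ≠ 0) (hℓn : ¬ ℓ ∣ n)
    (h : baseLoc ℓ (cupChi (topChar χ hχ.ok_ker) (natInv ⊤ n hn)) = 0) :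
    ∃ y : ZMod ℓ, y ^ p = (n : ZMod ℓ) := by
  have hℓ : ℓ.Prime := Fact.out
  have hpr : p.Prime := Fact.out
  obtain ⟨d, hd⟩ := hχ.exists_local_ne_one_self
  obtain ⟨z, hz, s, hs⟩ := hχ.exists_norm_of_baseLoc ℓ hd hn h
  have := finiteDimensional_fixedField_of_ok hχ.ok_ker
  set A := padicPlace ℓ
  have hA : A.LiesOverPrime ℓ := liesOverPrime_padicPlace ℓ
  have hn1 : ‖(n : PadicAlgCl ℓ)‖ = 1 := by
    rw [norm_natCast, Padic.norm_natCast_eq_one_iff]; exact hℓ.coprime_iff_not_dvd.2 hℓn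
  have hz1 : ‖z‖ = 1 := by
    rw [← pow_eq_one_iff_of_nonneg (norm_nonneg z) hpr.ne_zero, ← norm_prod_smul ℓ s z, hs, hn1]
  obtain ⟨a, ha, haz⟩ := exists_mem_norm_sub_lt ℓ _ hz one_pos
  have haA : a ∈ A := by
    rw [mem_padicPlace]
    have h1 := norm_add_le_max ℓ z (padicEmbedding ℓ a - z)
    rw [add_sub_cancel, norm_sub_rev, hz1] at h1
    exact h1.trans (max_le le_rfl haz.le)
  have htriv : ∀ g : GalQ, g a - a ∈ A.nonunits := fun g => by
    obtain ⟨i, hi, hig⟩ := hχ.exists_inertia_eq g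
    have h1 : ((g⁻¹ * i : GalQ)) a = a :=
      ha ⟨_, MonoidHom.mem_ker.2 (by rw [map_mul, map_inv, hig, inv_mul_cancel])⟩
    have h2 : g a = i a := by
      conv_lhs => rw [← h1]
      rw [AlgEquiv.mul_apply, AlgEquiv.aut_inv, AlgEquiv.apply_symm_apply]
    rw [h2]
    exact ((Fermat.Agent.Gal.mem_inertia_iff A i).1 hi).2 a haA
  -- the residue of `a` lies in the prime field
  obtain ⟨F, hF⟩ := Fermat.Agent.Gal.exists_isFrobeniusAt hℓ hA
  have hpow : a ^ ℓ - a ∈ A.nonunits := by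
    have h1 := sub_mem (htriv F) (((Fermat.Agent.Gal.isFrobeniusAt_iff A F ℓ).1 hF).2 a haA)
    rwa [sub_sub_sub_cancel_left] at h1
  have : CharP (IsLocalRing.ResidueField A) ℓ := Fermat.Agent.Gal.charP_residueField A hℓ hA
  have : ExpChar (IsLocalRing.ResidueField A) ℓ := .prime hℓ
  obtain ⟨k, hk⟩ : ∃ k : ℕ, a - (k : Qbar) ∈ A.nonunits := by
    set x := IsLocalRing.residue A ⟨a, haA⟩
    have hx : x ^ ℓ = x := by
      rw [← map_pow, Fermat.Agent.Gal.residue_eq_residue_iff]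
      exact hpow
    have hbot : x ∈ (⊥ : Subfield (IsLocalRing.ResidueField A)) :=
      (Subfield.mem_bot_iff_pow_eq_self (F := IsLocalRing.ResidueField A) (p := ℓ)).2 hx
    rw [← ZMod.fieldRange_castHom_eq_bot ℓ] at hbot
    obtain ⟨c, hc⟩ := hbot
    refine ⟨c.val, ?_⟩
    have h1 : IsLocalRing.residue A ⟨a, haA⟩ = IsLocalRing.residue A (c.val : A) := by
      rw [map_natCast]
      conv_lhs => rw [show IsLocalRing.residue A ⟨a, haA⟩ = x from rfl, ← hc,
        ← ZMod.natCast_zmod_val c, map_natCast]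
    rw [Fermat.Agent.Gal.residue_eq_residue_iff] at h1
    have h2 : ((c.val : A) : Qbar) = (c.val : Qbar) := map_natCast A.subtype c.val
    rwa [h2] at h1
  refine ⟨(k : ZMod ℓ), ?_⟩
  -- `n ≡ k ^ p`
  set x := (k : PadicAlgCl ℓ)
  have hx1 : ‖x‖ ≤ 1 := norm_le_one_of_isIntegral ℓ (isIntegral_natCast (R := ℤ) k)
  have hclose : ∀ j ∈ Finset.range p, ‖((s ^ j : locBase ℓ) : GalLoc ℓ) z - x‖ < 1 := by
    intro j _
    set e := ((s ^ j : locBase ℓ) : GalLoc ℓ)
    have h1 : ‖e z - e (padicEmbedding ℓ a)‖ < 1 := by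
      rw [← map_sub, ← coe_nnnorm, nnnorm_padicAlgCl_algEquiv, coe_nnnorm]; exact haz
    have h2 : ‖e (padicEmbedding ℓ a) - x‖ < 1 := by
      have := add_mem (htriv (localGaloisToGlobal ℓ e)) hk
      rwa [sub_add_sub_cancel, mem_nonunits_padicPlace, map_sub, map_natCast,
        padicEmbedding_localGaloisToGlobal] at this
    have h3 := norm_add_le_max ℓ (e z - e (padicEmbedding ℓ a)) (e (padicEmbedding ℓ a) - x)
    rw [sub_add_sub_cancel] at h3
    exact h3.trans_lt (max_lt h1 h2)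
  have hprod : ∀ t : Finset ℕ, t ⊆ Finset.range p →
      ‖∏ j ∈ t, ((s ^ j : locBase ℓ) : GalLoc ℓ) z - x ^ t.card‖ < 1 := by
    intro t
    induction t using Finset.induction_on with
    | empty => intro _; simp
    | insert j t hj ih =>
      intro hsub
      rw [Finset.prod_insert hj, Finset.card_insert_of_notMem hj, pow_succ']
      set P := ∏ j ∈ t, ((s ^ j : locBase ℓ) : GalLoc ℓ) z
      set e := ((s ^ j : locBase ℓ) : GalLoc ℓ) z
      have h1 := ih (fun i hi => hsub (Finset.mem_insert_of_mem hi))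
      have h2 := hclose j (hsub (Finset.mem_insert_self j t))
      have he : ‖e‖ = 1 := by
        rw [← hz1, ← coe_nnnorm, nnnorm_padicAlgCl_algEquiv, coe_nnnorm]
      rw [show e * P - x * x ^ t.card = e * (P - x ^ t.card) + (e - x) * x ^ t.card by ring]
      refine (norm_add_le_max ℓ _ _).trans_lt (max_lt ?_ ?_)
      · rwa [norm_mul, he, one_mul]
      · rw [norm_mul, norm_pow]
        exact mul_lt_one_of_nonneg_of_lt_one_left (norm_nonneg _) h2
          (pow_le_one₀ (norm_nonneg _) hx1)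
  have h4 := hprod _ (Finset.Subset.refl _)
  rw [hs, Finset.card_range] at h4
  have h5 : (((n : ℤ) - (k : ℤ) ^ p : ℤ) : Qbar) ∈ A.nonunits := by
    rw [mem_nonunits_padicPlace, map_intCast]
    simpa [x] using h4
  rw [Fermat.Agent.Gal.intCast_mem_nonunits_iff A hℓ hA, ← ZMod.intCast_zmod_eq_zero_iff_dvd] at h5
  push_cast at h5
  exact (sub_eq_zero.1 h5).symm

end AtEll

end Fermat.Agent.Duality.Places

end
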