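import Fermat.Agent.Duality.Localisation
import Fermat.Agent.Gal.Decomposition

/-!
# Localisations of classes unramified at `q` vanish in degree two

A two-cocycle on a local Galois group inflated from an unramified quotient is a coboundary after
enlarging that (cyclic) quotient by the factor `p`.
-/

set_option autoImplicit false

open IntermediateField
open scoped Pointwise BigOperators

namespace Fermat.Agent.Duality.Places

section Cyclic

variable {D : Type} [Group D] {A : Type} [AddCommGroup A] [DistribMulAction D A]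

/-- The primitive of a cocycle along the powers of `g`. -/
def powPrimitive (f : D → D → A) (g : D) (k : ℕ) : A :=
  f 1 1 - ∑ i ∈ Finset.range k, f (g ^ i) g

variable {f : D → D → A}
  (hf : ∀ a b c : D, a • f b c - f (a * b) c + f a (b * c) - f a b = 0)

include hf in
theorem powPrimitive_spec (g : D) (i j : ℕ) :
    f (g ^ i) (g ^ j) =
      (g ^ i) • powPrimitive f g j - powPrimitive f g (i + j) + powPrimitive f g i := by
  induction j with
  | zero =>
    rw [Nat.add_zero, pow_zero, sub_add_cancel, powPrimitive, Finset.sum_range_zero, sub_zero]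
    have h := hf (g ^ i) 1 1
    rw [mul_one, mul_one, sub_add_cancel, sub_eq_zero] at h
    exact h.symm
  | succ j ih =>
    have h := hf (g ^ i) (g ^ j) g
    rw [← pow_add, ← pow_succ, ih] at h
    have e1 : powPrimitive f g (j + 1) = powPrimitive f g j - f (g ^ j) g := by
      simp only [powPrimitive, Finset.sum_range_succ]; abel
    have e2 : powPrimitive f g (i + (j + 1)) = powPrimitive f g (i + j) - f (g ^ (i + j)) g := by
      simp only [powPrimitive, ← Nat.add_assoc, Finset.sum_range_succ]; abel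
    rw [e1, e2, smul_sub, ← sub_eq_zero, ← h]
    abel

omit [DistribMulAction D A] in
theorem powPrimitive_add_mul {g : D} {n : ℕ} (hper : ∀ i, f (g ^ (i + n)) g = f (g ^ i) g)
    (k m : ℕ) :
    powPrimitive f g (k + n * m) =
      powPrimitive f g k - m • ∑ i ∈ Finset.range n, f (g ^ i) g := by
  have hs : ∀ c : ℕ, ∑ i ∈ Finset.range (c + n), f (g ^ i) g
      = ∑ i ∈ Finset.range c, f (g ^ i) g + ∑ i ∈ Finset.range n, f (g ^ i) g := by
    intro c
    induction c with
    | zero => simp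
    | succ c ihc =>
      rw [Nat.succ_add, Finset.sum_range_succ, ihc, Finset.sum_range_succ, hper]
      abel
  have hsum : ∀ m : ℕ, ∑ i ∈ Finset.range (k + n * m), f (g ^ i) g
      = ∑ i ∈ Finset.range k, f (g ^ i) g + m • ∑ i ∈ Finset.range n, f (g ^ i) g := by
    intro m
    induction m with
    | zero => simp
    | succ m ih => rw [Nat.mul_succ, ← Nat.add_assoc, hs, ih, succ_nsmul, add_assoc]
  rw [powPrimitive, powPrimitive, hsum, sub_add_eq_sub_sub]

omit [DistribMulAction D A] in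
theorem powPrimitive_eq_of_modEq {g : D} {n p : ℕ} (hpA : ∀ a : A, p • a = 0)
    (hper : ∀ i, f (g ^ (i + n)) g = f (g ^ i) g) {a b : ℕ} (h : a ≡ b [MOD n * p]) :
    powPrimitive f g a = powPrimitive f g b := by
  have key : ∀ x : ℕ, powPrimitive f g x = powPrimitive f g (x % (n * p)) := fun x => by
    conv_lhs => rw [← Nat.mod_add_div x (n * p), mul_assoc]
    rw [powPrimitive_add_mul hper, mul_nsmul, hpA, smul_zero, sub_zero]
  rw [key a, key b, h]

end Cyclic

variable (q : ℕ) [Fact q.Prime]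

/-- On a field unramified at `A` the decomposition group consists of powers of Frobenius. -/
theorem exists_pow_frobenius_eqOn (N : IntermediateField ℚ Qbar) [FiniteDimensional ℚ N]
    {A : ValuationSubring Qbar} (hA : A.LiesOverPrime q)
    (hN : ∀ σ ∈ A.inertiaSubgroupIn ℚ, ∀ x ∈ N, σ x = x) {F : GalQ} (hF : A.IsFrobeniusAt F q)
    {d : GalQ} (hd : d • A = A) : ∃ j : ℕ, ∀ x ∈ N, d x = (F ^ j) x := by
  obtain ⟨j, σ, hσ, hσe⟩ := Gal.exists_pow_mul_inertia_eqOn (Fact.out : q.Prime) N hA hF hd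
  exact ⟨j, fun x hx => by rw [hσe x hx, AlgEquiv.mul_apply, hN σ hσ x hx]⟩

theorem apply_pow_rootOfUnity {A : ValuationSubring Qbar} {F : GalQ} (hF : A.IsFrobeniusAt F q)
    (hA : A.LiesOverPrime q) {m : ℕ} (hm : ¬ q ∣ m) {ζ : Qbar} (hζ : ζ ^ m = 1) (j : ℕ) :
    (F ^ j) ζ = ζ ^ q ^ j := by
  induction j with
  | zero => simp
  | succ j ih =>
    rw [pow_succ', AlgEquiv.mul_apply, ih, map_pow,
      Gal.apply_rootOfUnity_of_isFrobeniusAt hF Fact.out hA hm hζ, ← pow_mul, ← pow_succ']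

/-- The field of `m`-th roots of unity is unramified outside the divisors of `m`. -/
theorem isUnramifiedOutside_adjoin_root {m : ℕ} {ζ : Qbar} (hζ : ζ ^ m = 1) (hm : m ≠ 0)
    (S : Finset Nat.Primes) (hS : ∀ r : Nat.Primes, (r : ℕ) ∣ m → r ∈ S) :
    (ℚ⟮ζ⟯).IsUnramifiedOutside S := by
  refine ⟨adjoin.finiteDimensional ((IsIntegral.of_pow (Nat.pos_of_ne_zero hm)
    (hζ ▸ isIntegral_one) : IsIntegral ℚ ζ)), fun r hr A hA σ hσ => ?_⟩
  have hrm : ¬ (r : ℕ) ∣ m := fun h => hr (hS r h)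
  obtain ⟨F, hF⟩ := Gal.exists_isFrobeniusAt r.2 hA
  have h1 := Gal.apply_rootOfUnity_of_isFrobeniusAt hF r.2 hA hrm hζ
  have h2 := Gal.apply_rootOfUnity_of_isFrobeniusAt (Gal.isFrobeniusAt_mul_inertia hF hσ)
    r.2 hA hrm hζ
  rw [AlgEquiv.mul_apply] at h2
  have h3 : σ ζ = ζ := F.injective (h2.trans h1.symm)
  rw [IntermediateField.mem_fixingSubgroup_iff]
  intro x hx
  have hle : ℚ⟮ζ⟯ ≤ fixedField (Subgroup.zpowers σ) := by
    rw [adjoin_simple_le_iff]
    rintro ⟨_, k, rfl⟩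
    exact MulAction.mem_stabilizer_iff.1
      (zpow_mem (K := MulAction.stabilizer GalQ ζ) (MulAction.mem_stabilizer_iff.2 h3) k)
  exact hle hx ⟨σ, Subgroup.mem_zpowers σ⟩

variable {p : ℕ} [Fact p.Prime] {A : Type} [AddCommGroup A] {D : Subgroup (GalLoc q)}
  [DistribMulAction D A]

/-- An unramified two-cocycle has a primitive trivial on inertia. -/
theorem exists_unramified_primitive {S : Finset Nat.Primes} {E : IntermediateField ℚ Qbar}
    (hE : E.IsUnramifiedOutside S) (hqS : (⟨q, Fact.out⟩ : Nat.Primes) ∉ S)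
    (hED : E.fixingSubgroup.comap (localGaloisToGlobal q) ≤ D)
    (hpA : ∀ a : A, p • a = 0)
    (hsm : ∀ s : D, localGaloisToGlobal q s ∈ E.fixingSubgroup → ∀ a : A, s • a = a)
    (f : Coh.Z2 ((galLevels ℚ_[q] (PadicAlgCl q)).restrict D) A)
    (hconst : ∀ a b s t : D, localGaloisToGlobal q s ∈ E.fixingSubgroup →
      localGaloisToGlobal q t ∈ E.fixingSubgroup →
      (f : D → D → A) (a * s) (b * t) = (f : D → D → A) a b) :
    ∃ y : D → A, Coh.IsConst₁ ((galLevels ℚ_[q] (PadicAlgCl q)).restrict D) y ∧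
      Coh.d₁ D A y = (f : D → D → A) ∧
      ∀ d s : D, localGaloisToGlobal q s ∈ (padicPlace q).inertiaSubgroupIn ℚ →
        y (d * s) = y d := by
  classical
  have hq : q.Prime := Fact.out
  set φ := localGaloisToGlobal q
  have := hE.1
  set N := IntermediateField.normalClosure ℚ E Qbar
  have hEN : E ≤ N := E.le_normalClosure
  have hN := isUnramifiedOutside_normalClosure hE
  have := hN.1
  have : Normal ℚ N := normalClosure.normal ℚ E Qbar
  have hA₀ := liesOverPrime_padicPlace q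
  obtain ⟨F, hF⟩ := Gal.exists_isFrobeniusAt hq hA₀
  have hFmem : F ∈ φ.range := by
    rw [range_localGaloisToGlobal]
    exact ((Gal.isFrobeniusAt_iff _ F q).1 hF).1
  obtain ⟨dF, hdF⟩ := hFmem
  set n := orderOf (AlgEquiv.restrictNormalHom N F)
  have hn : 0 < n := orderOf_pos _
  have hres : ∀ a b : GalQ, (∀ x ∈ N, a x = b x) →
      AlgEquiv.restrictNormalHom N a = AlgEquiv.restrictNormalHom N b := fun a b h =>
    AlgEquiv.ext fun x => Subtype.ext
      ((AlgEquiv.restrictNormal_commutes a N x).trans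
        ((h x x.2).trans (AlgEquiv.restrictNormal_commutes b N x).symm))
  have hfixN : ∀ s : GalQ, AlgEquiv.restrictNormalHom N s = 1 → s ∈ E.fixingSubgroup := fun s hs =>
    (mem_fixingSubgroup_iff E s).2 fun x hx => by
      have := AlgEquiv.restrictNormal_commutes s N ⟨x, hEN hx⟩
      rw [show AlgEquiv.restrictNormal s N = (1 : N ≃ₐ[ℚ] N) from hs] at this
      exact this.symm
  -- the least power of Frobenius in `D`
  have hex : ∃ t, 0 < t ∧ dF ^ t ∈ D := ⟨n, hn, hED (hfixN _ (by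
    rw [map_pow, map_pow, hdF]; exact pow_orderOf_eq_one _))⟩
  set t := Nat.find hex
  obtain ⟨ht0, htD⟩ : 0 < t ∧ dF ^ t ∈ D := Nat.find_spec hex
  have hdiv : ∀ j, dF ^ j ∈ D → t ∣ j := by
    intro j hj
    rw [Nat.dvd_iff_mod_eq_zero]
    by_contra hne
    refine Nat.find_min hex (Nat.mod_lt j ht0) ⟨Nat.pos_of_ne_zero hne, ?_⟩
    have h1 : dF ^ j * (dF ^ t) ^ (j / t) * ((dF ^ t) ^ (j / t))⁻¹ = dF ^ j :=
      mul_inv_cancel_right _ _
    have h2 : dF ^ (j % t) = dF ^ j * ((dF ^ t) ^ (j / t))⁻¹ := by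
      rw [eq_mul_inv_iff_mul_eq, ← pow_mul, ← pow_add, Nat.mod_add_div]
    rw [h2]
    exact mul_mem hj (inv_mem (pow_mem htD _))
  obtain ⟨n₀, hn₀⟩ : t ∣ n := hdiv n (hED (hfixN _ (by
    rw [map_pow, map_pow, hdF]; exact pow_orderOf_eq_one _)))
  -- the auxiliary roots of unity
  have hp : p.Prime := Fact.out
  set m := q ^ (n * p) - 1
  have hnp : 0 < n * p := Nat.mul_pos hn hp.pos
  have hm1 : 1 ≤ q ^ (n * p) := Nat.one_le_pow _ _ hq.pos
  have hm0 : m ≠ 0 := by
    have : 1 < q ^ (n * p) := Nat.one_lt_pow hnp.ne' hq.one_lt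
    omega
  have hqm : ¬ q ∣ m := fun h => by
    have h1 : q ∣ q ^ (n * p) := dvd_pow_self q hnp.ne'
    have h2 := Nat.dvd_sub h1 h
    rw [show q ^ (n * p) - m = 1 by omega] at h2
    exact hq.not_dvd_one h2
  have : NeZero m := ⟨hm0⟩
  obtain ⟨ζ, hζ⟩ := HasEnoughRootsOfUnity.exists_primitiveRoot Qbar m
  set S' : Finset Nat.Primes := S ∪ m.primeFactors.attach.image
    fun r => ⟨r.1, Nat.prime_of_mem_primeFactors r.2⟩
  have hqS' : (⟨q, Fact.out⟩ : Nat.Primes) ∉ S' := by
    intro h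
    rcases Finset.mem_union.1 h with h | h
    · exact hqS h
    obtain ⟨r, -, hr⟩ := Finset.mem_image.1 h
    refine hqm ?_
    rw [← show r.1 = q from congrArg (fun u : Nat.Primes => (u : ℕ)) hr]
    exact Nat.dvd_of_mem_primeFactors r.2
  have hS' : (ℚ⟮ζ⟯).IsUnramifiedOutside S' := isUnramifiedOutside_adjoin_root hζ.pow_eq_one hm0 S'
    fun r hr => Finset.mem_union_right _ (Finset.mem_image.2
      ⟨⟨r, Nat.mem_primeFactors.2 ⟨r.2, hr, hm0⟩⟩, Finset.mem_attach _ _, rfl⟩)
  have hN' := (hN.mono (Finset.subset_union_left : S ⊆ S')).sup hS'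
  have := hN'.1
  set M := IntermediateField.normalClosure ℚ (N ⊔ ℚ⟮ζ⟯ : IntermediateField ℚ Qbar) Qbar
  have hM := isUnramifiedOutside_normalClosure hN'
  have := hM.1
  have : Normal ℚ M := normalClosure.normal ℚ _ Qbar
  have hNM : N ≤ M := le_sup_left.trans (IntermediateField.le_normalClosure _)
  have hζM : ζ ∈ M := IntermediateField.le_normalClosure _
    ((le_sup_right : ℚ⟮ζ⟯ ≤ N ⊔ ℚ⟮ζ⟯) (mem_adjoin_simple_self ℚ ζ))
  have hMpow : ∀ d : GalLoc q, ∃ j : ℕ, ∀ x ∈ M, φ d x = (F ^ j) x := fun d =>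
    exists_pow_frobenius_eqOn q M hA₀ (fun σ hσ x hx => (mem_fixingSubgroup_iff M σ).1
      (hM.2 ⟨q, hq⟩ hqS' _ hA₀ hσ) x hx) hF (localGaloisToGlobal_mem_decompositionSubgroup q d)
  choose J hJ using hMpow
  have hJN : ∀ d : GalLoc q, φ ((dF ^ J d)⁻¹ * d) ∈ E.fixingSubgroup := fun d => hfixN _ (by
    rw [map_mul, map_inv, map_mul, map_inv, inv_mul_eq_one, map_pow, hdF]
    exact hres _ _ fun x hx => (hJ d x (hNM hx)).symm)
  -- the exponent is well defined modulo `n * p`
  have hinj : ∀ i j : ℕ, (F ^ i) ζ = (F ^ j) ζ → i ≡ j [MOD n * p] := by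
    intro i j h
    rw [apply_pow_rootOfUnity q hF hA₀ hqm hζ.pow_eq_one,
      apply_pow_rootOfUnity q hF hA₀ hqm hζ.pow_eq_one] at h
    have hpow : ∀ k, ζ ^ q ^ k = ζ ^ q ^ (k % (n * p)) := fun k => by
      conv_lhs => rw [← Nat.mod_add_div k (n * p), pow_add, pow_mul q (n * p)]
      have hpos : 1 ≤ (q ^ (n * p)) ^ (k / (n * p)) := Nat.one_le_pow _ _ hm1
      obtain ⟨c, hc⟩ : m ∣ (q ^ (n * p)) ^ (k / (n * p)) - 1 := (Nat.modEq_iff_dvd' hpos).1 (by
        simpa using (((Nat.modEq_iff_dvd' hm1).2 dvd_rfl : 1 ≡ q ^ (n * p) [MOD m]).pow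
          (k / (n * p))))
      rw [show (q ^ (n * p)) ^ (k / (n * p)) = m * c + 1 by omega, mul_add, mul_one, pow_add,
        ← mul_assoc, mul_comm (q ^ _) m, mul_assoc, pow_mul, hζ.pow_eq_one, one_pow, one_mul]
    rw [hpow i, hpow j] at h
    have hlt : ∀ k, q ^ (k % (n * p)) < m := by
      intro k
      have h1 : q ^ (k % (n * p)) ≤ q ^ (n * p - 1) :=
        Nat.pow_le_pow_right hq.pos (by have := Nat.mod_lt k hnp; omega)
      have h2 : q ^ (n * p) = q ^ (n * p - 1) * q := by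
        rw [← pow_succ, Nat.sub_add_cancel hnp]
      have h3 : 2 ≤ q := hq.two_le
      have h4 : 2 ≤ q ^ (n * p - 1) := by
        calc 2 ≤ q := h3
          _ = q ^ 1 := (pow_one q).symm
          _ ≤ _ := Nat.pow_le_pow_right hq.pos (by
            have : 2 ≤ n * p := le_trans hp.two_le (Nat.le_mul_of_pos_left p hn)
            omega)
      have h5 : q ^ (n * p - 1) * 2 ≤ q ^ (n * p - 1) * q := Nat.mul_le_mul_left _ h3
      omega
    exact Nat.pow_right_injective hq.two_le (hζ.pow_inj (hlt i) (hlt j) h)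
  let g : D := ⟨dF ^ t, htD⟩
  let κ : D → ℕ := fun d => J (d : GalLoc q) / t
  have hκ : ∀ d : D, t * κ d = J (d : GalLoc q) := fun d => by
    refine Nat.mul_div_cancel' (hdiv _ ?_)
    have h1 : (dF ^ J (d : GalLoc q))⁻¹ * d ∈ D := hED (hJN d)
    have h2 := mul_mem d.2 (inv_mem h1)
    rwa [mul_inv_rev, inv_inv, mul_inv_cancel_left] at h2
  -- `d = g ^ κ d * (small)`
  have hsmall : ∀ d : D, φ (((g ^ κ d)⁻¹ * d : D) : GalLoc q) ∈ E.fixingSubgroup := fun d => by
    have h1 : ((g ^ κ d : D) : GalLoc q) = dF ^ J (d : GalLoc q) := by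
      rw [SubgroupClass.coe_pow, ← pow_mul, hκ]
    rw [Subgroup.coe_mul, Subgroup.coe_inv, h1]
    exact hJN d
  have hone : φ ((1 : D) : GalLoc q) ∈ E.fixingSubgroup := by
    rw [Subgroup.coe_one, map_one]; exact one_mem _
  have hval : ∀ a b : D,
      (f : D → D → A) a b = (f : D → D → A) (g ^ κ a) (g ^ κ b) := fun a b => by
    have h := hconst (g ^ κ a) (g ^ κ b) _ _ (hsmall a) (hsmall b)
    rwa [mul_inv_cancel_left, mul_inv_cancel_left] at h
  have hgn : φ ((g ^ n₀ : D) : GalLoc q) ∈ E.fixingSubgroup := by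
    refine hfixN _ ?_
    rw [SubgroupClass.coe_pow, ← pow_mul, ← hn₀, map_pow, map_pow, hdF]
    exact pow_orderOf_eq_one _
  have hper : ∀ i, (f : D → D → A) (g ^ (i + n₀)) g = (f : D → D → A) (g ^ i) g := fun i => by
    have h := hconst (g ^ i) g (g ^ n₀) 1 hgn hone
    rwa [← pow_add, mul_one] at h
  set u := powPrimitive (f : D → D → A) g with hu
  have hmod : ∀ {a b : ℕ}, t * a ≡ t * b [MOD n * p] → u a = u b := fun {a b} h => by
    refine powPrimitive_eq_of_modEq hpA hper (Nat.ModEq.mul_left_cancel' ht0.ne' ?_)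
    rwa [← mul_assoc, ← hn₀]
  -- levels
  have hlev : ∀ d s : D, φ (s : GalLoc q) ∈ M.fixingSubgroup → u (κ (d * s)) = u (κ d) := by
    intro d s hs
    refine hmod ?_
    rw [hκ, hκ]
    refine hinj _ _ ?_
    rw [← hJ _ ζ hζM, ← hJ _ ζ hζM, Subgroup.coe_mul, map_mul, AlgEquiv.mul_apply,
      (mem_fixingSubgroup_iff M _).1 hs ζ hζM]
  refine ⟨fun d => u (κ d),
    ⟨(M.fixingSubgroup.comap φ).subgroupOf D, ⟨M.fixingSubgroup.comap φ, ?_, le_rfl⟩,
      fun d s hs => hlev d s hs⟩, funext fun a => funext fun b => ?_,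
    fun d s hs => hlev d s (hM.2 ⟨q, hq⟩ hqS' _ hA₀ hs)⟩
  · refine ⟨localField q M, inferInstance, ?_⟩
    rw [fixingSubgroup_localField]
  · rw [Coh.d₁_apply, hval a b, powPrimitive_spec f.2.2 g (κ a) (κ b)]
    have hmul : u (κ (a * b)) = u (κ a + κ b) := by
      refine hmod ?_
      rw [mul_add, hκ, hκ, hκ]
      refine hinj _ _ ?_
      rw [← hJ _ ζ hζM, Subgroup.coe_mul, map_mul, AlgEquiv.mul_apply, pow_add, AlgEquiv.mul_apply,
        hJ _ ζ hζM, ← hJ (a : GalLoc q) _ ?_]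
      rw [apply_pow_rootOfUnity q hF hA₀ hqm hζ.pow_eq_one]
      exact pow_mem hζM _
    have hact : a • u (κ b) = (g ^ κ a) • u (κ b) := by
      conv_lhs => rw [show a = g ^ κ a * ((g ^ κ a)⁻¹ * a) from (mul_inv_cancel_left _ _).symm]
      rw [mul_smul, hsm _ (hsmall a)]
    rw [hmul, hact]

/-- **Unramified two-classes are locally trivial.** -/
theorem H2_mk_eq_zero_of_unramified {S : Finset Nat.Primes} {E : IntermediateField ℚ Qbar}
    (hE : E.IsUnramifiedOutside S) (hqS : (⟨q, Fact.out⟩ : Nat.Primes) ∉ S)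
    (hED : E.fixingSubgroup.comap (localGaloisToGlobal q) ≤ D)
    (hpA : ∀ a : A, p • a = 0)
    (hsm : ∀ s : D, localGaloisToGlobal q s ∈ E.fixingSubgroup → ∀ a : A, s • a = a)
    (f : Coh.Z2 ((galLevels ℚ_[q] (PadicAlgCl q)).restrict D) A)
    (hconst : ∀ a b s t : D, localGaloisToGlobal q s ∈ E.fixingSubgroup →
      localGaloisToGlobal q t ∈ E.fixingSubgroup →
      (f : D → D → A) (a * s) (b * t) = (f : D → D → A) a b) :
    Coh.H2.mk f = 0 := by
  obtain ⟨y, hy, hdy, -⟩ := exists_unramified_primitive q hE hqS hED hpA hsm f hconst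
  exact Coh.H2.mk_eq_zero.2 ⟨y, hy, hdy⟩

end Fermat.Agent.Duality.Places
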