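import Fermat.Agent.Duality.Places.Adic
import Fermat.Agent.Duality.Coh.Mackey

/-!
# Places as double cosets

For `K ⊂ ℚ̄` the embeddings into `PadicAlgCl q` are `padicEmbedding ∘ g` and the local group at
the double coset of `g` is the Galois group of the corresponding local field.
-/

set_option autoImplicit false

open IntermediateField IsDedekindDomain
open NumberField
open scoped Pointwise

namespace Fermat.Agent.Duality.Places

variable (q : ℕ) [Fact q.Prime]

local notation "Ω" => PadicAlgCl q
local notation "ι" => padicEmbedding q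

/-- The embedding of `K` attached to `g`. -/
noncomputable def twistEmb (K : IntermediateField ℚ Qbar) (g : GalQ) : K →ₐ[ℚ] Ω :=
  ((padicEmbedding q).comp g.toAlgHom).comp K.val

theorem twistEmb_apply (K : IntermediateField ℚ Qbar) (g : GalQ) (x : K) :
    twistEmb q K g x = ι (g (x : Qbar)) := rfl

theorem fixingSubgroup_map (K : IntermediateField ℚ Qbar) (g : GalQ) :
    (K.map g.toAlgHom).fixingSubgroup = K.fixingSubgroup.comap (MulAut.conj g⁻¹).toMonoidHom := by
  ext s
  simp only [Subgroup.mem_comap, IntermediateField.mem_fixingSubgroup_iff, MulEquiv.coe_toMonoidHom,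
    MulAut.conj_apply, inv_inv]
  refine ⟨fun h x hx => ?_, ?_⟩
  · rw [AlgEquiv.mul_apply, AlgEquiv.mul_apply, h (g x) ⟨x, hx, rfl⟩, AlgEquiv.aut_inv,
      AlgEquiv.symm_apply_apply]
  · rintro h _ ⟨x, hx, rfl⟩
    have := congrArg g (h x hx)
    rwa [AlgEquiv.mul_apply, AlgEquiv.mul_apply, AlgEquiv.aut_inv, AlgEquiv.apply_symm_apply]
      at this

theorem locField_twistEmb (K : IntermediateField ℚ Qbar) (g : GalQ) :
    locField q (twistEmb q K g) = localField q (K.map g.toAlgHom) := by
  refine congrArg (IntermediateField.adjoin ℚ_[q]) (Set.ext fun z => ⟨?_, ?_⟩)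
  · rintro ⟨x, rfl⟩
    exact ⟨g x, ⟨x, x.2, rfl⟩, rfl⟩
  · rintro ⟨_, ⟨x, hx, rfl⟩, rfl⟩
    exact ⟨⟨x, hx⟩, rfl⟩

instance finiteDimensional_map (K : IntermediateField ℚ Qbar) [FiniteDimensional ℚ K] (g : GalQ) :
    FiniteDimensional ℚ (K.map g.toAlgHom) :=
  (IntermediateField.equivMap K g.toAlgHom).toLinearEquiv.finiteDimensional

instance finiteDimensional_locField_twistEmb (K : IntermediateField ℚ Qbar) [FiniteDimensional ℚ K]
    (g : GalQ) : FiniteDimensional ℚ_[q] (locField q (twistEmb q K g)) := by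
  rw [locField_twistEmb]; infer_instance

/-- The twisted local group is the Galois group of the local field. -/
theorem twisted_eq_fixingSubgroup (K : IntermediateField ℚ Qbar) (g : GalQ) :
    Coh.twisted (localGaloisToGlobal q) g K.fixingSubgroup =
      (locField q (twistEmb q K g)).fixingSubgroup := by
  rw [locField_twistEmb, fixingSubgroup_localField, fixingSubgroup_map, Subgroup.comap_comap]
  rfl

/-- Every embedding is a twist of the standard one. -/
theorem exists_twistEmb_eq (K : IntermediateField ℚ Qbar) [FiniteDimensional ℚ K]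
    (τ : K →ₐ[ℚ] Ω) : ∃ g : GalQ, twistEmb q K g = τ := by
  have hmem : ∀ x : K, τ x ∈ (padicEmbedding q).fieldRange := by
    intro x
    obtain ⟨a, ha⟩ := mem_range_of_root q (g := minpoly ℚ x)
      (minpoly.ne_zero (Algebra.IsIntegral.isIntegral x)) (b := τ x) (by
        rw [Polynomial.mem_aroots, Polynomial.aeval_map_algebraMap, Polynomial.aeval_algHom_apply,
          minpoly.aeval, map_zero]
        exact ⟨((minpoly.monic (Algebra.IsIntegral.isIntegral x)).map _).ne_zero, rfl⟩)
    exact ⟨a, ha⟩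
  let σ₀ : K →ₐ[ℚ] Qbar := (AlgEquiv.ofInjectiveField (padicEmbedding q)).symm.toAlgHom.comp
    (AlgHom.codRestrict τ (padicEmbedding q).range hmem)
  have : Normal ℚ Qbar := Fermat.Agent.Gal.isGalois_rat_qbar.to_normal
  have hσ₀ : ∀ x : K, ι (σ₀ x) = τ x := fun x => congrArg Subtype.val
    ((AlgEquiv.ofInjectiveField (padicEmbedding q)).apply_symm_apply
      (AlgHom.codRestrict τ (padicEmbedding q).range hmem x))
  let s : Qbar →ₐ[ℚ] Qbar := σ₀.liftNormal Qbar
  refine ⟨AlgEquiv.ofBijective s (Algebra.IsAlgebraic.algHom_bijective s), AlgHom.ext fun x => ?_⟩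
  rw [twistEmb_apply, ← hσ₀]
  exact congrArg ι (AlgHom.liftNormal_commutes σ₀ Qbar x)

/-- Two twists give the same place exactly when they lie in the same double coset. -/
theorem placeOf_twistEmb_eq_iff (K : IntermediateField ℚ Qbar) [NumberField K] (g g' : GalQ) :
    placeOf q (twistEmb q K g) = placeOf q (twistEmb q K g') ↔
      ∃ d : GalLoc q, g⁻¹ * (localGaloisToGlobal q d) * g' ∈ K.fixingSubgroup := by
  refine ⟨fun h => ?_, fun ⟨d, hd⟩ => placeOf_eq_of_comp_eq q d⁻¹ fun x => ?_⟩
  · obtain ⟨d, hd⟩ := exists_comp_eq_of_placeOf_eq q h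
    refine ⟨d⁻¹, (IntermediateField.mem_fixingSubgroup_iff _ _).2 fun x hx => ?_⟩
    have h1 := hd ⟨x, hx⟩
    rw [twistEmb_apply, twistEmb_apply, ← padicEmbedding_localGaloisToGlobal] at h1
    have h2 := (padicEmbedding q).toRingHom.injective h1
    rw [AlgEquiv.mul_apply, AlgEquiv.mul_apply, map_inv]
    simp only at h2
    rw [← h2, AlgEquiv.aut_inv, AlgEquiv.aut_inv, AlgEquiv.symm_apply_apply,
      AlgEquiv.symm_apply_apply]
  · rw [twistEmb_apply, twistEmb_apply, ← padicEmbedding_localGaloisToGlobal]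
    have h1 := congrArg g ((IntermediateField.mem_fixingSubgroup_iff _ _).1 hd (x : Qbar) x.2)
    rw [AlgEquiv.mul_apply, AlgEquiv.mul_apply, AlgEquiv.aut_inv, AlgEquiv.apply_symm_apply] at h1
    rw [map_inv, ← h1, AlgEquiv.aut_inv, AlgEquiv.symm_apply_apply]

end Fermat.Agent.Duality.Places
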