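import Fermat.Agent.Duality.Places.LocalKummer
import Fermat.Agent.Gal.Residue

/-!
# The Kummer classes of `S`-units are classes for `S`-levels
-/

set_option autoImplicit false

noncomputable section

open IsDedekindDomain NumberField

namespace Fermat.Agent.Duality.Places

variable {p : ℕ} [Fact p.Prime] (K : IntermediateField ℚ Qbar) [FiniteDimensional ℚ K]
  [NumberField K] {S : Finset Nat.Primes}

omit [FiniteDimensional ℚ K] in
/-- Valuation one at the primes outside `S` makes a unit at the places outside `S`. -/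
theorem valuation_eq_one_of_valuation {A : ValuationSubring Qbar} {q : ℕ} (hq : q.Prime)
    (hA : A.LiesOverPrime q) {x : K}
    (hx : ∀ v : HeightOneSpectrum (𝓞 K), (q : 𝓞 K) ∈ v.asIdeal → v.valuation K x = 1) :
    A.valuation (x : Qbar) = 1 := by
  have hP0 : Gal.primeBelow K A ≠ ⊥ := by
    intro h0
    have h1 := Gal.natCast_mem_primeBelow K hA
    rw [h0, Ideal.mem_bot, Nat.cast_eq_zero] at h1
    exact hq.ne_zero h1
  set v : HeightOneSpectrum (𝓞 K) := ⟨Gal.primeBelow K A, inferInstance, hP0⟩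
  have hv := hx v (Gal.natCast_mem_primeBelow K hA)
  have hunit : ∀ a : 𝓞 K, a ∉ v.asIdeal → A.valuation ((a : K) : Qbar) = 1 := fun a ha => by
    refine le_antisymm ((A.valuation_le_one_iff _).2 (Gal.mem_of_isIntegral A ?_)) ?_
    · exact map_isIntegral_int K.val.toRingHom a.2
    · exact not_lt.1 fun h => ha ((Gal.mem_primeBelow (L := K)).2
        ((ValuationSubring.mem_nonunits_iff _).2 h))
  obtain ⟨n, ⟨d, hd⟩, e⟩ := v.exists_primeCompl_mul_eq_of_integer x hv.le
  have hn : n ∉ v.asIdeal := fun hn => by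
    have h1 := congrArg (v.valuation K) e
    rw [map_mul, hv, one_mul, v.valuation_eq_one_iff_notMem.2 hd] at h1
    exact v.valuation_eq_one_iff_notMem.1 h1.symm hn
  have h2 := congrArg (fun y : K => A.valuation (y : Qbar)) e
  rw [show ((x * algebraMap (𝓞 K) K d : K) : Qbar) = (x : Qbar) * ((d : K) : Qbar) from rfl,
    map_mul, hunit d hd, mul_one] at h2
  exact h2.trans (hunit n hn)

/-- Inertia fixes the `p`-th roots of units away from `p`. -/
theorem apply_eq_of_pow_eq {A : ValuationSubring Qbar} {q : ℕ} (hq : q.Prime) (hqp : q ≠ p)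
    (hA : A.LiesOverPrime q) {r : Qbar} (hr : A.valuation r = 1) {σ : GalQ}
    (hσ : σ ∈ A.inertiaSubgroupIn ℚ) (hfix : σ (r ^ p) = r ^ p) : σ r = r := by
  have hp : p.Prime := Fact.out
  have hrA : r ∈ A := (A.valuation_le_one_iff r).1 hr.le
  have hr0 : r ≠ 0 := fun h => by rw [h, map_zero] at hr; exact zero_ne_one hr
  have hsub := ((Gal.mem_inertia_iff A σ).1 hσ).2 r hrA
  set ξ := σ r / r
  have hξp : ξ ^ p = 1 := by
    rw [div_pow, ← map_pow, hfix, div_self (pow_ne_zero p hr0)]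
  by_contra hne
  have hξ1 : ξ - 1 ≠ 0 := sub_ne_zero.2 fun h => hne (by rwa [div_eq_one_iff_eq hr0] at h)
  have hξ : ξ - 1 ∈ A.nonunits := by
    rw [ValuationSubring.mem_nonunits_iff] at hsub ⊢
    rwa [show ξ - 1 = (σ r - r) / r by rw [sub_div, div_self hr0], map_div₀, hr, div_one]
  have hξA : ξ ∈ A := by
    have h := add_mem (show ξ - 1 ∈ A from A.nonunits_subset hξ) A.one_mem
    rwa [sub_add_cancel] at h
  have hsum : ∑ i ∈ Finset.range p, ξ ^ i = 0 := by
    have h := geom_sum_mul ξ p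
    rw [hξp, sub_self] at h
    exact (mul_eq_zero.1 h).resolve_right hξ1
  have hmem : ∑ i ∈ Finset.range p, (1 - ξ ^ i) ∈ A.nonunits := by
    refine sum_mem fun i _ => ?_
    rw [← mul_neg_geom_sum ξ i, show 1 - ξ = -(ξ - 1) by ring, neg_mul]
    refine neg_mem ?_
    rw [ValuationSubring.mem_nonunits_iff, map_mul]
    exact mul_lt_one_of_lt_of_le ((ValuationSubring.mem_nonunits_iff _).1 hξ)
      ((A.valuation_le_one_iff _).2 (sum_mem fun j _ => pow_mem hξA j))
  rw [Finset.sum_sub_distrib, hsum, sub_zero, Finset.sum_const, Finset.card_range, nsmul_one,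
    show ((p : ℕ) : Qbar) = ((p : ℤ) : Qbar) by rw [Int.cast_natCast],
    Gal.intCast_mem_nonunits_iff A hq hA] at hmem
  exact hqp ((Nat.prime_dvd_prime_iff_eq hq hp).1 (Int.natCast_dvd_natCast.1 hmem))

/-- The Kummer class of an `S`-unit comes from the `S`-levels. -/
theorem exists_inflS₁_eq_kummer (hpS : (⟨p, Fact.out⟩ : Nat.Primes) ∈ S)
    (hK : K.IsUnramifiedOutside S) (hH : (galLevels ℚ Qbar).ok K.fixingSubgroup) {x : Kˣ}
    (hx : x ∈ Global.sUnit K (placesS K S hH)) :
    ∃ z : Coh.H1 ((galLevelsS S).restrict K.fixingSubgroup) (Mu p Qbar),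
      inflS₁ S K.fixingSubgroup z =
        kummer K.fixingSubgroup (Fact.out : p.Prime).pos (globalUnit K (Additive.ofMul x)) := by
  have hp : 0 < p := (Fact.out : p.Prime).pos
  set a := globalUnit K (Additive.ofMul x)
  set r := (((rootP p (a : Lx Qbar)).toMul : Qbarˣ) : Qbar)
  have hrp : r ^ p = ((x : K) : Qbar) := by
    have h := congrArg (fun y : Lx Qbar => ((y.toMul : Qbarˣ) : Qbar))
      (nsmul_rootP hp (a : Lx Qbar))
    rw [toMul_nsmul, Units.val_pow_eq_pow_val] at h
    exact h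
  obtain ⟨V, hV, hVr⟩ := isSmooth_Lx (F := ℚ) (L := Qbar) (rootP p (a : Lx Qbar))
  set U : Subgroup GalQ := MulAction.stabilizer GalQ (rootP p (a : Lx Qbar)) ⊓ K.fixingSubgroup
  have hU : (galLevelsS S).ok U := by
    refine galLevelsS_ok_of_inertia ((galLevels ℚ Qbar).inf_ok
      ((galLevels ℚ Qbar).mono hV fun s hs => hVr s hs) hH) fun q hq A hA σ hσ =>
        ⟨?_, hK.2 q hq A hA hσ⟩
    refine Additive.toMul.injective (Units.ext ?_)
    show σ r = r
    have hqp : (q : ℕ) ≠ p := fun h => hq (by rwa [show q = ⟨p, Fact.out⟩ from Subtype.ext h])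
    have hux : A.valuation ((x : K) : Qbar) = 1 := valuation_eq_one_of_valuation K q.2 hA
      fun v hv => hx v fun hmem => by
        obtain ⟨r', hr', h'⟩ := (mem_placesS K hH).1 hmem
        obtain rfl : q = r' := Subtype.ext (eq_of_natCast_mem q.2 r'.2 hv h')
        exact hq hr'
    refine apply_eq_of_pow_eq q.2 hqp hA ?_ hσ ?_
    · rw [← hrp, map_pow] at hux
      exact (pow_eq_one_iff_of_nonneg zero_le (Fact.out : p.Prime).ne_zero).1 hux
    · rw [hrp]
      exact (IntermediateField.mem_fixingSubgroup_iff K σ).1 (hK.2 q hq A hA hσ) _ (x : K).2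
  refine ⟨Coh.H1.mk ⟨(kummerFun K.fixingSubgroup hp a : K.fixingSubgroup → Mu p Qbar),
    ⟨U.subgroupOf K.fixingSubgroup, ⟨U, hU, le_rfl⟩, fun g s hs => muVal_injective ?_⟩,
    (kummerFun K.fixingSubgroup hp a).2.2⟩, rfl⟩
  have hs' : s • rootP p (a : Lx Qbar) = rootP p (a : Lx Qbar) :=
    (Subgroup.mem_inf.1 (Subgroup.mem_subgroupOf.1 hs)).1
  rw [muVal_kummerFun, muVal_kummerFun, mul_smul, hs']

end Fermat.Agent.Duality.Places

end
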