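import Fermat.Agent.Duality.Places.InvFamily
import Fermat.Agent.Duality.Places.LocalPairing
import Fermat.Agent.Duality.Places.SUnitClass
import Fermat.Agent.Duality.Coh.ShaPairing

/-!
# The global classes are Lagrangian in the local ones

For large `S` the image of the classes for `S`-levels is its own orthogonal complement: it is
isotropic by reciprocity, it contains the image of the `S`-units, and the latter has the square
root of the number of local classes.
-/

set_option autoImplicit false

noncomputable section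

open IsDedekindDomain NumberField

namespace Fermat.Agent.Duality.Places

variable {p : ℕ} [Fact p.Prime]

/-- A field over which `μ_p` is fixed contains a primitive `p`-th root of unity. -/
theorem exists_primitiveRoot_mem (K : IntermediateField ℚ Qbar) [FiniteDimensional ℚ K]
    (hμ : ∀ (h : K.fixingSubgroup) (z : Mu p Qbar), h • z = z) :
    ∃ ζ : K, IsPrimitiveRoot ζ p := by
  have : NeZero p := ⟨(Fact.out : p.Prime).ne_zero⟩
  have : IsGalois ℚ Qbar := Fermat.Agent.Gal.isGalois_rat_qbar
  obtain ⟨ζ, hζ⟩ := HasEnoughRootsOfUnity.exists_primitiveRoot Qbar p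
  set z : Mu p Qbar := muMk (Additive.ofMul (Units.ofPowEqOne ζ p hζ.pow_eq_one (NeZero.ne p)))
    (Additive.toMul.injective (Units.pow_ofPowEqOne hζ.pow_eq_one (NeZero.ne p)))
  have hmem : ζ ∈ K := by
    refine (InfiniteGalois.fixedField_fixingSubgroup K).le fun s => ?_
    exact congrArg (fun y : Mu p Qbar => (((muVal y).toMul : Qbarˣ) : Qbar)) (hμ s z)
  exact ⟨⟨ζ, hmem⟩, IsPrimitiveRoot.coe_submonoidClass_iff.1 hζ⟩

omit [Fact (Nat.Prime p)] in
theorem nsmul_H1μ {F L : Type} [Field F] [Field L] [Algebra F L] [Normal F L]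
    {H : Subgroup (L ≃ₐ[F] L)} (x : H1μ p H) : p • x = 0 := by
  obtain ⟨u, rfl⟩ := Coh.H1.mk_surjective x
  rw [← map_nsmul]
  refine (congrArg _ ?_).trans (map_zero _)
  exact Subtype.ext (funext fun g => nsmul_mu _)

private theorem card_hom_zmod_aux {W : Type} [AddCommGroup W] [Finite W] [Module (ZMod p) W] :
    Nat.card (W →+ ZMod p) = Nat.card W := by
  have : Module.Finite (ZMod p) W := Module.Finite.of_finite
  rw [show Nat.card (W →+ ZMod p) = Nat.card (Module.Dual (ZMod p) W) from Nat.card_congr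
    ⟨fun f => f.toZModLinearMap p, fun l => l.toAddMonoidHom,
      fun f => AddMonoidHom.ext fun _ => rfl,
      fun l => LinearMap.ext fun _ => rfl⟩]
  exact (Nat.card_congr (Module.finBasis (ZMod p) W).toDualEquiv.toEquiv).symm

/-- A group killed by `p` has as many functionals as elements. -/
theorem card_hom_zmod {W : Type} [AddCommGroup W] [Finite W] (hW : ∀ w : W, p • w = 0) :
    Nat.card (W →+ ZMod p) = Nat.card W := by
  let : Module (ZMod p) W := AddCommGroup.zmodModule hW
  exact card_hom_zmod_aux (p := p)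

/-- An isotropic subgroup containing one with the square root of the order is its own orthogonal
complement for a non-degenerate pairing. -/
theorem mem_iff_forall_eq_zero {V : Type} [AddCommGroup V] [Finite V] (hV : ∀ v : V, p • v = 0)
    (B : V →+ V →+ ZMod p) (hsep : ∀ v, v ≠ 0 → ∃ y, B v y ≠ 0) (W G : AddSubgroup V) (hWG : W ≤ G)
    (hG : ∀ x ∈ G, ∀ y ∈ G, B x y = 0) (hcardV : Nat.card V = Nat.card W ^ 2) (y : V) :
    y ∈ G ↔ ∀ x ∈ G, B x y = 0 := by
  refine ⟨fun hy x hx => hG x hx y hy, fun h => ?_⟩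
  let θ : V →+ W →+ ZMod p :=
    AddMonoidHom.mk' (fun y => (B.flip y).comp W.subtype) fun y y' => by
      rw [map_add, AddMonoidHom.add_comp]
  have hWp : ∀ w : W, p • w = 0 := fun w => Subtype.ext (hV w)
  have hsurj : Function.Surjective θ := Coh.surjective_of_separates hWp θ fun v hv => by
    obtain ⟨c, hc⟩ := hsep v fun h => hv (Subtype.ext h)
    exact ⟨c, hc⟩
  have hle : W ≤ θ.ker := fun w hw => AddMonoidHom.mem_ker.2 (AddMonoidHom.ext fun u =>
    hG u (hWG u.2) w (hWG hw))
  have hcard : Nat.card θ.ker ≤ Nat.card W := by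
    have h1 := θ.ker.card_mul_index
    rw [AddSubgroup.index_ker, AddMonoidHom.range_eq_top_of_surjective θ hsurj,
      AddSubgroup.card_top, card_hom_zmod hWp, hcardV, sq] at h1
    exact (mul_right_cancel₀ Nat.card_pos.ne' h1).le
  refine hWG ?_
  rw [AddSubgroup.eq_of_le_of_card_ge hle hcard]
  exact AddMonoidHom.mem_ker.2 (AddMonoidHom.ext fun w => h w.1 (hWG w.2))

attribute [local instance] placePrime

variable {S : Finset Nat.Primes} {H : Subgroup GalQ} (hH : (galLevels ℚ Qbar).ok H)
  (hμ : ∀ (h : H) (z : Mu p Qbar), h • z = z) {z₀ : Mu p Qbar} (hz : z₀ ≠ 0)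

theorem sumPair_apply (I : InvFam p) (x y : LocV p hH (S := S)) :
    sumPair hH hμ hz I x y = ∑ i, placePair hH hμ hz I i (x i) (y i) := rfl

/-- The global classes are isotropic. -/
theorem sumPair_eq_zero_of_mem (hp2 : p ≠ 2) (hpS : (⟨p, Fact.out⟩ : Nat.Primes) ∈ S)
    (hHS : (galLevelsS S).ok H) {x y : LocV p hH (S := S)} (hx : x ∈ globalImage p S hH)
    (hy : y ∈ globalImage p S hH) : sumPair hH hμ hz (invFam p) x y = 0 := by
  classical
  obtain ⟨a, rfl⟩ := hx
  obtain ⟨b, rfl⟩ := hy
  let : Fintype (GalQ ⧸ H) := (galLevels ℚ Qbar).fintypeQuot hH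
  let : ∀ (q : ↥S) (i : Fin (placeCount S H hH q)),
      Fintype (GalLoc (q.1 : ℕ) ⧸
        Coh.twisted (localGaloisToGlobal (q.1 : ℕ)) (placeRep S H hH q i) H) :=
    fun q i => (galLevels ℚ_[(q.1 : ℕ)] (PadicAlgCl (q.1 : ℕ))).fintypeQuot
      (ok_placeGroup hH ⟨q, i⟩)
  set X := Coh.cup₁₁ (isPairing_muPair hz hμ)
    (fun z => ⟨⊤, ((galLevelsS S).restrict H).top_ok, fun s _ => hμ s z⟩) a b
  set Y := Coh.cor₂ (𝓛 := galLevelsS S) H hHS X
  have hsum := sum_inv_map_eq_zero hp2 S hpS Y
  refine Eq.trans ?_ hsum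
  rw [sumPair_apply, Fintype.sum_sigma]
  refine Finset.sum_congr rfl fun q _ => ?_
  rw [Coh.map_cor₂ (compat_localGaloisToGlobal_S (q.1 : ℕ) S) (isEquivariant_muEmb (q.1 : ℕ))
    (placeRep S H hH q) hHS (isSmooth_MuS hpS) (placeRep_bijective S H hH q) X, map_sum]
  refine Finset.sum_congr rfl fun i _ => ?_
  refine congrArg (invFam p (q.1 : ℕ)) (congrArg _ ?_)
  refine Eq.trans ?_ (locTwist₂_cup (q.1 : ℕ) (placeRep S H hH q i) hz hμ
    (compat_localGaloisToGlobal_S (q.1 : ℕ) S) _ a b).symm
  have hloc : ∀ c : Coh.H1 ((galLevelsS S).restrict H) (Mu p Qbar),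
      locV hH (inflS₁ S H c) (⟨q, i⟩ : PlaceIdx S H hH) =
        Coh.locTwist₁ (compat_localGaloisToGlobal_S (q.1 : ℕ) S) (isEquivariant_muEmb (q.1 : ℕ))
          (placeRep S H hH q i) H c := fun c => by
    obtain ⟨u, rfl⟩ := Coh.H1.mk_surjective c
    rfl
  exact congrArg₂ (fun u v => Coh.cup₁₁ _ _ u v) (hloc a) (hloc b)

/-- The pairing at a place is nondegenerate on the left. -/
theorem exists_placePair_ne_zero (hp2 : p ≠ 2) (K : IntermediateField ℚ Qbar)
    [FiniteDimensional ℚ K] [NumberField K] (hK : (galLevels ℚ Qbar).ok K.fixingSubgroup)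
    (hμK : ∀ (h : K.fixingSubgroup) (z : Mu p Qbar), h • z = z)
    (i : PlaceIdx S K.fixingSubgroup hK) {c : H1μ p (placeGroup hK i)} (hc : c ≠ 0) :
    ∃ c', placePair hK hμK hz (invFam p) i c c' ≠ 0 := by
  obtain ⟨c', hc'⟩ := exists_cupMu_ne_zero
    (L := locField (placeP hK i) (twistEmb (placeP hK i) K (placeG hK i)))
    (placeZeta_ne_zero (placeP hK i) (placeG hK i) hz)
      (locGroup_smul (placeP hK i) (placeG hK i) hμK)
    (twisted_eq_fixingSubgroup (placeP hK i) K (placeG hK i)) hc
  refine ⟨c', fun h => hc' ?_⟩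
  refine corLoc_injective (placeP hK i) _ (ok_placeGroup hK i) ?_
  refine (inv_bijective (localIso p) hp2 (placeP hK i)).1 ?_
  exact h.trans ((congrArg _ (AddMonoidHom.map_zero _)).trans (AddMonoidHom.map_zero _)).symm

/-- The local classes of the `S`-units. -/
def unitImage (K : IntermediateField ℚ Qbar) [FiniteDimensional ℚ K] [NumberField K]
    (hK : (galLevels ℚ Qbar).ok K.fixingSubgroup) (S : Finset Nat.Primes) :
    Additive (Global.sUnit K (placesS K S hK)) →+ LocV p hK (S := S) :=
  AddMonoidHom.mk'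
    (fun u i => locKummer p (placeP hK i) K (placeG hK i) (Additive.ofMul (u.toMul : Kˣ)))
    fun u v => funext fun i => by
      rw [Pi.add_apply, ← map_add]
      rfl

section Counting

variable (K : IntermediateField ℚ Qbar) [FiniteDimensional ℚ K] [NumberField K]
  (hK : (galLevels ℚ Qbar).ok K.fixingSubgroup) (hpS : (⟨p, Fact.out⟩ : Nat.Primes) ∈ S)
  {ζ : K} (hζ : IsPrimitiveRoot ζ p) (hS : Global.SPrincipal K (placesS K S hK))

omit [Fact p.Prime] in
theorem unitImage_apply [Fact p.Prime] (u : Additive (Global.sUnit K (placesS K S hK)))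
    (i : PlaceIdx S K.fixingSubgroup hK) :
    unitImage (p := p) K hK S u i =
      locKummer p (placeP hK i) K (placeG hK i) (Additive.ofMul (u.toMul : Kˣ)) := rfl

include hpS in
/-- The image of the `S`-units consists of global classes. -/
theorem range_unitImage_le (hKS : K.IsUnramifiedOutside S) :
    (unitImage (p := p) K hK S).range ≤ globalImage p S hK := by
  rintro _ ⟨u, rfl⟩
  obtain ⟨z, hz'⟩ := exists_inflS₁_eq_kummer K hpS hKS hK u.toMul.2
  refine ⟨z, funext fun i => ?_⟩
  show locμ₁ p (placeP hK i) K.fixingSubgroup (placeG hK i) (inflS₁ S K.fixingSubgroup z) = _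
  rw [hz', locμ₁_kummer, unitImage_apply, locKummer_apply]

include hζ hpS hS in
/-- The kernel consists of the `p`-th powers. -/
theorem unitImage_eq_zero_iff (hp2 : p ≠ 2) (u : Additive (Global.sUnit K (placesS K S hK))) :
    unitImage (p := p) K hK S u = 0 ↔ ∃ v, p • v = u := by
  have hp : p.Prime := Fact.out
  constructor
  · intro h
    obtain ⟨y, hy⟩ := Global.exists_pow_eq_of_sUnit hp hp2 hζ hS
      (fun v hv => valuation_natCast_eq_one_of_notMem K hK hpS hv) u.toMul.2 fun v hv => by
        classical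
        obtain ⟨i, -, rfl⟩ := Finset.mem_image.1 hv
        exact (locKummer_eq_zero_iff (placeP hK i) K (placeG hK i) _).1 (congrFun h i)
    have hyS : y ∈ Global.sUnit K (placesS K S hK) := fun v hv => by
      have h1 : v.valuation K ((y ^ p : Kˣ) : K) = 1 := by rw [hy]; exact u.toMul.2 v hv
      rw [Units.val_pow_eq_pow_val, map_pow] at h1
      exact (pow_eq_one_iff_of_nonneg zero_le hp.ne_zero).1 h1
    exact ⟨Additive.ofMul ⟨y, hyS⟩, Additive.toMul.injective (Subtype.ext hy)⟩
  · rintro ⟨v, rfl⟩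
    rw [map_nsmul]
    exact funext fun i => nsmul_H1μ _

include hζ hpS hS in
/-- The `S`-units give the square root of the number of local classes. -/
theorem card_locV_eq_sq (hp2 : p ≠ 2) :
    Nat.card (LocV p hK (S := S)) = Nat.card (unitImage (p := p) K hK S).range ^ 2 := by
  have hker : (unitImage (p := p) K hK S).ker = Subgroup.toAddSubgroup
      (powMonoidHom p :
        Global.sUnit K (placesS K S hK) →* Global.sUnit K (placesS K S hK)).range := by
    ext u
    rw [AddMonoidHom.mem_ker, unitImage_eq_zero_iff K hK hpS hζ hS hp2]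
    exact ⟨fun ⟨v, hv⟩ => ⟨v.toMul, congrArg Additive.toMul hv⟩,
      fun ⟨v, hv⟩ => ⟨Additive.ofMul v, congrArg Additive.ofMul hv⟩⟩
  rw [card_locV K hK hζ hpS, ← AddSubgroup.index_ker, hker, Subgroup.index_toAddSubgroup,
    Global.index_sUnit_pow (Fact.out : p.Prime) hζ, ← pow_mul,
    ← Global.two_mul_card_infinitePlace (Fact.out : p.Prime) hp2 hζ]
  ring

/-- The sum of the pairings is nondegenerate on the left. -/
theorem exists_sumPair_ne_zero (hp2 : p ≠ 2)
    (hμK : ∀ (h : K.fixingSubgroup) (z : Mu p Qbar), h • z = z)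
    (v : LocV p hK (S := S)) (hv : v ≠ 0) : ∃ y, sumPair hK hμK hz (invFam p) v y ≠ 0 := by
  classical
  obtain ⟨i, hi⟩ := Function.ne_iff.1 hv
  obtain ⟨c, hc⟩ := exists_placePair_ne_zero hz hp2 K hK hμK i hi
  refine ⟨Pi.single i c, ?_⟩
  rw [sumPair_apply, Finset.sum_eq_single i (fun j _ hji => by
    rw [Pi.single_eq_of_ne hji, map_zero])
    (fun hi' => absurd (Finset.mem_univ i) hi'), Pi.single_eq_same]
  exact hc

include hpS hζ hS in
/-- **The global classes are their own orthogonal complement.** -/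
theorem isLagrangianAt (hp2 : p ≠ 2) (hKS : K.IsUnramifiedOutside S)
    (hμK : ∀ (h : K.fixingSubgroup) (z : Mu p Qbar), h • z = z) :
    IsLagrangianAt S hK hμK hz (invFam p) := by
  have : Finite (LocV p hK (S := S)) := Nat.finite_of_card_ne_zero (by
    rw [card_locV K hK hζ hpS]; exact pow_ne_zero _ (Fact.out : p.Prime).ne_zero)
  exact mem_iff_forall_eq_zero (V := LocV p hK (S := S)) (fun v => funext fun i => nsmul_H1μ (v i))
    (sumPair hK hμK hz (invFam p)) (exists_sumPair_ne_zero hz K hK hp2 hμK)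
    (unitImage (p := p) K hK S).range (globalImage p S hK) (range_unitImage_le K hK hpS hKS)
    (fun x hx y hy => sumPair_eq_zero_of_mem hK hμK hz hp2 hpS
      (galLevelsS_ok_fixingSubgroup hKS) hx hy)
    (card_locV_eq_sq K hK hpS hζ hS hp2)

end Counting

/-- **Lagrangians exist for all large `S`.** -/
theorem hasLagrangians (hp2 : p ≠ 2) : HasLagrangians (invFam p) := by
  classical
  intro H hH hμ z₀ hz S₀
  obtain ⟨K, hKfd, rfl⟩ := exists_eq_fixingSubgroup hH
  have := hKfd
  have : NumberField K := ⟨⟩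
  obtain ⟨ζ, hζ⟩ := exists_primitiveRoot_mem K hμ
  obtain ⟨T, hT⟩ := exists_sPrincipal_placesS K hH
  obtain ⟨R, hR⟩ := exists_isUnramifiedOutside K
  refine ⟨insert (⟨p, Fact.out⟩ : Nat.Primes) (S₀ ∪ (T ∪ R)), fun x hx =>
    Finset.mem_insert_of_mem (Finset.mem_union_left _ hx), fun S hS => ?_⟩
  exact isLagrangianAt hz K hH (hS (Finset.mem_insert_self _ _)) hζ
    (Global.SPrincipal.mono K hT (placesS_mono K hH fun x hx => hS
      (Finset.mem_insert_of_mem (Finset.mem_union_right _ (Finset.mem_union_left _ hx)))))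
    hp2 (hR.mono fun x hx => hS
      (Finset.mem_insert_of_mem (Finset.mem_union_right _ (Finset.mem_union_right _ hx)))) hμ

end Fermat.Agent.Duality.Places

end
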