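import Fermat.Agent.Duality.Places.Reciprocity

/-!
# Reciprocity on the absolute cohomology groups

The statement for `Coh.H2 (galLevels ℚ Qbar)`: bijective local invariants summing to zero.
-/

set_option autoImplicit false

noncomputable section

namespace Fermat.Agent.Duality.Places

section Whole

variable {G A : Type} [Group G] [AddCommGroup A] [DistribMulAction G A] (𝓛 : Coh.Levels G)
  (D : Subgroup G)

theorem isEquivariant_subtype :
    Coh.IsEquivariant (A := A) (B := A) D.subtype (AddMonoidHom.id A) := fun _ _ => rfl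

/-- Restriction to a subgroup containing everything. -/
def toWhole : Coh.H2 𝓛 A →+ Coh.H2 (𝓛.restrict D) A :=
  Coh.H2.map (𝓛.compat_subtype D) (isEquivariant_subtype D)

theorem toWhole_bijective (hD : ∀ g, g ∈ D) : Function.Bijective (toWhole (A := A) 𝓛 D) := by
  let f : G →* D := (MonoidHom.id G).codRestrict D hD
  have hf : 𝓛.Compat (𝓛.restrict D) f := fun U ⟨V, hV, hVU⟩ =>
    𝓛.mono hV fun g hg => hVU hg
  have hfe : Coh.IsEquivariant (A := A) (B := A) f (AddMonoidHom.id A) := fun _ _ => rfl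
  refine ⟨fun x y h => ?_, fun x => ⟨Coh.H2.map hf hfe x, ?_⟩⟩
  · have h1 := congrArg (Coh.H2.map hf hfe) h
    obtain ⟨u, rfl⟩ := Coh.H2.mk_surjective x
    obtain ⟨w, rfl⟩ := Coh.H2.mk_surjective y
    exact h1
  · obtain ⟨u, rfl⟩ := Coh.H2.mk_surjective x
    rfl

end Whole

variable {p : ℕ} [Fact p.Prime]

/-- The localisation at `q` on the absolute groups. -/
def locAll (q : ℕ) [Fact q.Prime] :
    Coh.H2 (galLevels ℚ Qbar) (Mu p Qbar) →+
      Coh.H2 (galLevels ℚ_[q] (PadicAlgCl q)) (Mu p (PadicAlgCl q)) :=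
  Coh.H2.map (compat_localGaloisToGlobal q) (isEquivariant_muEmb q)

omit [Fact (Nat.Prime p)] in
theorem baseLoc_toWhole (q : ℕ) [Fact q.Prime] (x : Coh.H2 (galLevels ℚ Qbar) (Mu p Qbar)) :
    baseLoc q (toWhole (galLevels ℚ Qbar) ⊤ x) =
      toWhole (galLevels ℚ_[q] (PadicAlgCl q)) (locBase q) (locAll q x) := by
  obtain ⟨u, rfl⟩ := Coh.H2.mk_surjective x
  rfl

/-- The local invariant at `q`. -/
def inv (hI : LocalIso p) (q : ℕ) [Fact q.Prime] :
    Coh.H2 (galLevels ℚ_[q] (PadicAlgCl q)) (Mu p (PadicAlgCl q)) →+ ZMod p :=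
  (invLoc hI q).comp (toWhole (galLevels ℚ_[q] (PadicAlgCl q)) (locBase q))

theorem inv_bijective (hI : LocalIso p) (hp2 : p ≠ 2) (q : ℕ) [Fact q.Prime] :
    Function.Bijective (inv hI q) :=
  (invLoc_bijective hI hp2 q).comp (toWhole_bijective _ _ (mem_locBase q))

theorem inv_locAll (hI : LocalIso p) (r : Nat.Primes)
    (x : Coh.H2 (galLevels ℚ Qbar) (Mu p Qbar)) :
    inv hI r (locAll r x) = invAt hI r (toWhole (galLevels ℚ Qbar) ⊤ x) := by
  rw [invAt, AddMonoidHom.comp_apply, baseLoc_toWhole]; rfl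

/-- **Reciprocity.** -/
theorem sum_inv_locAll_eq_zero (hI : LocalIso p) (hp2 : p ≠ 2)
    (x : Coh.H2 (galLevels ℚ Qbar) (Mu p Qbar)) (T : Finset Nat.Primes)
    (hT : ∀ r : Nat.Primes, r ∉ T → locAll r x = 0) :
    ∑ r ∈ T, inv hI r (locAll r x) = 0 := by
  simp only [inv_locAll]
  exact sum_invAt_eq_zero hI hp2 _ T fun r hr => by rw [baseLoc_toWhole, hT r hr, map_zero]

section SLevels

/-- Classes unramified outside `S ∋ p` are locally zero outside `S`. -/
theorem locTwist₂_eq_zero_of_notMem {S : Finset Nat.Primes}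
    (hpS : (⟨p, Fact.out⟩ : Nat.Primes) ∈ S) {H : Subgroup GalQ} (hH : (galLevelsS S).ok H)
    (q : ℕ) [Fact q.Prime] (hqS : (⟨q, Fact.out⟩ : Nat.Primes) ∉ S) (g : GalQ)
    (x : Coh.H2 ((galLevelsS S).restrict H) (Mu p Qbar)) :
    Coh.locTwist₂ (compat_localGaloisToGlobal_S q S) (isEquivariant_muEmb q) g H x = 0 := by
  have : NeZero p := ⟨(Fact.out : p.Prime).ne_zero⟩
  obtain ⟨f, rfl⟩ := Coh.H2.mk_surjective x
  obtain ⟨U, ⟨V, hV, hVU⟩, hfU⟩ := f.2.1
  obtain ⟨ζ, hζ⟩ := HasEnoughRootsOfUnity.exists_primitiveRoot Qbar p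
  have hζS : (galLevelsS S).ok (IntermediateField.adjoin ℚ {ζ}).fixingSubgroup :=
    galLevelsS_ok_fixingSubgroup (isUnramifiedOutside_adjoin_root hζ.pow_eq_one
      (NeZero.ne p) S fun r hr => by
        rwa [show r = ⟨p, Fact.out⟩ from Subtype.ext
          ((Nat.prime_dvd_prime_iff_eq r.2 Fact.out).1 hr)])
  obtain ⟨N, ⟨E, hE, hEN⟩, hNn, hN⟩ := (galLevelsS S).exists_normal
    ((galLevelsS S).inf_ok ((galLevelsS S).inf_ok hV hH) hζS)
  have hconj : ∀ a : GalQ, a ∈ E.fixingSubgroup → g⁻¹ * a * g ∈ N := fun a ha => by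
    simpa using hNn.conj_mem a (hEN ha) g⁻¹
  rw [Coh.locTwist₂, Coh.H2.map_mk]
  refine H2_mk_eq_zero_of_unramified q hE hqS
    (fun d hd => Coh.mem_twisted.2 (hN (hconj _ hd)).1.2) nsmul_mu ?_ _ ?_
  · intro s hs a
    obtain ⟨z, rfl⟩ := (muEmb_bijective (p := p) q).2 a
    show (s : GalLoc q) • muEmb q z = muEmb q z
    rw [← isEquivariant_muEmb q (s : GalLoc q) z]
    refine congrArg _ (muVal_injective (Additive.toMul.injective (Units.ext ?_)))
    show localGaloisToGlobal q s (((muVal z).toMul : Qbarˣ) : Qbar) = _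
    have hzp : (((muVal z).toMul : Qbarˣ) : Qbar) ^ p = 1 := by
      rw [← Units.val_pow_eq_pow_val, ← toMul_nsmul, nsmul_muVal, toMul_zero, Units.val_one]
    obtain ⟨i, -, hi⟩ := hζ.eq_pow_of_pow_eq_one hzp
    rw [← hi, map_pow, (IntermediateField.mem_fixingSubgroup_iff _ _).1 (hN (hEN hs)).2 ζ
      (IntermediateField.mem_adjoin_simple_self ℚ ζ)]
  · intro a b s t hs ht
    rw [Coh.Z2.map_apply, Coh.Z2.map_apply, map_mul, map_mul,
      hfU _ _ _ (hVU (hN (hconj _ hs)).1.1) _ (hVU (hN (hconj _ ht)).1.1)]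

end SLevels

end Fermat.Agent.Duality.Places

end
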