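import Fermat.Agent.Duality.Places.BaseClass
import Fermat.Agent.Duality.Places.LocZero
import Fermat.Agent.Gal.Residue

/-!
# Finite extensions of `ℚ` are unramified outside a finite set of primes
-/

set_option autoImplicit false

noncomputable section

open IntermediateField Polynomial

namespace Fermat.Agent.Duality.Places

/-- An integral algebraic number is fixed by inertia outside a finite set of primes. -/
theorem exists_finset_inertia_apply_eq {a : Qbar} (ha : IsIntegral ℤ a) :
    ∃ S : Finset Nat.Primes, ∀ q : Nat.Primes, q ∉ S → ∀ A : ValuationSubring Qbar,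
      A.LiesOverPrime (q : ℕ) → ∀ σ ∈ A.inertiaSubgroupIn ℚ, σ a = a := by
  classical
  set f := minpoly ℤ a
  have hf : f.Monic := minpoly.monic ha
  set R := ((f.map (algebraMap ℤ Qbar)).roots.toFinset).erase a
  set D : ℤ := ∏ b ∈ R, (minpoly ℤ (b - a)).coeff 0
  have hint : ∀ b ∈ R, IsIntegral ℤ (b - a) := fun b hb => by
    refine IsIntegral.sub (show IsIntegral ℤ b from ⟨f, hf, ?_⟩) ha
    have h1 := Polynomial.isRoot_of_mem_roots
      (Multiset.mem_toFinset.1 (Finset.mem_of_mem_erase hb))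
    rwa [IsRoot.def, eval_map] at h1
  have hD : D ≠ 0 := Finset.prod_ne_zero_iff.2 fun b hb =>
    fun h => minpoly.coeff_zero_ne_zero (A := ℚ) (hint b hb).tower_top
      (sub_ne_zero.2 (Finset.ne_of_mem_erase hb)) (by
        rw [minpoly.isIntegrallyClosed_eq_field_fractions' ℚ (hint b hb), coeff_map, h, map_zero])
  refine ⟨D.natAbs.primeFactors.attach.image fun r => ⟨r.1, Nat.prime_of_mem_primeFactors r.2⟩,
    fun q hq A hA σ hσ => ?_⟩
  by_contra hne
  have hbR : σ a ∈ R := by
    refine Finset.mem_erase.2 ⟨hne, Multiset.mem_toFinset.2 ?_⟩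
    rw [mem_roots (hf.map _).ne_zero, IsRoot.def, eval_map, ← aeval_def]
    show aeval ((σ.toAlgHom.restrictScalars ℤ) a) f = 0
    rw [aeval_algHom_apply, minpoly.aeval, map_zero]
  set δ := σ a - a
  have hδ : δ ∈ A.nonunits :=
    (Fermat.Agent.Gal.mem_inertia_iff_isIntegral A σ).1 hσ a ha
  set g := minpoly ℤ δ
  have hgA : aeval δ g.divX ∈ A := by
    rw [aeval_eq_sum_range]
    exact sum_mem fun i _ => zsmul_mem
      (pow_mem (Fermat.Agent.Gal.mem_of_isIntegral A (hint _ hbR)) i) _
  have heq : δ * aeval δ g.divX = -((g.coeff 0 : ℤ) : Qbar) := by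
    have h1 : aeval δ g = 0 := minpoly.aeval ℤ δ
    rw [← X_mul_divX_add g, map_add, map_mul, aeval_X, aeval_C, eq_intCast,
      add_eq_zero_iff_eq_neg] at h1
    exact h1
  have hc : ((g.coeff 0 : ℤ) : Qbar) ∈ A.nonunits := by
    have h1 : δ * aeval δ g.divX ∈ A.nonunits := by
      rw [ValuationSubring.mem_nonunits_iff, map_mul]
      exact mul_lt_one_of_lt_of_le ((ValuationSubring.mem_nonunits_iff _).1 hδ)
        ((A.valuation_le_one_iff _).2 hgA)
    rw [heq] at h1
    exact neg_mem_iff.1 h1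
  have hdvd : (q : ℤ) ∣ D :=
    ((Fermat.Agent.Gal.intCast_mem_nonunits_iff A q.2 hA _).1 hc).trans
      (Finset.dvd_prod_of_mem (fun b => (minpoly ℤ (b - a)).coeff 0) hbR)
  refine hq (Finset.mem_image.2 ⟨⟨q, Nat.mem_primeFactors.2
    ⟨q.2, Int.natCast_dvd.1 hdvd, Int.natAbs_ne_zero.2 hD⟩⟩, Finset.mem_attach _ _, rfl⟩)

/-- Every finite extension of `ℚ` is unramified outside a finite set of primes. -/
theorem exists_isUnramifiedOutside (E : IntermediateField ℚ Qbar) [FiniteDimensional ℚ E] :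
    ∃ S : Finset Nat.Primes, E.IsUnramifiedOutside S := by
  obtain ⟨α, hα⟩ := Field.exists_primitive_element ℚ E
  have halg : IsAlgebraic ℤ (α : Qbar) :=
    (IsFractionRing.isAlgebraic_iff ℤ ℚ Qbar).2 (Algebra.IsAlgebraic.isAlgebraic _)
  obtain ⟨y, hy, hint⟩ := halg.exists_integral_multiple
  obtain ⟨S, hS⟩ := exists_finset_inertia_apply_eq hint
  refine ⟨S, inferInstance, fun q hq A hA σ hσ => ?_⟩
  have h1 := hS q hq A hA σ hσ
  rw [map_zsmul] at h1
  have h2 : σ (α : Qbar) = α := by
    rw [zsmul_eq_mul, zsmul_eq_mul] at h1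
    exact mul_left_cancel₀ (Int.cast_ne_zero.2 hy) h1
  rw [IntermediateField.mem_fixingSubgroup_iff]
  intro x hx
  have hx' : (⟨x, hx⟩ : E) ∈ ℚ⟮α⟯ := hα ▸ mem_top
  suffices h : ∀ z : E, z ∈ ℚ⟮α⟯ → σ (z : Qbar) = z from h _ hx'
  intro z hz
  induction hz using adjoin_induction with
  | mem z hz =>
    obtain rfl : z = α := hz
    exact h2
  | algebraMap r => exact σ.commutes r
  | add a b _ _ ha hb => rw [IntermediateField.coe_add, map_add, ha, hb]
  | inv a _ ha => rw [IntermediateField.coe_inv, map_inv₀, ha]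
  | mul a b _ _ ha hb => rw [IntermediateField.coe_mul, map_mul, ha, hb]

variable {p : ℕ} [Fact p.Prime]

end Fermat.Agent.Duality.Places

end
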