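import Fermat.Agent.Duality.Places.Fields
import Fermat.Agent.Duality.Setup

/-!
# Finite places of a number field and its embeddings into `PadicAlgCl q`

An embedding `τ : K →ₐ[ℚ] PadicAlgCl q` induces the place `placeOf q τ`; the valuation and the
norm determine each other, every place arises, two embeddings give the same place exactly when
they are conjugate, and elements close to `1` are `p`-th powers in the local field.
-/

set_option autoImplicit false

open Polynomial IntermediateField IsDedekindDomain WithZero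
open NumberField
open scoped Pointwise

namespace Fermat.Agent.Duality.Places

variable (q : ℕ) [Fact q.Prime]

local notation "Ω" => PadicAlgCl q
local notation "ι" => padicEmbedding q

theorem norm_add_le_max (x y : Ω) : ‖x + y‖ ≤ max ‖x‖ ‖y‖ := IsUltrametricDist.norm_add_le_max x y

theorem norm_le_one_of_isIntegral {x : Ω} (hx : IsIntegral ℤ x) : ‖x‖ ≤ 1 := by
  have h : x ∈ padicIntegers q := Fermat.Agent.Gal.mem_of_isIntegral (padicIntegers q) hx
  exact_mod_cast (mem_padicIntegers_iff q).1 h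

variable {K : Type} [Field K] [NumberField K]

theorem norm_apply_le_one (τ : K →ₐ[ℚ] Ω) (a : 𝓞 K) : ‖τ (algebraMap (𝓞 K) K a)‖ ≤ 1 :=
  norm_le_one_of_isIntegral q (map_isIntegral_int τ.toRingHom a.2)

theorem norm_natCast_lt_one : ‖(q : Ω)‖ < 1 := by
  rw [norm_natCast_self]
  exact inv_lt_one_of_one_lt₀ (by exact_mod_cast (Fact.out : q.Prime).one_lt)

/-- The ideal of the place of an embedding. -/
def placeIdeal (τ : K →ₐ[ℚ] Ω) : Ideal (𝓞 K) where
  carrier := {a | ‖τ (algebraMap (𝓞 K) K a)‖ < 1}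
  add_mem' {a b} ha hb := by
    show ‖τ (algebraMap (𝓞 K) K (a + b))‖ < 1
    rw [map_add, map_add]
    exact (norm_add_le_max q _ _).trans_lt (max_lt ha hb)
  zero_mem' := by
    show ‖τ (algebraMap (𝓞 K) K 0)‖ < 1
    simp
  smul_mem' c a ha := by
    show ‖τ (algebraMap (𝓞 K) K (c * a))‖ < 1
    rw [map_mul, map_mul, norm_mul]
    exact mul_lt_one_of_nonneg_of_lt_one_right (norm_apply_le_one q τ c) (norm_nonneg _) ha

theorem mem_placeIdeal {τ : K →ₐ[ℚ] Ω} {a : 𝓞 K} :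
    a ∈ placeIdeal q τ ↔ ‖τ (algebraMap (𝓞 K) K a)‖ < 1 := Iff.rfl

theorem natCast_mem_placeIdeal (τ : K →ₐ[ℚ] Ω) : (q : 𝓞 K) ∈ placeIdeal q τ := by
  rw [mem_placeIdeal, map_natCast, map_natCast]
  exact norm_natCast_lt_one q

theorem isPrime_placeIdeal (τ : K →ₐ[ℚ] Ω) : (placeIdeal q τ).IsPrime := by
  refine ⟨fun h => ?_, fun {a b} h => ?_⟩
  · have h1 : (1 : 𝓞 K) ∈ placeIdeal q τ := by rw [h]; trivial
    rw [mem_placeIdeal, map_one, map_one, norm_one] at h1
    exact lt_irrefl _ h1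
  · rw [mem_placeIdeal, map_mul, map_mul, norm_mul] at h
    simp only [mem_placeIdeal]
    by_contra hc
    push Not at hc
    exact absurd h (not_lt.2 (one_le_mul_of_one_le_of_one_le hc.1 hc.2))

/-- The place of an embedding. -/
def placeOf (τ : K →ₐ[ℚ] Ω) : HeightOneSpectrum (𝓞 K) where
  asIdeal := placeIdeal q τ
  isPrime := isPrime_placeIdeal q τ
  ne_bot h := by
    have h1 := natCast_mem_placeIdeal q τ
    rw [h, Ideal.mem_bot, Nat.cast_eq_zero] at h1
    exact (Fact.out : q.Prime).ne_zero h1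

theorem mem_placeOf {τ : K →ₐ[ℚ] Ω} {a : 𝓞 K} :
    a ∈ (placeOf q τ).asIdeal ↔ ‖τ (algebraMap (𝓞 K) K a)‖ < 1 := Iff.rfl

theorem natCast_mem_placeOf (τ : K →ₐ[ℚ] Ω) : (q : 𝓞 K) ∈ (placeOf q τ).asIdeal :=
  natCast_mem_placeIdeal q τ

theorem norm_apply_eq_one_of_notMem {τ : K →ₐ[ℚ] Ω} {a : 𝓞 K}
    (ha : a ∉ (placeOf q τ).asIdeal) : ‖τ (algebraMap (𝓞 K) K a)‖ = 1 :=
  le_antisymm (norm_apply_le_one q τ a) (not_lt.1 ha)

/-- Valuation one means norm one. -/
theorem norm_apply_eq_one {τ : K →ₐ[ℚ] Ω} {x : K} (hx : (placeOf q τ).valuation K x = 1) :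
    ‖τ x‖ = 1 := by
  obtain ⟨n, ⟨d, hd⟩, e⟩ :=
    (placeOf q τ).exists_primeCompl_mul_eq_of_integer x hx.le
  have h1 : ‖τ (x : K)‖ = ‖τ (algebraMap (𝓞 K) K n)‖ := by
    have h := congrArg (fun y => ‖τ y‖) e
    rwa [map_mul, norm_mul, norm_apply_eq_one_of_notMem q hd, mul_one] at h
  rw [h1]
  refine norm_apply_eq_one_of_notMem q fun hn => ?_
  have h2 := congrArg ((placeOf q τ).valuation K) e
  rw [map_mul, hx, one_mul] at h2
  have h3 : (placeOf q τ).valuation K (algebraMap (𝓞 K) K d) = 1 :=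
    le_antisymm ((placeOf q τ).valuation_le_one d)
      (not_lt.1 fun h => hd (((placeOf q τ).valuation_lt_one_iff_mem d).1 h))
  exact (((placeOf q τ).valuation_lt_one_iff_mem n).2 hn).ne (h2.symm.trans h3)

/-- The norm is an exponential of the valuation. -/
theorem exists_norm_apply_eq (τ : K →ₐ[ℚ] Ω) :
    ∃ r : ℝ, 0 < r ∧ r < 1 ∧ ∀ (x : K) (m : ℤ),
      (placeOf q τ).valuation K x = exp (-m) → ‖τ x‖ = r ^ m := by
  obtain ⟨π, hπ⟩ := (placeOf q τ).intValuation_exists_uniformizer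
  have hπ0 : π ≠ 0 := fun h => exp_ne_zero (a := (-1 : ℤ)) (by rw [← hπ, h, map_zero])
  have hπ0' : (algebraMap (𝓞 K) K π) ≠ 0 :=
    fun h => hπ0 (IsFractionRing.injective (𝓞 K) K (h.trans (map_zero _).symm))
  have hπv : (placeOf q τ).valuation K (algebraMap (𝓞 K) K π) = exp (-1) :=
    ((placeOf q τ).valuation_of_algebraMap π).trans hπ
  have hr0 : 0 < ‖τ (algebraMap (𝓞 K) K π)‖ := norm_pos_iff.2 (by simpa using hπ0')
  refine ⟨‖τ (algebraMap (𝓞 K) K π)‖, hr0, ?_, fun x m hx => ?_⟩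
  · refine (((placeOf q τ).valuation_lt_one_iff_mem (K := K) π).1 ?_)
    rw [hπv, ← exp_zero, exp_lt_exp]; omega
  · have h1 : (placeOf q τ).valuation K (x / (algebraMap (𝓞 K) K π) ^ m) = 1 := by
      rw [map_div₀, map_zpow₀, hx, hπv, ← exp_zsmul, smul_eq_mul, mul_neg_one, div_self exp_ne_zero]
    have h2 := norm_apply_eq_one q h1
    rwa [map_div₀, map_zpow₀, norm_div, norm_zpow, div_eq_one_iff_eq (zpow_ne_zero _ hr0.ne')] at h2

theorem valuation_le_one_iff_norm (τ : K →ₐ[ℚ] Ω) (x : K) :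
    (placeOf q τ).valuation K x ≤ 1 ↔ ‖τ x‖ ≤ 1 := by
  rcases eq_or_ne x 0 with rfl | hx
  · simp
  obtain ⟨r, hr0, hr1, hr⟩ := exists_norm_apply_eq q τ
  have hv : (placeOf q τ).valuation K x = exp (-(-log ((placeOf q τ).valuation K x))) := by
    rw [neg_neg, exp_log ((Valuation.ne_zero_iff _).2 hx)]
  rw [hr x _ hv]
  conv_lhs => rw [hv, ← exp_zero, exp_le_exp]
  conv_rhs => rw [← zpow_zero r]
  rw [zpow_le_zpow_iff_right_of_lt_one₀ hr0 hr1]
  omega

theorem valuation_lt_one_iff_norm (τ : K →ₐ[ℚ] Ω) (x : K) :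
    (placeOf q τ).valuation K x < 1 ↔ ‖τ x‖ < 1 := by
  rcases eq_or_ne x 0 with rfl | hx
  · simp
  obtain ⟨r, hr0, hr1, hr⟩ := exists_norm_apply_eq q τ
  have hv : (placeOf q τ).valuation K x = exp (-(-log ((placeOf q τ).valuation K x))) := by
    rw [neg_neg, exp_log ((Valuation.ne_zero_iff _).2 hx)]
  rw [hr x _ hv]
  conv_lhs => rw [hv, ← exp_zero, exp_lt_exp]
  conv_rhs => rw [← zpow_zero r]
  rw [zpow_lt_zpow_iff_right_of_lt_one₀ hr0 hr1]
  omega

/-- Adically small elements are small in the norm. -/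
theorem exists_norm_lt_of_valuation_le (τ : K →ₐ[ℚ] Ω) {ε : ℝ} (hε : 0 < ε) :
    ∃ n : ℕ, ∀ x : K, (placeOf q τ).valuation K x ≤ exp (-(n : ℤ)) → ‖τ x‖ < ε := by
  obtain ⟨r, hr0, hr1, hr⟩ := exists_norm_apply_eq q τ
  obtain ⟨n, hn⟩ := exists_pow_lt_of_lt_one hε hr1
  refine ⟨n, fun x hx => ?_⟩
  rcases eq_or_ne x 0 with rfl | hx0
  · simpa using hε
  have hv : (placeOf q τ).valuation K x = exp (-(-log ((placeOf q τ).valuation K x))) := by
    rw [neg_neg, exp_log ((Valuation.ne_zero_iff _).2 hx0)]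
  rw [hr x _ hv]
  rw [hv, exp_le_exp, neg_le_neg_iff] at hx
  refine lt_of_le_of_lt ?_ hn
  rw [← zpow_natCast, zpow_le_zpow_iff_right_of_lt_one₀ hr0 hr1]
  exact hx

/-- Elements small in the norm are adically small. -/
theorem exists_valuation_le_of_norm_lt (τ : K →ₐ[ℚ] Ω) (n : ℕ) :
    ∃ ε : ℝ, 0 < ε ∧ ∀ x : K, ‖τ x‖ < ε → (placeOf q τ).valuation K x ≤ exp (-(n : ℤ)) := by
  obtain ⟨r, hr0, hr1, hr⟩ := exists_norm_apply_eq q τ
  refine ⟨r ^ n, pow_pos hr0 n, fun x hx => ?_⟩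
  rcases eq_or_ne x 0 with rfl | hx0
  · simp
  have hv : (placeOf q τ).valuation K x = exp (-(-log ((placeOf q τ).valuation K x))) := by
    rw [neg_neg, exp_log ((Valuation.ne_zero_iff _).2 hx0)]
  rw [hr x _ hv, ← zpow_natCast, zpow_lt_zpow_iff_right_of_lt_one₀ hr0 hr1] at hx
  rw [hv, exp_le_exp]
  omega

/-- Every finite place is the place of an embedding. -/
theorem exists_placeOf_eq (v : HeightOneSpectrum (𝓞 K)) (hv : (q : 𝓞 K) ∈ v.asIdeal) :
    ∃ τ : K →ₐ[ℚ] Ω, placeOf q τ = v := by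
  classical
  by_contra hne
  push Not at hne
  obtain ⟨y, hy⟩ := (HeightOneSpectrum.quotientEquivPiOfProdEq
    (∏ w : ↥(insert v (Finset.univ.image fun τ : K →ₐ[ℚ] Ω => placeOf q τ)), w.1.asIdeal ^ 1)
    (fun w => w.1) (fun _ => 1) (fun _ _ h e => h (Subtype.ext e)) rfl).surjective
    (fun w => if w.1 = v then 0 else 1)
  obtain ⟨y, rfl⟩ := Ideal.Quotient.mk_surjective y
  have hyv : y ∈ v.asIdeal := by
    have := congrFun hy ⟨v, Finset.mem_insert_self _ _⟩
    rw [if_pos rfl] at this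
    simpa using (Ideal.Quotient.eq_zero_iff_mem).1 this
  have hyτ : ∀ τ : K →ₐ[ℚ] Ω, ‖τ (algebraMap (𝓞 K) K y)‖ = 1 :=
    fun τ => norm_apply_eq_one_of_notMem q fun h => by
    have := congrFun hy
      ⟨placeOf q τ, Finset.mem_insert_of_mem (Finset.mem_image_of_mem _ (Finset.mem_univ τ))⟩
    rw [if_neg (hne τ)] at this
    have h' : y - 1 ∈ (placeOf q τ).asIdeal ^ 1 := Ideal.Quotient.eq.1 this
    rw [pow_one] at h'
    exact (placeOf q τ).isPrime.ne_top ((Ideal.eq_top_iff_one _).2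
      (by simpa using sub_mem h h'))
  have hN : ‖algebraMap ℚ Ω (Algebra.norm ℚ (algebraMap (𝓞 K) K y))‖ = 1 := by
    rw [Algebra.norm_eq_prod_embeddings ℚ Ω (algebraMap (𝓞 K) K y), norm_prod]
    exact Finset.prod_eq_one fun τ _ => hyτ τ
  have hmem : ((Ideal.absNorm (Ideal.span {y}) : ℕ) : 𝓞 K) ∈ v.asIdeal :=
    (Ideal.span_singleton_le_iff_mem _).2 hyv (Ideal.absNorm_mem _)
  rw [Ideal.absNorm_span_singleton] at hmem
  have hdvd : q ∣ (Algebra.norm ℤ y).natAbs := by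
    by_contra hndvd
    obtain ⟨a, b, hab⟩ := Nat.isCoprime_iff_coprime.2
      ((Fact.out : q.Prime).coprime_iff_not_dvd.2 hndvd)
    refine v.isPrime.ne_top ((Ideal.eq_top_iff_one _).2 ?_)
    have h1 := congrArg (Int.castRingHom (𝓞 K)) hab
    simp only [map_add, map_mul, map_natCast, map_one, eq_intCast] at h1
    rw [← h1]
    exact add_mem (v.asIdeal.mul_mem_left _ hv) (v.asIdeal.mul_mem_left _ hmem)
  obtain ⟨c, hc⟩ : (q : ℤ) ∣ Algebra.norm ℤ y := Int.natCast_dvd.2 hdvd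
  have e : Algebra.norm ℚ (algebraMap (𝓞 K) K y) = ((Algebra.norm ℤ y : ℤ) : ℚ) :=
    (Algebra.coe_norm_int y).symm
  rw [e, hc, map_intCast, Int.cast_mul, norm_mul, Int.cast_natCast] at hN
  have hc1 : ‖((c : ℤ) : Ω)‖ ≤ 1 := norm_le_one_of_isIntegral q (isIntegral_algebraMap)
  have := mul_lt_one_of_nonneg_of_lt_one_left (norm_nonneg _) (norm_natCast_lt_one q) hc1
  exact absurd hN this.ne

omit [NumberField K] in
theorem exists_prime_natCast_mem (v : HeightOneSpectrum (𝓞 K)) :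
    ∃ r : ℕ, r.Prime ∧ (r : 𝓞 K) ∈ v.asIdeal := by
  refine ⟨Ideal.absNorm (v.asIdeal.under ℤ), ?_, ?_⟩
  · have hbot : v.asIdeal.under ℤ ≠ ⊥ := Ideal.IsIntegral.comap_ne_bot ℤ v.ne_bot
    have : (v.asIdeal.under ℤ).IsPrime := Ideal.IsPrime.under ℤ _
    have h := Int.ideal_span_absNorm_eq_self (v.asIdeal.under ℤ)
    rw [Nat.prime_iff_prime_int, ← Ideal.span_singleton_prime, h]
    · infer_instance
    · intro h0
      rw [h0, Ideal.span_singleton_eq_bot.2 rfl] at h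
      exact hbot h.symm
  · exact Ideal.mem_comap.1 (Ideal.absNorm_mem (v.asIdeal.under ℤ)) |> fun h => by simpa using h

/-- Embeddings with the same place are conjugate under the local Galois group. -/
theorem exists_comp_eq_of_placeOf_eq {τ τ' : K →ₐ[ℚ] Ω} (h : placeOf q τ = placeOf q τ') :
    ∃ g : GalLoc q, ∀ x : K, g (τ x) = τ' x := by
  obtain ⟨b, hb⟩ := Field.exists_primitive_element ℚ K
  have hint : IsIntegral ℚ_[q] (τ b) := (Algebra.IsAlgebraic.isAlgebraic _).isIntegral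
  set f := minpoly ℚ_[q] (τ b)
  have hroot : aeval (τ' b) f = 0 := by
    by_contra hne
    set N := f.natDegree + 1
    set c := ‖aeval (τ' b) f‖
    have hc : 0 < c := norm_pos_iff.2 hne
    set M := max (max ‖τ b‖ ‖τ' b‖) 1
    have hM : 0 < M := lt_max_of_lt_right one_pos
    obtain ⟨n, hn⟩ := exists_norm_lt_of_valuation_le q τ' (half_pos hc)
    obtain ⟨ε, hε, hε'⟩ := exists_valuation_le_of_norm_lt q τ n
    set δ := min ε (c / 2) / (2 * M ^ N)
    have hδ : 0 < δ := by positivity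
    choose r hr using fun i => Padic.rat_dense q (f.coeff i) hδ
    set g : ℚ[X] := ∑ i ∈ Finset.range N, C (r i) * X ^ i
    have key : ∀ σ : K →ₐ[ℚ] Ω, ‖σ b‖ ≤ M →
        ‖σ (aeval b g) - aeval (σ b) f‖ < min ε (c / 2) := by
      intro σ hσ
      rw [← aeval_algHom_apply, aeval_eq_sum_range' (p := f) (Nat.lt_succ_self _),
        show aeval (σ b) g = ∑ i ∈ Finset.range N, (r i : Ω) * σ b ^ i by simp [g],
        ← Finset.sum_sub_distrib]
      refine lt_of_le_of_lt (IsUltrametricDist.norm_sum_le_of_forall_le_of_nonneg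
        (C := δ * M ^ N) (by positivity) fun i hi => ?_) ?_
      · rw [Algebra.smul_def, ← sub_mul, norm_mul, norm_pow,
          show (r i : Ω) = algebraMap ℚ_[q] Ω (r i) by rw [map_ratCast], ← map_sub,
          PadicAlgCl.norm_extends, norm_sub_rev]
        exact mul_le_mul (hr i).le ((pow_le_pow_left₀ (norm_nonneg _) hσ i).trans
          (pow_le_pow_right₀ (le_max_right _ _) (Finset.mem_range.1 hi).le))
          (by positivity) hδ.le
      · have e : δ * M ^ N = min ε (c / 2) / 2 := by simp only [δ]; field_simp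
        rw [e]
        exact half_lt_self (lt_min hε (half_pos hc))
    have h1 := key τ ((le_max_left _ _).trans (le_max_left _ _))
    rw [minpoly.aeval, sub_zero] at h1
    have h2 := hε' _ (h1.trans_le (min_le_left _ _))
    rw [h] at h2
    have h3 := hn _ h2
    have h4 := key τ' ((le_max_right _ _).trans (le_max_left _ _))
    have h5 := norm_add_le_max q (τ' (aeval b g)) (aeval (τ' b) f - τ' (aeval b g))
    rw [add_sub_cancel, norm_sub_rev] at h5
    exact absurd (h5.trans_lt (max_lt h3 (h4.trans_le (min_le_right _ _)))) (not_lt.2 (by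
      simp only [c]; linarith [hc]))
  obtain ⟨g, hg⟩ := isConjRoot_iff_exists_algEquiv.1
    ((isConjRoot_iff_aeval_eq_zero hint).2 hroot).symm
  refine ⟨g, fun x => ?_⟩
  have he : ((g : Ω →ₐ[ℚ_[q]] Ω).restrictScalars ℚ).comp τ = τ' := by
    refine AlgHom.ext_of_adjoin_eq_top (s := {b}) ?_ (by rintro _ rfl; exact hg)
    have hb' := congrArg IntermediateField.toSubalgebra hb
    rwa [adjoin_simple_toSubalgebra_of_isAlgebraic (Algebra.IsAlgebraic.isAlgebraic b),
      IntermediateField.top_toSubalgebra] at hb'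
  exact AlgHom.congr_fun he x

/-- Conjugate embeddings have the same place. -/
theorem placeOf_eq_of_comp_eq {τ τ' : K →ₐ[ℚ] Ω} (g : GalLoc q) (h : ∀ x : K, g (τ x) = τ' x) :
    placeOf q τ = placeOf q τ' := by
  refine HeightOneSpectrum.ext (Ideal.ext fun a => ?_)
  rw [mem_placeOf, mem_placeOf, ← h, ← coe_nnnorm (g _), nnnorm_padicAlgCl_algEquiv, coe_nnnorm]

omit [NumberField K] in
/-- Close enough to `1`, elements of a subfield are `p`-th powers in it. -/
theorem exists_pow_eq_of_norm_sub_one_lt {p : ℕ} (hp : p.Prime) :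
    ∃ δ : ℝ, 0 < δ ∧ ∀ (L : IntermediateField ℚ_[q] Ω), ∀ z ∈ L, ‖z - 1‖ < δ →
      ∃ y ∈ L, y ^ p = z := by
  classical
  have : NeZero p := ⟨hp.ne_zero⟩
  obtain ⟨ζ, hζ⟩ := HasEnoughRootsOfUnity.exists_primitiveRoot Ω p
  obtain ⟨μ, hμ, hμ'⟩ : ∃ μ : ℝ, 0 < μ ∧ ∀ i, i < p → i ≠ 0 → μ ≤ ‖ζ ^ i - 1‖ := by
    obtain ⟨i, hi, hmin⟩ := ((Finset.range p).erase 0).exists_min_image (fun i => ‖ζ ^ i - 1‖)
      ⟨1, by simp [hp.one_lt]⟩
    rw [Finset.mem_erase, Finset.mem_range] at hi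
    exact ⟨‖ζ ^ i - 1‖, norm_pos_iff.2 (sub_ne_zero.2 (hζ.pow_ne_one_of_pos_of_lt hi.1 hi.2)),
      fun j hj hj0 => hmin j (by simp [hj, hj0])⟩
  refine ⟨min μ 1 ^ p, by positivity, fun L z hz hzδ => ?_⟩
  obtain ⟨w, hw⟩ := IsAlgClosed.exists_pow_nat_eq z hp.pos
  -- some root is close to `1`
  obtain ⟨i, hi⟩ : ∃ i, ‖ζ ^ i * w - 1‖ < min μ 1 := by
    by_contra hne
    push Not at hne
    have hprod : ∏ η ∈ nthRootsFinset p (1 : Ω), (1 - η * w) = 1 - z := by
      rw [← hw, hζ.pow_sub_pow_eq_prod_sub_mul (x := (1 : Ω)) (y := w) hp.pos |>.symm, one_pow]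
    have h1 : min μ 1 ^ p ≤ ‖1 - z‖ := by
      rw [← hprod, norm_prod]
      conv_lhs => rw [← hζ.card_nthRootsFinset, ← Finset.prod_const]
      refine Finset.prod_le_prod (fun _ _ => by positivity) fun η hη => ?_
      rw [mem_nthRootsFinset hp.pos] at hη
      obtain ⟨i, -, rfl⟩ := hζ.eq_pow_of_pow_eq_one hη
      rw [norm_sub_rev]
      exact hne i
    rw [norm_sub_rev] at hzδ
    exact absurd h1 (not_le.2 hzδ)
  set y := ζ ^ i * w
  have hy : y ^ p = z := by rw [mul_pow, ← pow_mul, mul_comm i, pow_mul, hζ.pow_eq_one, one_pow,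
    one_mul, hw]
  refine ⟨y, ?_, hy⟩
  have : IsGalois ℚ_[q] Ω := IsAlgClosure.isGalois ℚ_[q] Ω
  rw [← InfiniteGalois.fixedField_fixingSubgroup L]
  rintro ⟨g, hg⟩
  show g y = y
  rcases eq_or_ne y 0 with h0 | h0
  · rw [h0, map_zero]
  have hgy : (g y / y) ^ p = 1 := by
    rw [div_pow, ← map_pow, hy, (mem_fixingSubgroup_iff L g).1 hg z hz,
      div_self (hy ▸ pow_ne_zero _ h0)]
  obtain ⟨j, hj, hjy⟩ := hζ.eq_pow_of_pow_eq_one hgy
  rcases eq_or_ne j 0 with rfl | hj0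
  · rw [pow_zero, eq_comm, div_eq_one_iff_eq h0] at hjy; exact hjy
  exfalso
  have hy1 : ‖y‖ = 1 := by
    have h1 : ‖y - 1‖ < 1 := hi.trans_le (min_le_right _ _)
    have h2 := IsUltrametricDist.norm_add_eq_max_of_norm_ne_norm (x := y - 1) (y := (1 : Ω))
      (by rw [norm_one]; exact h1.ne)
    rw [sub_add_cancel, norm_one] at h2
    rw [h2, max_eq_right h1.le]
  have h3 : ‖g y - y‖ < μ := by
    have hg1 : ‖g y - 1‖ = ‖y - 1‖ := by
      rw [← map_one g, ← map_sub, map_one, ← coe_nnnorm, nnnorm_padicAlgCl_algEquiv, coe_nnnorm]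
    have := norm_add_le_max q (g y - 1) (1 - y)
    rw [sub_add_sub_cancel, hg1, norm_sub_rev 1 y, max_self] at this
    exact this.trans_lt (hi.trans_le (min_le_left _ _))
  have h4 : ‖g y - y‖ = ‖ζ ^ j - 1‖ := by
    rw [hjy, div_sub_one h0, norm_div, hy1, div_one]
  exact absurd (hμ' j hj hj0) (not_le.2 (h4 ▸ h3))

end Fermat.Agent.Duality.Places
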