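import Mathlib
import Fermat.Prelude.Def_GaloisRep_CompletionBridge
import Fermat.Agent.Gal.Frobenius

/-!
# The algebraic closure of `ℚ` inside an algebraic closure of `ℚ_q`

Density of the image of `padicEmbedding`, and the identification of the local Galois group with
the decomposition group of `padicPlace`.
-/

set_option autoImplicit false

open Polynomial
open scoped NNReal Pointwise IntermediateField

namespace Fermat.Agent.Duality.Places

local notation "Qbar" => AlgebraicClosure ℚ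

variable (q : ℕ) [Fact q.Prime]

local notation "Ω" => PadicAlgCl q
local notation "ι" => padicEmbedding q

theorem norm_natCast_self : ‖(q : Ω)‖ = (q : ℝ)⁻¹ := by
  rw [← map_natCast (algebraMap ℚ_[q] Ω), PadicAlgCl.norm_extends, Padic.norm_p]

theorem mem_padicPlace {x : Qbar} : x ∈ padicPlace q ↔ ‖ι x‖ ≤ 1 := by
  rw [mem_padicPlace_iff]
  exact ⟨fun h => by exact_mod_cast h, fun h => by exact_mod_cast h⟩

theorem mem_nonunits_padicPlace {x : Qbar} : x ∈ (padicPlace q).nonunits ↔ ‖ι x‖ < 1 := by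
  rcases eq_or_ne x 0 with rfl | hx
  · simp [zero_mem]
  rw [ValuationSubring.mem_nonunits_iff_or, mem_padicPlace, or_iff_right hx, map_inv₀, norm_inv,
    not_le]
  have h0 : 0 < ‖ι x‖ := norm_pos_iff.2 (by simpa using hx)
  exact one_lt_inv₀ h0

theorem liesOverPrime_padicPlace : (padicPlace q).LiesOverPrime q := by
  rw [ValuationSubring.LiesOverPrime, mem_nonunits_padicPlace, map_natCast, norm_natCast_self]
  exact inv_lt_one_of_one_lt₀ (by exact_mod_cast (Fact.out : q.Prime).one_lt)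

/-- Every place over `q` is conjugate to `padicPlace q`. -/
theorem exists_smul_padicPlace_eq {A : ValuationSubring Qbar} (hA : A.LiesOverPrime q) :
    ∃ σ : Qbar ≃ₐ[ℚ] Qbar, σ • padicPlace q = A :=
  Fermat.Agent.Gal.exists_smul_eq_of_liesOverPrime (Fact.out : q.Prime)
    (liesOverPrime_padicPlace q) hA

theorem algebraMap_rat_eq (r : ℚ) : algebraMap ℚ_[q] Ω (r : ℚ_[q]) = ι (r : Qbar) := by
  rw [map_ratCast, map_ratCast]

/-- Roots in `Ω` of rational polynomials come from `Qbar`. -/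
theorem mem_range_of_root {g : ℚ[X]} (_hg : g ≠ 0) {b : Ω}
    (hb : b ∈ (g.map (algebraMap ℚ ℚ_[q])).aroots Ω) : b ∈ Set.range ι := by
  rw [Polynomial.aroots_def, Polynomial.map_map] at hb
  have hcomp : (algebraMap ℚ_[q] Ω).comp (algebraMap ℚ ℚ_[q])
      = (ι : Qbar →+* Ω).comp (algebraMap ℚ Qbar) := Subsingleton.elim _ _
  rw [hcomp, ← Polynomial.map_map, Splits.roots_map (IsAlgClosed.splits _), Multiset.mem_map] at hb
  obtain ⟨a, -, rfl⟩ := hb
  exact ⟨a, rfl⟩

/-- Every element is approximated by algebraic numbers of at most the same degree. -/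
theorem exists_root_near (x : Ω) {ε : ℝ} (hε : 0 < ε) :
    ∃ (a : Qbar) (g : ℚ[X]), g.Monic ∧ g.natDegree = (minpoly ℚ_[q] x).natDegree ∧
      aeval a g = 0 ∧ ‖x - ι a‖ < ε := by
  have hx : IsIntegral ℚ_[q] x := (Algebra.IsAlgebraic.isAlgebraic x).isIntegral
  set f := minpoly ℚ_[q] x
  set n := f.natDegree
  have hn : 0 < n := minpoly.natDegree_pos hx
  set M := max ‖x‖ 1
  have hM : 0 < M := lt_max_of_lt_right one_pos
  set η := (ε / M) ^ n / (n + 1)
  have hη : 0 < η := by positivity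
  obtain ⟨g, hgm, hgd, hgc⟩ := exists_monic_and_natDegree_eq_and_norm_map_algebraMap_coeff_sub_lt
    (K := ℚ) (by
      rw [show ⇑(algebraMap ℚ ℚ_[q]) = Rat.cast from funext fun r => eq_ratCast _ r]
      exact Padic.denseRange_ratCast q) (minpoly.monic hx) hη
  obtain ⟨b, hb, hab⟩ := exists_aroots_norm_sub_lt_of_norm_coeff_sub_lt (L := Ω) hη
    (minpoly.aeval ℚ_[q] x) (minpoly.monic hx) (hgm.map _) (by rw [natDegree_map]; exact hgd.symm)
    hgc (IsAlgClosed.splits _)
  obtain ⟨a, rfl⟩ := mem_range_of_root q hgm.ne_zero hb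
  refine ⟨a, g, hgm, hgd.symm, ?_, ?_⟩
  · apply (padicEmbedding q).toRingHom.injective
    rw [map_zero, AlgHom.toRingHom_eq_coe, RingHom.coe_coe, ← aeval_algHom_apply]
    rw [mem_aroots, aeval_map_algebraMap] at hb
    exact hb.2
  refine lt_of_lt_of_le hab (le_of_eq ?_)
  have h1 : ((n : ℝ) + 1) * η = (ε / M) ^ n := by
    simp only [η]; field_simp
  rw [show (f.natDegree : ℝ) = (n : ℝ) from rfl, h1,
    Real.pow_rpow_inv_natCast (by positivity) hn.ne',
    div_mul_cancel₀ _ hM.ne']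

/-- The image of `Qbar` is dense. -/
theorem denseRange_padicEmbedding : DenseRange ι := by
  intro x
  rw [Metric.mem_closure_iff]
  intro ε hε
  obtain ⟨a, g, -, -, -, ha⟩ := exists_root_near q x hε
  exact ⟨ι a, ⟨a, rfl⟩, by rwa [dist_eq_norm]⟩

/-- A Galois automorphism fixing `padicPlace q` preserves the norm. -/
theorem norm_eq_of_smul_eq {σ : Qbar ≃ₐ[ℚ] Qbar} (hσ : σ • padicPlace q = padicPlace q)
    (x : Qbar) : ‖ι (σ x)‖ = ‖ι x‖ := by
  rcases eq_or_ne x 0 with rfl | hx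
  · rw [map_zero]
  have hq : (1 : ℝ) < q := by exact_mod_cast (Fact.out : q.Prime).one_lt
  have key : ∀ (n : ℕ) (m : ℤ), ‖ι x‖ ^ n ≤ (q : ℝ) ^ m ↔ ‖ι (σ x)‖ ^ n ≤ (q : ℝ) ^ m := by
    intro n m
    have e : ∀ y : Qbar, ‖ι (y ^ n * (q : Qbar) ^ m)‖ = ‖ι y‖ ^ n * ((q : ℝ) ^ m)⁻¹ := fun y => by
      rw [map_mul, map_pow, map_zpow₀, norm_mul, norm_pow, norm_zpow, map_natCast,
        norm_natCast_self, inv_zpow]
    have h := Fermat.Agent.Gal.apply_mem_iff hσ (x ^ n * (q : Qbar) ^ m)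
    have hpos : (0 : ℝ) < (q : ℝ) ^ m := zpow_pos (by linarith) m
    rw [mem_padicPlace, mem_padicPlace, map_mul, map_pow, map_zpow₀, map_natCast, e, e,
      mul_inv_le_iff₀ hpos, mul_inv_le_iff₀ hpos, one_mul] at h
    exact h.symm
  have hA : 0 < ‖ι x‖ := norm_pos_iff.2 (by simpa using hx)
  have hB : 0 < ‖ι (σ x)‖ := norm_pos_iff.2 (by simpa using hx)
  set u := Real.logb q ‖ι x‖
  set w := Real.logb q ‖ι (σ x)‖
  have hiff : ∀ (n : ℕ) (m : ℤ), (n : ℝ) * u ≤ m ↔ (n : ℝ) * w ≤ m := by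
    intro n m
    have c : ∀ r : ℝ, 0 < r → ((n : ℝ) * Real.logb q r ≤ m ↔ r ^ n ≤ (q : ℝ) ^ m) := fun r hr => by
      rw [← Real.logb_pow, Real.logb_le_iff_le_rpow hq (pow_pos hr n), Real.rpow_intCast]
    rw [c _ hA, c _ hB, key]
  have huw : u = w := by
    by_contra hne
    have main : ∀ u w : ℝ, (∀ (n : ℕ) (m : ℤ), (n : ℝ) * u ≤ m → (n : ℝ) * w ≤ m) → w ≤ u := by
      intro u w hh
      by_contra hlt
      rw [not_le] at hlt
      obtain ⟨n, hn⟩ := exists_nat_gt (1 / (w - u))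
      have h1 : (n : ℝ) * u ≤ (⌈(n : ℝ) * u⌉ : ℤ) := Int.le_ceil _
      have h2 := hh n _ h1
      have h3 := Int.ceil_lt_add_one ((n : ℝ) * u)
      have h4 : 1 < (n : ℝ) * (w - u) := by
        rwa [div_lt_iff₀ (by linarith)] at hn
      linarith
    exact hne (le_antisymm (main w u fun n m => (hiff n m).2) (main u w fun n m => (hiff n m).1))
  rw [← Real.rpow_logb (by linarith) hq.ne' hB, ← Real.rpow_logb (by linarith) hq.ne' hA]
  exact congrArg _ huw.symm

/-- A relation over `ℚ_q` satisfied by `ι a` is satisfied by `ι (σ a)`. -/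
theorem aeval_apply_eq_zero {σ : Qbar ≃ₐ[ℚ] Qbar} (hσ : σ • padicPlace q = padicPlace q)
    {a : Qbar} {f : ℚ_[q][X]} (hf : aeval (ι a) f = 0) : aeval (ι (σ a)) f = 0 := by
  by_contra hne
  set c := ‖aeval (ι (σ a)) f‖
  have hc : 0 < c := norm_pos_iff.2 hne
  have hna : ‖ι (σ a)‖ = ‖ι a‖ := norm_eq_of_smul_eq q hσ a
  set N := f.natDegree + 1
  set B := ∑ i ∈ Finset.range N, ‖ι a‖ ^ i
  have hB : 0 ≤ B := Finset.sum_nonneg fun i _ => by positivity
  choose r hr using fun i => Padic.rat_dense q (f.coeff i)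
    (show 0 < c / (3 * (B + 1)) by positivity)
  set g : ℚ[X] := ∑ i ∈ Finset.range N, C (r i) * X ^ i
  have hg : ∀ y : Qbar, ι (aeval y g) = ∑ i ∈ Finset.range N, (r i : Ω) * ι y ^ i := by
    intro y
    simp [g]
  have happrox : ∀ y : Qbar, ‖ι y‖ = ‖ι a‖ → ‖ι (aeval y g) - aeval (ι y) f‖ ≤ c / 3 := by
    intro y hy
    rw [hg, aeval_eq_sum_range' (Nat.lt_succ_self _), ← Finset.sum_sub_distrib]
    refine (norm_sum_le _ _).trans ?_
    calc ∑ i ∈ Finset.range N, ‖(r i : Ω) * ι y ^ i - f.coeff i • ι y ^ i‖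
        ≤ ∑ i ∈ Finset.range N, c / (3 * (B + 1)) * ‖ι a‖ ^ i := by
          refine Finset.sum_le_sum fun i _ => ?_
          rw [Algebra.smul_def, ← sub_mul, norm_mul, norm_pow, hy]
          refine mul_le_mul_of_nonneg_right ?_ (by positivity)
          rw [show (r i : Ω) = algebraMap ℚ_[q] Ω (r i) by rw [map_ratCast], ← map_sub,
            PadicAlgCl.norm_extends, norm_sub_rev]
          exact (hr i).le
      _ ≤ c / 3 := by
          rw [← Finset.mul_sum, div_mul_eq_mul_div, div_le_div_iff₀ (by positivity) (by norm_num)]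
          nlinarith
  have h1 : ‖ι (aeval a g)‖ ≤ c / 3 := by
    have := happrox a rfl
    rwa [hf, sub_zero] at this
  have h2 : ‖ι (aeval (σ a) g)‖ ≤ c / 3 := by
    rw [show σ a = σ.toAlgHom a from rfl, aeval_algHom_apply]
    exact (norm_eq_of_smul_eq q hσ _).le.trans h1
  have h3 := happrox (σ a) hna
  have : c ≤ ‖ι (aeval (σ a) g)‖ + ‖ι (aeval (σ a) g) - aeval (ι (σ a)) f‖ := by
    simpa [norm_sub_rev, c] using norm_le_norm_add_norm_sub (ι (aeval (σ a) g)) (aeval (ι (σ a)) f)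
  linarith

/-- The local Galois group maps onto the decomposition group of `padicPlace q`. -/
theorem range_localGaloisToGlobal :
    (localGaloisToGlobal q).range = (padicPlace q).decompositionSubgroup ℚ := by
  refine le_antisymm ?_ fun σ hσ => ?_
  · rintro _ ⟨τ, rfl⟩
    exact localGaloisToGlobal_mem_decompositionSubgroup q τ
  have hσ : σ • padicPlace q = padicPlace q := hσ
  have : Algebra.IsAlgebraic ℚ Qbar := Fermat.Agent.Gal.isAlgebraic_rat_qbar
  set T : Qbar → Set (Ω ≃ₐ[ℚ_[q]] Ω) := fun a => {τ | τ (ι a) = ι (σ a)}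
  have hclosed : ∀ a, IsClosed (T a) := by
    intro a
    by_cases hne : (T a).Nonempty
    · obtain ⟨τ₀, hτ₀⟩ := hne
      have he : T a = (τ₀ * ·) '' (MulAction.stabilizer (Ω ≃ₐ[ℚ_[q]] Ω) (ι a) : Set _) := by
        ext τ
        simp only [T, Set.mem_ofPred_eq, Set.mem_image, SetLike.mem_coe,
          MulAction.mem_stabilizer_iff,
          AlgEquiv.smul_def]
        refine ⟨fun h => ⟨τ₀⁻¹ * τ, ?_, mul_inv_cancel_left _ _⟩, ?_⟩
        · rw [AlgEquiv.mul_apply, h, ← hτ₀, AlgEquiv.aut_inv, AlgEquiv.symm_apply_apply]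
        · rintro ⟨w, hw, rfl⟩
          rw [AlgEquiv.mul_apply, hw]; exact hτ₀
      rw [he]
      exact (Homeomorph.mulLeft τ₀).isClosedMap _ (Subgroup.isClosed_of_isOpen _
        (stabilizer_isOpen_of_isIntegral _))
    · rw [Set.not_nonempty_iff_eq_empty.1 hne]; exact isClosed_empty
  have hfin : ∀ s : Finset Qbar, (⋂ a ∈ s, T a).Nonempty := by
    intro s
    have : FiniteDimensional ℚ (IntermediateField.adjoin ℚ (s : Set Qbar)) :=
      IntermediateField.finiteDimensional_adjoin fun x _ =>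
        (Algebra.IsAlgebraic.isAlgebraic x).isIntegral
    obtain ⟨b, hb⟩ := Field.exists_primitive_element ℚ (IntermediateField.adjoin ℚ (s : Set Qbar))
    have hint : IsIntegral ℚ_[q] (ι (b : Qbar)) := (Algebra.IsAlgebraic.isAlgebraic _).isIntegral
    have hroot : aeval (ι (σ (b : Qbar))) (minpoly ℚ_[q] (ι (b : Qbar))) = 0 :=
      aeval_apply_eq_zero q hσ (minpoly.aeval _ _)
    have hconj : IsConjRoot ℚ_[q] (ι (b : Qbar)) (ι (σ (b : Qbar))) :=
      (isConjRoot_iff_aeval_eq_zero hint).2 hroot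
    obtain ⟨τ, hτ⟩ := isConjRoot_iff_exists_algEquiv.1 hconj.symm
    refine ⟨τ, Set.mem_iInter₂.2 fun a ha => ?_⟩
    have hab : a ∈ IntermediateField.adjoin ℚ (s : Set Qbar) :=
      IntermediateField.subset_adjoin ℚ _ ha
    have hmem : (⟨a, hab⟩ : IntermediateField.adjoin ℚ (s : Set Qbar)) ∈ ℚ⟮b⟯ := by
      rw [hb]; exact IntermediateField.mem_top
    rw [← IntermediateField.mem_toSubalgebra,
      IntermediateField.adjoin_simple_toSubalgebra_of_isAlgebraic
      (Algebra.IsAlgebraic.isAlgebraic b), Algebra.adjoin_singleton_eq_range_aeval] at hmem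
    obtain ⟨g, hg⟩ := hmem
    replace hg := hg.symm
    have hga : a = aeval (b : Qbar) g := by
      have := congrArg (fun y : IntermediateField.adjoin ℚ (s : Set Qbar) => (y : Qbar)) hg
      exact this.trans (IntermediateField.aeval_coe _ b g).symm
    have hg' : ∀ y : Qbar, ι (aeval y g) = (g.map (algebraMap ℚ Ω)).eval (ι y) := fun y => by
      rw [← aeval_algHom_apply, eval_map, aeval_def]
    have hτ' : ∀ y : Ω,
        τ ((g.map (algebraMap ℚ Ω)).eval y) = (g.map (algebraMap ℚ Ω)).eval (τ y) := by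
      intro y
      have hc : (τ : Ω →+* Ω).comp (algebraMap ℚ Ω) = algebraMap ℚ Ω := Subsingleton.elim _ _
      rw [eval_map, eval_map]
      have h2 := hom_eval₂ g (algebraMap ℚ Ω) (τ : Ω →+* Ω) y
      rw [hc] at h2
      exact h2
    show τ (ι a) = ι (σ a)
    rw [hga, show σ (aeval (b : Qbar) g) = aeval (σ (b : Qbar)) g from
      (aeval_algHom_apply σ.toAlgHom _ g).symm, hg', hg', hτ', hτ]
  obtain ⟨τ, hτ⟩ := IsCompact.inter_iInter_nonempty (isCompact_univ (X := Ω ≃ₐ[ℚ_[q]] Ω)) T hclosed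
    (fun s => by rw [Set.univ_inter]; exact hfin s)
  refine ⟨τ, AlgEquiv.ext fun a => (padicEmbedding q).toRingHom.injective ?_⟩
  have := Set.mem_iInter.1 hτ.2 a
  exact (padicEmbedding_localGaloisToGlobal q τ a).trans this

end Fermat.Agent.Duality.Places
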