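import Fermat.Agent.Duality.CyclicKernel
import Fermat.Agent.Duality.Localisation
import Fermat.Agent.Duality.Places.Twist

/-!
# Symbols, restriction and localisation

Naturality of `cupChi`, localisation of symbols, and restriction to subgroups of index prime to
`p`.
-/

set_option autoImplicit false

noncomputable section

namespace Fermat.Agent.Duality.Places

section Natural

variable {p : ℕ} [Fact p.Prime] {F L F' L' : Type} [Field F] [Field L] [Algebra F L] [Normal F L]
  [Field F'] [Field L'] [Algebra F' L'] [Normal F' L'] [IsAlgClosed L] [IsAlgClosed L']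
  {H : Subgroup (L ≃ₐ[F] L)} {H' : Subgroup (L' ≃ₐ[F'] L')} {f : H' →* H}
  (hf : ((galLevels F' L').restrict H').Compat ((galLevels F L).restrict H) f)

/-- The map of units induced by a field embedding. -/
def lxMap (i : L →+* L') : Lx L →+ Lx L' := MonoidHom.toAdditive (Units.map i.toMonoidHom)

variable (i : L →+* L')
  (hi : ∀ (g : H') (x : L), i ((f g : L ≃ₐ[F] L) x) = (g : L' ≃ₐ[F'] L') (i x))

include hi in
omit [Normal F L] [Normal F' L'] [IsAlgClosed L] [IsAlgClosed L'] in
theorem lxMap_smul (g : H') (x : Lx L) : g • lxMap i x = lxMap i (f g • x) :=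
  Additive.toMul.injective (Units.ext (hi g _).symm)

/-- The pullback of a character. -/
def pullChar (χ : Char1 p H) : Char1 p H' :=
  Coh.Z1.map (A := Zp p) (B := Zp p) hf (φ := AddMonoidHom.id (Zp p)) (fun _ _ => rfl) χ

omit [Fact (Nat.Prime p)] in
omit [IsAlgClosed L] [IsAlgClosed L'] in
theorem pullChar_apply (χ : Char1 p H) (g : H') :
    (pullChar hf χ : H' → Zp p) g = (χ : H → Zp p) (f g) := rfl

omit [Fact (Nat.Prime p)] in
omit [IsAlgClosed L] [IsAlgClosed L'] in
theorem chiVal_pullChar (χ : Char1 p H) (g : H') : chiVal (pullChar hf χ) g = chiVal χ (f g) := rfl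

variable {φ : Mu p L →+ Mu p L'} (hφ : Coh.IsEquivariant f φ)
  (hval : ∀ z, muVal (φ z) = lxMap i (muVal z))

include hi hval in
/-- Symbols are natural. -/
theorem map_cupChi (χ : Char1 p H) (a : Coh.inv H (Lx L)) (a' : Coh.inv H' (Lx L'))
    (ha : (a' : Lx L') = lxMap i (a : Lx L)) :
    Coh.H2.map hf hφ (cupChi χ a) = cupChi (pullChar hf χ) a' := by
  have hp : 0 < p := (Fact.out : p.Prime).pos
  have hk : Coh.H1.mk (Coh.Z1.map hf hφ (kummerFun H hp a)) = kummer H' hp a' :=
    kummerFun_eq H' hp a' (r := lxMap i (rootP p (a : Lx L)))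
      (by rw [← map_nsmul, nsmul_rootP hp, ha]) fun σ => by
      rw [Coh.Z1.map_apply, hval, muVal_kummerFun, map_sub, ← lxMap_smul i hi]
  show Coh.H2.map hf hφ (Coh.H2.mk (cupChiCocycle χ a)) =
    Coh.cup₁₁ (isPairing_zpSmul H') (isSmooth_restrict isSmooth_Mu H')
      (Coh.H1.mk (pullChar hf χ)) (kummer H' hp a')
  rw [← hk, Coh.H2.map_mk, Coh.cup₁₁_mk]
  refine congrArg _ (Subtype.ext (funext fun g => funext fun h => ?_))
  show φ (zpSmul ((χ : H → Zp p) (f g)) (f g • (kummerFun H hp a : H → Mu p L) (f h))) =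
    zpSmul ((χ : H → Zp p) (f g)) (g • φ ((kummerFun H hp a : H → Mu p L) (f h)))
  rw [zpSmul_apply, zpSmul_apply, map_nsmul, hφ]

end Natural

section Res

variable {p : ℕ} [Fact p.Prime] {F L : Type} [Field F] [Field L] [Algebra F L] [Normal F L]

omit [Fact (Nat.Prime p)] in
theorem nsmul_H2μ {H : Subgroup (L ≃ₐ[F] L)} (x : H2μ p H) : p • x = 0 := by
  obtain ⟨u, rfl⟩ := Coh.H2.mk_surjective x
  rw [← map_nsmul]
  refine (congrArg _ ?_).trans (map_zero _)
  exact Subtype.ext (funext fun g => funext fun h => nsmul_mu _)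

omit [Fact (Nat.Prime p)] in
theorem resLE₂_resLE₂ {H K M : Subgroup (L ≃ₐ[F] L)} (h : K ≤ H) (h' : M ≤ K) (x : H2μ p H) :
    resLE₂ h' (resLE₂ h x) = resLE₂ (h'.trans h) x := by
  obtain ⟨u, rfl⟩ := Coh.H2.mk_surjective x
  rfl

omit [Fact (Nat.Prime p)] in
theorem resLE₂_self {H : Subgroup (L ≃ₐ[F] L)} (x : H2μ p H) : resLE₂ (le_refl H) x = x := by
  obtain ⟨u, rfl⟩ := Coh.H2.mk_surjective x
  rfl

/-- Restriction to a subgroup of index prime to `p` is injective. -/
theorem eq_zero_of_resLE₂_eq_zero {H K : Subgroup (L ≃ₐ[F] L)} (_hH : (galLevels F L).ok H)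
    (hK : (galLevels F L).ok K) (h : K ≤ H) (hidx : ¬ p ∣ K.relIndex H) {x : H2μ p H}
    (hx : resLE₂ h x = 0) : x = 0 := by
  have hok : ((galLevels F L).restrict H).ok (K.subgroupOf H) := ⟨K, hK, le_rfl⟩
  have := ((galLevels F L).restrict H).finiteIndex hok
  let : Fintype (H ⧸ K.subgroupOf H) := Fintype.ofFinite _
  have h1 := congrArg (Coh.cor₂ (K.subgroupOf H) hok) (res₂_subgroupOf_eq_zero h hx)
  rw [Coh.cor₂_res₂ (K.subgroupOf H) hok, map_zero, ← Nat.card_eq_fintype_card,
    show Nat.card (H ⧸ K.subgroupOf H) = K.relIndex H from rfl] at h1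
  have hcop : (K.relIndex H).Coprime p :=
    ((Fact.out : p.Prime).coprime_iff_not_dvd.2 hidx).symm
  obtain ⟨a, b, hab⟩ : ∃ a b : ℤ, a * (K.relIndex H : ℤ) + b * (p : ℤ) = 1 :=
    Nat.isCoprime_iff_coprime.2 hcop
  calc x = (a * (K.relIndex H : ℤ) + b * (p : ℤ)) • x := by rw [hab, one_zsmul]
    _ = 0 := by
      rw [add_zsmul, mul_zsmul, mul_zsmul, natCast_zsmul, natCast_zsmul, h1, nsmul_H2μ, smul_zero,
        smul_zero, add_zero]

end Res

section Localise

variable {p : ℕ} [Fact p.Prime] (q : ℕ) [Fact q.Prime]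

/-- The local image of a fixed unit. -/
def locInv {H : Subgroup GalQ} (g : GalQ) (a : Coh.inv H (Lx Qbar)) :
    Coh.inv (locGroup q H g) (Lx (PadicAlgCl q)) :=
  ⟨lxMap (padicEmbedding q).toRingHom (g • (a : Lx Qbar)), fun d => by
    refine Additive.toMul.injective (Units.ext ?_)
    show (d : GalLoc q) (padicEmbedding q (g (((a : Lx Qbar).toMul : Qbarˣ) : Qbar))) =
      padicEmbedding q (g (((a : Lx Qbar).toMul : Qbarˣ) : Qbar))
    have h1 := congrArg (fun y : Lx Qbar => ((y.toMul : Qbarˣ) : Qbar))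
      (a.2 (Coh.twistHom (localGaloisToGlobal q) g H d))
    change (g⁻¹ * localGaloisToGlobal q d * g) (((a : Lx Qbar).toMul : Qbarˣ) : Qbar) =
      (((a : Lx Qbar).toMul : Qbarˣ) : Qbar) at h1
    rw [← padicEmbedding_localGaloisToGlobal]
    have h2 := congrArg g h1
    rw [AlgEquiv.mul_apply, AlgEquiv.mul_apply, AlgEquiv.aut_inv, AlgEquiv.apply_symm_apply] at h2
    rw [h2]⟩

theorem coe_locInv {H : Subgroup GalQ} (g : GalQ) (a : Coh.inv H (Lx Qbar)) :
    ((((locInv q g a : Coh.inv (locGroup q H g) (Lx (PadicAlgCl q))) : Lx (PadicAlgCl q)).toMul :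
      (PadicAlgCl q)ˣ) : PadicAlgCl q) =
      padicEmbedding q (g ((((a : Lx Qbar)).toMul : Qbarˣ) : Qbar)) := rfl

/-- The local character at the place `(q, g)`. -/
def locChar {H : Subgroup GalQ} (g : GalQ) (χ : Char1 p H) : Char1 p (locGroup q H g) :=
  pullChar (Coh.compat_twistHom (compat_localGaloisToGlobal q) g H) χ

omit [Fact (Nat.Prime p)] in
theorem locChar_apply {H : Subgroup GalQ} (g : GalQ) (χ : Char1 p H) (d : locGroup q H g) :
    (locChar q g χ : locGroup q H g → Zp p) d =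
      (χ : H → Zp p) (Coh.twistHom (localGaloisToGlobal q) g H d) := rfl

/-- Localisation of symbols. -/
theorem locμ₂_cupChi {H : Subgroup GalQ} (g : GalQ) (χ : Char1 p H) (a : Coh.inv H (Lx Qbar)) :
    locμ₂ p q H g (cupChi χ a) = cupChi (locChar q g χ) (locInv q g a) := by
  refine map_cupChi _ ((padicEmbedding q).toRingHom.comp (g : Qbar →+* Qbar)) ?_ _ ?_ χ a _ ?_
  · intro d x
    show padicEmbedding q (g ((g⁻¹ * localGaloisToGlobal q d * g : GalQ) x)) =
      (d : GalLoc q) (padicEmbedding q (g x))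
    rw [← padicEmbedding_localGaloisToGlobal, AlgEquiv.mul_apply, AlgEquiv.mul_apply,
      AlgEquiv.aut_inv, AlgEquiv.apply_symm_apply]
  · intro z
    rfl
  · exact Additive.toMul.injective (Units.ext rfl)

omit [Fact (Nat.Prime p)] in
/-- Localisation commutes with restriction. -/
theorem locμ₂_resLE₂ {H K : Subgroup GalQ} (h : K ≤ H) (g : GalQ) (x : H2μ p H)
    (h' : locGroup q K g ≤ locGroup q H g) :
    locμ₂ p q K g (resLE₂ h x) = resLE₂ h' (locμ₂ p q H g x) := by
  obtain ⟨u, rfl⟩ := Coh.H2.mk_surjective x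
  rfl

/-- The local group is monotone in the global subgroup. -/
theorem locGroup_mono {H K : Subgroup GalQ} (h : K ≤ H) (g : GalQ) :
    locGroup q K g ≤ locGroup q H g := Subgroup.comap_mono h

end Localise

end Fermat.Agent.Duality.Places

end
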