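import Fermat.Agent.Duality.Places.SymbolNorm
import Fermat.Agent.Duality.Places.Cyclo

/-!
# Injectivity of the global-to-local map on `H²(μ_p)` of a number field

Reduction of an arbitrary class to symbols along a chain of index `p` subgroups.
-/

set_option autoImplicit false

noncomputable section

open IntermediateField
open ExtCitation

namespace Fermat.Agent.Duality.Places

variable {p : ℕ} [Fact p.Prime]

/-- A class vanishes locally everywhere. -/
def LocallyZero (H : Subgroup GalQ) (x : H2μ p H) : Prop :=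
  ∀ (q : ℕ) [Fact q.Prime] (g : GalQ), locμ₂ p q H g x = 0

omit [Fact (Nat.Prime p)] in
theorem LocallyZero.res {H K : Subgroup GalQ} {x : H2μ p H} (hx : LocallyZero H x) (h : K ≤ H) :
    LocallyZero K (resLE₂ h x) := by
  intro q _ g
  rw [locμ₂_resLE₂ q h g x (locGroup_mono q h g), hx q g, map_zero]

/-- The symbol case, for subgroups. -/
theorem cupChi_eq_zero_of_locally' (hHN : HasseNorm p) (H : Subgroup GalQ)
    (hH : (galLevels ℚ Qbar).ok H) (hcyc : H ≤ (cycloChar p).ker) (χ : Char1 p H)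
    (a : Coh.inv H (Lx Qbar)) (hloc : LocallyZero H (cupChi χ a)) : cupChi χ a = 0 := by
  obtain ⟨K, hK, rfl⟩ : ∃ K : IntermediateField ℚ Qbar,
      FiniteDimensional ℚ K ∧ K.fixingSubgroup = H :=
    ⟨fixedField H, finiteDimensional_fixedField_of_ok hH, fixingSubgroup_fixedField_of_ok hH⟩
  have := hK
  have : NumberField K := ⟨⟩
  have : NeZero p := ⟨(Fact.out : p.Prime).ne_zero⟩
  have : IsGalois ℚ Qbar := Fermat.Agent.Gal.isGalois_rat_qbar
  obtain ⟨ζ, hζ⟩ := HasEnoughRootsOfUnity.exists_primitiveRoot Qbar p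
  have hmem : ζ ∈ K := by
    refine (InfiniteGalois.fixedField_fixingSubgroup K).le fun s => ?_
    show (s : GalQ) ζ = ζ
    have : Fact (1 < p) := ⟨(Fact.out : p.Prime).one_lt⟩
    rw [apply_eq_pow_cycloChar hζ.pow_eq_one, MonoidHom.mem_ker.1 (hcyc s.2), Units.val_one,
      ZMod.val_one, pow_one]
  exact cupChi_eq_zero_of_locally K χ a hHN ⟨⟨ζ, hmem⟩, IsPrimitiveRoot.coe_submonoidClass_iff.1 hζ⟩
    hloc

/-- The chain step. -/
theorem eq_zero_of_resLE₂_of_pow (hHN : HasseNorm p) :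
    ∀ (k : ℕ) (H N : Subgroup GalQ) (_ : (galLevels ℚ Qbar).ok H) (_ : (galLevels ℚ Qbar).ok N)
      (h : N ≤ H) (_ : (N.subgroupOf H).Normal) (_ : H ≤ (cycloChar p).ker)
      (_ : N.relIndex H = p ^ k) (x : H2μ p H), LocallyZero H x → resLE₂ h x = 0 → x = 0 := by
  intro k
  induction k with
  | zero =>
    intro H N hH hN h _ _ hidx x _ hx
    rw [pow_zero, Subgroup.relIndex_eq_one] at hidx
    obtain rfl : N = H := le_antisymm h hidx
    rwa [resLE₂_self] at hx
  | succ k ih =>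
    intro H N hH hN h hn hcyc hidx x hloc hx
    have := hn
    have hp : p.Prime := Fact.out
    have hcard : Nat.card (H ⧸ N.subgroupOf H) = p ^ (k + 1) := hidx
    have : Finite (H ⧸ N.subgroupOf H) :=
      Nat.finite_of_card_ne_zero (by rw [hcard]; exact pow_ne_zero _ hp.ne_zero)
    obtain ⟨M₀, hM₀⟩ := Sylow.exists_subgroup_card_pow_prime (G := H ⧸ N.subgroupOf H) p (n := k)
      (by rw [hcard]; exact pow_dvd_pow p k.le_succ)
    have hM₀idx : M₀.index = p := by
      have h1 := M₀.card_mul_index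
      rw [hM₀, hcard, pow_succ] at h1
      exact mul_left_cancel₀ (pow_ne_zero k hp.ne_zero) h1
    have hM₀n : M₀.Normal := Subgroup.normal_of_index_eq_minFac_card (by
      rw [hM₀idx, hcard, Nat.pow_minFac k.succ_ne_zero, hp.minFac_eq])
    set M₁ : Subgroup H := M₀.comap (QuotientGroup.mk' (N.subgroupOf H))
    set M : Subgroup GalQ := M₁.map H.subtype
    have hMH : M ≤ H := Subgroup.map_subtype_le _
    have hM₁ : M.subgroupOf H = M₁ :=
      Subgroup.comap_map_eq_self_of_injective H.subtype_injective M₁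
    have hNM : N ≤ M := fun s hs => Subgroup.mem_map.2 ⟨⟨s, h hs⟩, by
      rw [Subgroup.mem_comap, QuotientGroup.mk'_apply,
        (QuotientGroup.eq_one_iff (⟨s, h hs⟩ : H)).2 hs]
      exact one_mem _, rfl⟩
    have hM : (galLevels ℚ Qbar).ok M := (galLevels ℚ Qbar).mono hN hNM
    have hMidx : M.relIndex H = p := by
      show (M.subgroupOf H).index = p
      rw [hM₁, Subgroup.index_comap_of_surjective _ (QuotientGroup.mk'_surjective _), hM₀idx]
    have hNMidx : N.relIndex M = p ^ k := by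
      have h1 := Subgroup.relIndex_mul_relIndex N M H hNM hMH
      rw [hMidx, hidx, pow_succ] at h1
      exact mul_right_cancel₀ hp.ne_zero h1
    have hNn : (N.subgroupOf M).Normal := ⟨fun a ha b => by
      have h1 := hn.conj_mem ⟨a, hMH a.2⟩ ha ⟨b, hMH b.2⟩
      exact h1⟩
    have hres : resLE₂ hMH x = 0 :=
      ih M N hM hN hNM hNn (hMH.trans hcyc) hNMidx _ (hloc.res hMH)
        (by rw [resLE₂_resLE₂]; exact hx)
    have hMn : (M.subgroupOf H).Normal := by
      rw [hM₁]; exact hM₀n.comap _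
    obtain ⟨χ, a, -, -, rfl⟩ := exists_cupChi_of_resLE_eq_zero hH hM hMH hMn hMidx x hres
    exact cupChi_eq_zero_of_locally' hHN H hH hcyc χ a hloc

/-- A class is killed by restriction to a normal level. -/
theorem exists_level_resLE₂_eq_zero (H : Subgroup GalQ) (hH : (galLevels ℚ Qbar).ok H)
    (hcyc : H ≤ (cycloChar p).ker) (x : H2μ p H) :
    ∃ (N : Subgroup GalQ) (h : N ≤ H), (galLevels ℚ Qbar).ok N ∧ (N.subgroupOf H).Normal ∧
      resLE₂ h x = 0 := by
  obtain ⟨f, rfl⟩ := Coh.H2.mk_surjective x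
  obtain ⟨U, ⟨V, hV, hVU⟩, hfU⟩ := f.2.1
  obtain ⟨N, hN, hNn, hNV⟩ := (galLevels ℚ Qbar).exists_normal ((galLevels ℚ Qbar).inf_ok hV hH)
  have hle : N ≤ H := hNV.trans inf_le_right
  refine ⟨N, hle, hN, Subgroup.normal_comap _, ?_⟩
  rw [resLE₂, Coh.H2.map_mk, Coh.H2.mk_eq_zero]
  refine ⟨fun _ => (f : H → H → Mu p Qbar) 1 1, Coh.isConst₁_const _,
    funext fun a => funext fun b => ?_⟩
  have hmem : ∀ c : N, Subgroup.inclusion hle c ∈ U := fun c => hVU (hNV c.2).1
  have h1 := hfU 1 1 _ (hmem a) _ (hmem b)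
  rw [one_mul, one_mul] at h1
  show a • (f : H → H → Mu p Qbar) 1 1 - (f : H → H → Mu p Qbar) 1 1
    + (f : H → H → Mu p Qbar) 1 1 = (f : H → H → Mu p Qbar) _ _
  rw [sub_add_cancel, h1]
  refine muVal_injective (Additive.toMul.injective (Units.ext ?_))
  have : NeZero p := ⟨(Fact.out : p.Prime).ne_zero⟩
  have : Fact (1 < p) := ⟨(Fact.out : p.Prime).one_lt⟩
  set z := (((muVal ((f : H → H → Mu p Qbar) 1 1)).toMul : Qbarˣ) : Qbar)
  have hz : z ^ p = 1 := by
    rw [← Units.val_pow_eq_pow_val, ← toMul_nsmul, nsmul_muVal, toMul_zero, Units.val_one]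
  show (a : GalQ) z = z
  rw [apply_eq_pow_cycloChar hz, MonoidHom.mem_ker.1 (hcyc (hle a.2)), Units.val_one, ZMod.val_one,
    pow_one]

/-- **Injectivity of the localisation on `H²(μ_p)`**, given the Hasse norm theorem. -/
theorem eq_zero_of_locallyZero (hHN : HasseNorm p) (H : Subgroup GalQ)
    (hH : (galLevels ℚ Qbar).ok H) (x : H2μ p H) (hloc : LocallyZero H x) : x = 0 := by
  have hp : p.Prime := Fact.out
  have : NeZero p := ⟨hp.ne_zero⟩
  have hker : (galLevels ℚ Qbar).ok (cycloChar p).ker := by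
    obtain ⟨ζ, hζ⟩ := HasEnoughRootsOfUnity.exists_primitiveRoot Qbar p
    refine ⟨ℚ⟮ζ⟯, adjoin.finiteDimensional (hζ.isIntegral hp.pos).tower_top, fun g hg => ?_⟩
    have : Fact (1 < p) := ⟨hp.one_lt⟩
    refine MonoidHom.mem_ker.2 (cycloChar_eq_of_apply_eq hζ ?_)
    rw [Units.val_one, ZMod.val_one, pow_one]
    exact (IntermediateField.mem_fixingSubgroup_iff _ g).1 hg ζ (mem_adjoin_simple_self ℚ ζ)
  set H₀ := H ⊓ (cycloChar p).ker
  have hH₀ : (galLevels ℚ Qbar).ok H₀ := (galLevels ℚ Qbar).inf_ok hH hker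
  have hidx₀ : ¬ p ∣ H₀.relIndex H := by
    intro h
    rw [Subgroup.inf_relIndex_left] at h
    have h1 : (cycloChar p).ker.index ∣ p - 1 := by
      rw [Subgroup.index_ker, ← ZMod.card_units p, ← Nat.card_eq_fintype_card]
      exact Subgroup.card_subgroup_dvd_card _
    have h2 := Nat.le_of_dvd (by have := hp.two_le; omega)
      ((h.trans (Subgroup.relIndex_dvd_index_of_normal _ _)).trans h1)
    have := hp.two_le
    omega
  refine eq_zero_of_resLE₂_eq_zero hH hH₀ inf_le_left hidx₀ ?_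
  set y := resLE₂ (inf_le_left : H₀ ≤ H) x
  have hy : LocallyZero H₀ y := hloc.res inf_le_left
  obtain ⟨N, hle, hN, hn, hNy⟩ := exists_level_resLE₂_eq_zero H₀ hH₀ inf_le_right y
  have := hn
  have hfin : Finite (H₀ ⧸ N.subgroupOf H₀) := by
    have := ((galLevels ℚ Qbar).restrict H₀).finiteIndex ⟨N, hN, le_rfl⟩
    infer_instance
  set P : Sylow p (H₀ ⧸ N.subgroupOf H₀) := Classical.arbitrary _
  set P₁ : Subgroup H₀ := (P : Subgroup (H₀ ⧸ N.subgroupOf H₀)).comap
    (QuotientGroup.mk' (N.subgroupOf H₀))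
  set P' : Subgroup GalQ := P₁.map H₀.subtype
  have hP₁ : P'.subgroupOf H₀ = P₁ :=
    Subgroup.comap_map_eq_self_of_injective H₀.subtype_injective P₁
  have hP'le : P' ≤ H₀ := Subgroup.map_subtype_le _
  have hNP : N ≤ P' := fun s hs => Subgroup.mem_map.2 ⟨⟨s, hle hs⟩, by
    rw [Subgroup.mem_comap, QuotientGroup.mk'_apply,
      (QuotientGroup.eq_one_iff (⟨s, hle hs⟩ : H₀)).2 hs]
    exact one_mem _, rfl⟩
  have hP' : (galLevels ℚ Qbar).ok P' := (galLevels ℚ Qbar).mono hN hNP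
  have hPidx : P'.relIndex H₀ = (P : Subgroup (H₀ ⧸ N.subgroupOf H₀)).index := by
    show (P'.subgroupOf H₀).index = _
    rw [hP₁, Subgroup.index_comap_of_surjective _ (QuotientGroup.mk'_surjective _)]
  refine eq_zero_of_resLE₂_eq_zero hH₀ hP' hP'le (hPidx ▸ P.not_dvd_index) ?_
  obtain ⟨k, hk⟩ := IsPGroup.iff_card.1 P.isPGroup'
  refine eq_zero_of_resLE₂_of_pow hHN k P' N hP' hN hNP ⟨fun a ha b =>
    hn.conj_mem ⟨a, hP'le a.2⟩ ha ⟨b, hP'le b.2⟩⟩ (hP'le.trans inf_le_right) ?_ _ (hy.res hP'le)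
    (by rw [resLE₂_resLE₂]; exact hNy)
  have h1 := Subgroup.relIndex_mul_relIndex N P' H₀ hNP hP'le
  have h2 := (P : Subgroup (H₀ ⧸ N.subgroupOf H₀)).card_mul_index
  rw [hk] at h2
  have h3 : N.relIndex H₀ = Nat.card (H₀ ⧸ N.subgroupOf H₀) := rfl
  rw [h3, ← h2, hPidx] at h1
  exact mul_right_cancel₀ Subgroup.FiniteIndex.index_ne_zero h1

end Fermat.Agent.Duality.Places

end
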