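import Fermat.Agent.Duality.Places.Invariant
import Fermat.Agent.Duality.Local.Base
import Fermat.Agent.Duality.PlaceSum

/-!
# The invariants form an invariant family

Bijectivity, reciprocity for `S`-levels and injectivity of the local corestrictions.
-/

set_option autoImplicit false

noncomputable section

namespace Fermat.Agent.Duality.Places

variable {p : ℕ} [Fact p.Prime]

variable (p) in
/-- The local groups are cyclic of order `p`. -/
theorem localIso : LocalIso p := by
  intro r _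
  obtain ⟨e⟩ := Local.nonempty_H2_top_equiv r p
  exact ⟨(AddEquiv.ofBijective _
    (toWhole_bijective (galLevels ℚ_[r] (PadicAlgCl r)) (locBase r) (mem_locBase r))).symm.trans e⟩

variable (p) in
/-- The chosen invariants. -/
def invFam : InvFam p := fun q _ => inv (localIso p) q

/-- Inflation to all levels. -/
def inflS₂ (S : Finset Nat.Primes) :
    Coh.H2 (galLevelsS S) (Mu p Qbar) →+ Coh.H2 (galLevels ℚ Qbar) (Mu p Qbar) :=
  Coh.H2.map (compat_galLevelsS S) (φ := AddMonoidHom.id _) (fun _ _ => rfl)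

omit [Fact (Nat.Prime p)] in
theorem locAll_inflS₂ (S : Finset Nat.Primes) (q : ℕ) [Fact q.Prime]
    (x : Coh.H2 (galLevelsS S) (Mu p Qbar)) :
    locAll q (inflS₂ S x) =
      Coh.H2.map (compat_localGaloisToGlobal_S q S) (isEquivariant_muEmb q) x := by
  obtain ⟨u, rfl⟩ := Coh.H2.mk_surjective x
  rfl

/-- `S`-classes are locally zero outside `S`. -/
theorem map_eq_zero_of_notMem {S : Finset Nat.Primes} (hpS : (⟨p, Fact.out⟩ : Nat.Primes) ∈ S)
    (q : ℕ) [Fact q.Prime] (hqS : (⟨q, Fact.out⟩ : Nat.Primes) ∉ S)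
    (x : Coh.H2 (galLevelsS S) (Mu p Qbar)) :
    Coh.H2.map (compat_localGaloisToGlobal_S q S) (isEquivariant_muEmb q) x = 0 := by
  have h := locTwist₂_eq_zero_of_notMem hpS (galLevelsS S).top_ok q hqS 1
    (toWhole (galLevelsS S) ⊤ x)
  let ι : GalLoc q →* Coh.twisted (localGaloisToGlobal q) 1 (⊤ : Subgroup GalQ) :=
    (MonoidHom.id (GalLoc q)).codRestrict _ fun d => Coh.mem_twisted.2 (Subgroup.mem_top _)
  have hι : (galLevels ℚ_[q] (PadicAlgCl q)).Compat ((galLevels ℚ_[q] (PadicAlgCl q)).restrict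
      (Coh.twisted (localGaloisToGlobal q) 1 (⊤ : Subgroup GalQ))) ι := fun _ ⟨V, hV, hVU⟩ =>
    (galLevels ℚ_[q] (PadicAlgCl q)).mono hV fun g hg =>
      hVU (show (ι g : GalLoc q) ∈ V from hg)
  have hιe : Coh.IsEquivariant (A := Mu p (PadicAlgCl q)) (B := Mu p (PadicAlgCl q)) ι
      (AddMonoidHom.id _) := fun _ _ => rfl
  have h1 := congrArg (Coh.H2.map hι hιe) h
  rw [map_zero] at h1
  obtain ⟨u, rfl⟩ := Coh.H2.mk_surjective x
  refine (congrArg Coh.H2.mk (Subtype.ext (funext fun d => funext fun e => ?_))).trans h1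
  show muEmb q ((u : GalQ → GalQ → Mu p Qbar) (localGaloisToGlobal q d) (localGaloisToGlobal q e)) =
    muEmb q ((1 : GalQ) • (u : GalQ → GalQ → Mu p Qbar) (1⁻¹ * localGaloisToGlobal q d * 1)
      (1⁻¹ * localGaloisToGlobal q e * 1))
  rw [one_smul, inv_one, one_mul, mul_one, one_mul, mul_one]

/-- Reciprocity for `S`-levels. -/
theorem sum_inv_map_eq_zero (hp2 : p ≠ 2) (S : Finset Nat.Primes)
    (hpS : (⟨p, Fact.out⟩ : Nat.Primes) ∈ S) (x : Coh.H2 (galLevelsS S) (Mu p Qbar)) :
    ∑ q : ↥S, invFam p (q.1 : ℕ)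
      (Coh.H2.map (compat_localGaloisToGlobal_S (q.1 : ℕ) S) (isEquivariant_muEmb (q.1 : ℕ)) x) =
      0 := by
  have h := sum_inv_locAll_eq_zero (localIso p) hp2 (inflS₂ S x) S fun r hr => by
    rw [locAll_inflS₂]; exact map_eq_zero_of_notMem hpS (r : ℕ) hr x
  rw [← Finset.sum_coe_sort S] at h
  simp only [locAll_inflS₂] at h
  exact h

/-- Corestriction to `ℚ_q` is injective from every open subgroup. -/
theorem corLoc_injective (q : ℕ) [Fact q.Prime] (U : Subgroup (GalLoc q))
    (hU : (galLevels ℚ_[q] (PadicAlgCl q)).ok U) :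
    Function.Injective (corLoc (p := p) q U hU) := by
  have hp : p.Prime := Fact.out
  have hcor : corLoc (p := p) q U hU = corTop₂ hU := by
    unfold corLoc corTop₂
    congr
  rw [hcor]
  set M := Local.muFixer q p
  have hM : (galLevels ℚ_[q] (PadicAlgCl q)).ok (M ⊓ U) :=
    (galLevels ℚ_[q] (PadicAlgCl q)).inf_ok Local.ok_muFixer hU
  have hb := Local.corTop₂_bijective (p := p) hM fun g z => Local.mem_muFixer.1 g.2.1 z
  -- corestriction from `M ⊓ U` to `U` is onto
  have hidx : ¬ p ∣ (M ⊓ U).relIndex U := by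
    rw [Subgroup.inf_relIndex_right]
    exact fun h => Local.not_dvd_index_muFixer (h.trans (Subgroup.relIndex_dvd_index_of_normal M U))
  have hsurj : Function.Surjective (corLE₂ (p := p) (inf_le_right : M ⊓ U ≤ U) hM) := by
    intro x
    have : Finite (U ⧸ (M ⊓ U).subgroupOf U) := finite_quotient_subgroupOf hM
    let : Fintype (U ⧸ (M ⊓ U).subgroupOf U) := Fintype.ofFinite _
    have hcr : corLE₂ (p := p) (inf_le_right : M ⊓ U ≤ U) hM
        (resLE₂ (inf_le_right : M ⊓ U ≤ U) x) = (M ⊓ U).relIndex U • x := by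
      obtain ⟨u, rfl⟩ := Coh.H2.mk_surjective x
      have h := Coh.cor₂_res₂ ((M ⊓ U).subgroupOf U) (ok_subgroupOf hM)
        (Coh.H2.mk u)
      rw [← Nat.card_eq_fintype_card] at h
      refine Eq.trans ?_ h
      unfold corLE₂
      simp only [AddMonoidHom.coe_comp, Function.comp_apply]
      convert rfl
      rfl
    refine AddMonoidHom.mem_range.1 (mem_of_nsmul_mem
      (corLE₂ (p := p) (inf_le_right : M ⊓ U ≤ U) hM).range hp hidx (nsmul_H2μ x) ⟨_, hcr⟩)
  intro x y hxy
  obtain ⟨a, rfl⟩ := hsurj x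
  obtain ⟨b, rfl⟩ := hsurj y
  rw [corTop₂_corLE₂ inf_le_right hU hM, corTop₂_corLE₂ inf_le_right hU hM] at hxy
  rw [hb.1 hxy]

/-- The chosen invariants form an invariant family. -/
theorem isInvFamily (hp2 : p ≠ 2) : IsInvFamily (invFam p) where
  bijective q _ := inv_bijective (localIso p) hp2 q
  reciprocity S hS x := sum_inv_map_eq_zero hp2 S hS x
  cor_injective q _ U hU := corLoc_injective q U hU

end Fermat.Agent.Duality.Places

end
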