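import Fermat.Agent.Duality.PlaceSum
import Fermat.Agent.Duality.Places.CupLoc
import Fermat.Agent.Duality.Global.Powers

/-!
# The local Kummer classes of the elements of a number field
-/

set_option autoImplicit false

noncomputable section

open IntermediateField IsDedekindDomain NumberField

namespace Fermat.Agent.Duality.Places

variable {p : ℕ} [Fact p.Prime]

/-- Nonzero elements of `K` as invariant units. -/
def globalUnit (K : IntermediateField ℚ Qbar) :
    Additive Kˣ →+ Coh.inv K.fixingSubgroup (Lx Qbar) :=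
  AddMonoidHom.mk'
    (fun a => ⟨Additive.ofMul (Units.map (K.val : K →* Qbar) a.toMul), fun g =>
      Additive.toMul.injective (Units.ext
        ((IntermediateField.mem_fixingSubgroup_iff K g.1).1 g.2 _ (a.toMul : K).2))⟩)
    fun _ _ => Subtype.ext (Additive.toMul.injective (Units.ext rfl))

variable (q : ℕ) [Fact q.Prime]

theorem locInv_add {H : Subgroup GalQ} (g : GalQ) (a b : Coh.inv H (Lx Qbar)) :
    locInv q g (a + b) = locInv q g a + locInv q g b :=
  Subtype.ext (Additive.toMul.injective (Units.ext (by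
    show padicEmbedding q (g (_ * _)) = padicEmbedding q (g _) * padicEmbedding q (g _)
    rw [map_mul, map_mul])))

variable (p) in
/-- The local Kummer class at the place `(q, g)`. -/
def locKummer (K : IntermediateField ℚ Qbar) (g : GalQ) :
    Additive Kˣ →+ H1μ p (locGroup q K.fixingSubgroup g) :=
  (kummer _ (Fact.out : p.Prime).pos).comp
    (AddMonoidHom.mk' (fun a => locInv q g (globalUnit K a)) fun a b => by
      rw [map_add, locInv_add])

theorem locKummer_apply (K : IntermediateField ℚ Qbar) (g : GalQ) (x : Kˣ) :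
    locKummer p q K g (Additive.ofMul x) =
      kummer _ (Fact.out : p.Prime).pos (locInv q g (globalUnit K (Additive.ofMul x))) := rfl

section Local

variable (K : IntermediateField ℚ Qbar) [NumberField K] (g : GalQ)

omit [NumberField K] in
theorem mem_locField_iff_smul (z : PadicAlgCl q) :
    z ∈ locField q (twistEmb q K g) ↔
      ∀ d ∈ locGroup q K.fixingSubgroup g, (d : GalLoc q) z = z := by
  have : IsGalois ℚ_[q] (PadicAlgCl q) := IsAlgClosure.isGalois ℚ_[q] (PadicAlgCl q)
  rw [locGroup, twisted_eq_fixingSubgroup]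
  exact ⟨fun h d hd => (IntermediateField.mem_fixingSubgroup_iff _ d).1 hd z h, fun h =>
    (InfiniteGalois.fixedField_fixingSubgroup (locField q (twistEmb q K g))).le fun d => h d d.2⟩

theorem ok_locGroup : (galLevels ℚ_[q] (PadicAlgCl q)).ok (locGroup q K.fixingSubgroup g) :=
  Coh.ok_twisted (compat_localGaloisToGlobal q) (galLevels_ok_fixingSubgroup K) g

/-- The kernel of the local Kummer class consists of the local `p`-th powers. -/
theorem locKummer_eq_zero_iff (x : Kˣ) :
    locKummer p q K g (Additive.ofMul x) = 0 ↔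
      x ∈ Global.localPow (placeOf q (twistEmb q K g)) p := by
  have hp : p.Prime := Fact.out
  rw [mem_localPow_placeOf_iff q hp, locKummer_apply, kummer_eq_zero_iff hp.pos]
  constructor
  · rintro ⟨y, hy⟩
    refine ⟨(((y : Lx (PadicAlgCl q)).toMul : (PadicAlgCl q)ˣ) : PadicAlgCl q),
      (mem_locField_iff_smul q K g _).2 fun d hd => ?_, ?_⟩
    · exact congrArg (fun w : Lx (PadicAlgCl q) => ((w.toMul : (PadicAlgCl q)ˣ) : PadicAlgCl q))
        (y.2 ⟨d, hd⟩)
    · have h := congrArg (fun w : Coh.inv (locGroup q K.fixingSubgroup g) (Lx (PadicAlgCl q)) =>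
        ((((w : Lx (PadicAlgCl q))).toMul : (PadicAlgCl q)ˣ) : PadicAlgCl q)) hy
      rw [AddSubgroup.coe_nsmul, toMul_nsmul, Units.val_pow_eq_pow_val] at h
      exact h
  · rintro ⟨z, hz, hzp⟩
    have hz0 : z ≠ 0 := fun h => by
      rw [h, zero_pow hp.ne_zero, eq_comm, map_eq_zero] at hzp
      exact x.ne_zero hzp
    refine ⟨⟨Additive.ofMul (Units.mk0 z hz0), fun d => Additive.toMul.injective (Units.ext
      ((mem_locField_iff_smul q K g z).1 hz d d.2))⟩,
      Subtype.ext (Additive.toMul.injective (Units.ext ?_))⟩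
    rw [AddSubgroup.coe_nsmul, toMul_nsmul, Units.val_pow_eq_pow_val]
    exact hzp

/-- Every local class comes from `K`. -/
theorem locKummer_surjective : Function.Surjective (locKummer p q K g) := by
  have hp : p.Prime := Fact.out
  intro c
  obtain ⟨a, rfl⟩ := kummer_surjective hp.pos _ (ok_locGroup q K g) c
  set z := (((a : Lx (PadicAlgCl q)).toMul : (PadicAlgCl q)ˣ) : PadicAlgCl q)
  have hz : z ∈ locField q (twistEmb q K g) := (mem_locField_iff_smul q K g z).2 fun d hd =>
    congrArg (fun w : Lx (PadicAlgCl q) => ((w.toMul : (PadicAlgCl q)ˣ) : PadicAlgCl q))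
      (a.2 ⟨d, hd⟩)
  have hz0 : z ≠ 0 := (a : Lx (PadicAlgCl q)).toMul.ne_zero
  obtain ⟨x, w, hw, hzw⟩ := exists_mul_pow_eq q hp (twistEmb q K g) hz hz0
  have hw0 : w ≠ 0 := fun h => hz0 (by rw [hzw, h, zero_pow hp.ne_zero, mul_zero])
  let b : Coh.inv (locGroup q K.fixingSubgroup g) (Lx (PadicAlgCl q)) :=
    ⟨Additive.ofMul (Units.mk0 w hw0), fun d => Additive.toMul.injective (Units.ext
      ((mem_locField_iff_smul q K g w).1 hw d d.2))⟩
  refine ⟨Additive.ofMul x, ?_⟩
  have ha : a = locInv q g (globalUnit K (Additive.ofMul x)) + p • b := by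
    refine Subtype.ext (Additive.toMul.injective (Units.ext ?_))
    rw [AddSubgroup.coe_add, AddSubgroup.coe_nsmul, toMul_add, toMul_nsmul, Units.val_mul,
      Units.val_pow_eq_pow_val]
    exact hzw
  rw [locKummer_apply, ha, map_add, (kummer_eq_zero_iff hp.pos (x := p • b)).2 ⟨b, rfl⟩, add_zero]

/-- The number of local classes. -/
theorem card_H1μ_locGroup :
    Nat.card (H1μ p (locGroup q K.fixingSubgroup g)) =
      (Global.localPow (placeOf q (twistEmb q K g)) p).index := by
  have hker : (locKummer p q K g).ker =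
      Subgroup.toAddSubgroup (Global.localPow (placeOf q (twistEmb q K g)) p) := by
    ext a
    exact locKummer_eq_zero_iff q K g a.toMul
  rw [← AddSubgroup.card_top (G := H1μ p (locGroup q K.fixingSubgroup g)),
    ← AddMonoidHom.range_eq_top_of_surjective _ (locKummer_surjective q K g),
    ← AddSubgroup.index_ker, hker, Subgroup.index_toAddSubgroup]

end Local

section Index

omit [Fact p.Prime] q [Fact q.Prime] in
theorem eq_of_natCast_mem {K : Type} [Field K] [NumberField K] {r r' : ℕ} (hr : r.Prime)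
    (hr' : r'.Prime) {v : HeightOneSpectrum (𝓞 K)}
    (h : (r : 𝓞 K) ∈ v.asIdeal) (h' : (r' : 𝓞 K) ∈ v.asIdeal) : r = r' := by
  by_contra hne
  obtain ⟨a, b, hab⟩ := Nat.isCoprime_iff_coprime.2 ((Nat.coprime_primes hr hr').2 hne)
  refine v.isPrime.ne_top ((Ideal.eq_top_iff_one _).2 ?_)
  have h1 := v.asIdeal.add_mem (v.asIdeal.mul_mem_left (a : 𝓞 K) h)
    (v.asIdeal.mul_mem_left (b : 𝓞 K) h')
  have h2 := congrArg (Int.cast : ℤ → 𝓞 K) hab
  push_cast at h2
  rwa [h2] at h1

variable (K : IntermediateField ℚ Qbar) [NumberField K] {ι : Type} (r : ι → GalQ)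

/-- Distinct double cosets give distinct places. -/
theorem placeOf_reps_injective
    (hr : Function.Bijective (Coh.repsMap (localGaloisToGlobal q) K.fixingSubgroup r)) :
    Function.Injective fun i => placeOf q (twistEmb q K (r i)) := by
  intro i j h
  obtain ⟨d, hd⟩ := (placeOf_twistEmb_eq_iff q K _ _).1 h
  set φ := localGaloisToGlobal q
  obtain ⟨s, hs⟩ := QuotientGroup.mk_out_eq_mul (Coh.twisted φ (r i) K.fixingSubgroup) 1
  obtain ⟨t, ht⟩ := QuotientGroup.mk_out_eq_mul (Coh.twisted φ (r j) K.fixingSubgroup) d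
  have key : Coh.repsMap φ K.fixingSubgroup r ⟨i, ((1 : GalLoc q) : _ ⧸ _)⟩ =
      Coh.repsMap φ K.fixingSubgroup r ⟨j, (d : _ ⧸ _)⟩ := by
    show ((φ (((1 : GalLoc q) : _ ⧸ Coh.twisted φ (r i) K.fixingSubgroup)).out * r i : GalQ) :
        GalQ ⧸ K.fixingSubgroup) =
      ((φ ((d : GalLoc q ⧸ Coh.twisted φ (r j) K.fixingSubgroup)).out * r j : GalQ) :
        GalQ ⧸ K.fixingSubgroup)
    rw [hs, ht, one_mul, map_mul, QuotientGroup.eq]
    have h1 := Coh.mem_twisted.1 (inv_mem s.2)
    have h2 := Coh.mem_twisted.1 t.2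
    have h3 := mul_mem (mul_mem h1 hd) h2
    simpa [mul_assoc] using h3
  exact congrArg Sigma.fst (hr.1 key)

/-- The double cosets exhaust the places. -/
theorem exists_reps_eq [FiniteDimensional ℚ K]
    (hr : Function.Bijective (Coh.repsMap (localGaloisToGlobal q) K.fixingSubgroup r))
    (v : HeightOneSpectrum (𝓞 K)) (hv : (q : 𝓞 K) ∈ v.asIdeal) :
    ∃ i, placeOf q (twistEmb q K (r i)) = v := by
  obtain ⟨τ, rfl⟩ := exists_placeOf_eq q v hv
  obtain ⟨g, rfl⟩ := exists_twistEmb_eq q K τ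
  obtain ⟨⟨i, c⟩, hc⟩ := hr.2 (g : GalQ ⧸ K.fixingSubgroup)
  refine ⟨i, ((placeOf_twistEmb_eq_iff q K g _).2 ⟨c.out, ?_⟩).symm⟩
  have h := QuotientGroup.eq.1 hc.symm
  simpa [mul_assoc] using h

end Index

section Over

attribute [local instance] placePrime

variable (K : IntermediateField ℚ Qbar) [FiniteDimensional ℚ K] [NumberField K]
  {S : Finset Nat.Primes} (hH : (galLevels ℚ Qbar).ok K.fixingSubgroup)

/-- The place of an index. -/
def idxPlace (i : PlaceIdx S K.fixingSubgroup hH) : HeightOneSpectrum (𝓞 K) :=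
  placeOf (placeP hH i) (twistEmb (placeP hH i) K (placeG hH i))

omit [FiniteDimensional ℚ ↥K] in
theorem idxPlace_injective : Function.Injective (idxPlace K hH (S := S)) := by
  rintro ⟨r, i⟩ ⟨r', j⟩ h
  change placeOf (r.1 : ℕ) (twistEmb (r.1 : ℕ) K (placeRep S _ hH r i)) =
    placeOf (r'.1 : ℕ) (twistEmb (r'.1 : ℕ) K (placeRep S _ hH r' j)) at h
  have h1 := natCast_mem_placeOf (r.1 : ℕ) (twistEmb (r.1 : ℕ) K (placeRep S _ hH r i))
  have h2 := natCast_mem_placeOf (r'.1 : ℕ) (twistEmb (r'.1 : ℕ) K (placeRep S _ hH r' j))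
  rw [h] at h1
  obtain rfl : r = r' := Subtype.ext (Subtype.ext (eq_of_natCast_mem r.1.2 r'.1.2 h1 h2))
  obtain rfl : i = j :=
    placeOf_reps_injective (r.1 : ℕ) K _ (placeRep_bijective S _ hH r) h
  rfl

variable (S) in
open Classical in
/-- The places of `K` over `S`. -/
def placesS : Finset (HeightOneSpectrum (𝓞 K)) := Finset.univ.image (idxPlace K hH (S := S))

theorem mem_placesS {v : HeightOneSpectrum (𝓞 K)} :
    v ∈ placesS K S hH ↔ ∃ r ∈ S, ((r : ℕ) : 𝓞 K) ∈ v.asIdeal := by
  classical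
  rw [placesS, Finset.mem_image]
  constructor
  · rintro ⟨i, -, rfl⟩
    exact ⟨i.1.1, i.1.2, natCast_mem_placeOf _ _⟩
  · rintro ⟨r, hr, h⟩
    have : Fact (r : ℕ).Prime := ⟨r.2⟩
    obtain ⟨i, hi⟩ :=
      exists_reps_eq (r : ℕ) K _ (placeRep_bijective S _ hH ⟨r, hr⟩) v h
    exact ⟨⟨⟨r, hr⟩, i⟩, Finset.mem_univ _, hi⟩

theorem valuation_natCast_eq_one_of_notMem (hpS : (⟨p, Fact.out⟩ : Nat.Primes) ∈ S)
    {v : HeightOneSpectrum (𝓞 K)} (hv : v ∉ placesS K S hH) : v.valuation K (p : K) = 1 := by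
  rw [← map_natCast (algebraMap (𝓞 K) K), v.valuation_eq_one_iff_notMem]
  exact fun h => hv ((mem_placesS K hH).2 ⟨_, hpS, h⟩)

theorem placesS_mono {T : Finset Nat.Primes} (h : S ⊆ T) : placesS K S hH ⊆ placesS K T hH :=
  fun v hv => by
    obtain ⟨r, hr, hrv⟩ := (mem_placesS K hH).1 hv
    exact (mem_placesS K hH).2 ⟨r, h hr, hrv⟩

/-- The total number of local classes over `S`. -/
theorem card_locV {ζ : K} (hζ : IsPrimitiveRoot ζ p) (hpS : (⟨p, Fact.out⟩ : Nat.Primes) ∈ S) :
    Nat.card (LocV p hH (S := S)) = p ^ (2 * (placesS K S hH).card + Module.finrank ℚ K) := by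
  classical
  rw [Nat.card_pi, ← Global.prod_index_localPow (Fact.out : p.Prime) hζ (placesS K S hH)
    fun v hv => valuation_natCast_eq_one_of_notMem K hH hpS hv,
    Finset.univ_eq_attach (placesS K S hH),
    Finset.prod_attach (placesS K S hH) fun v => (Global.localPow v p).index, placesS,
    Finset.prod_image fun i _ j _ h => idxPlace_injective K hH h]
  exact Finset.prod_congr rfl fun i _ => card_H1μ_locGroup (placeP hH i) K (placeG hH i)

/-- Big sets of primes exist. -/
theorem exists_sPrincipal_placesS :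
    ∃ T : Finset Nat.Primes, Global.SPrincipal K (placesS K T hH) := by
  classical
  obtain ⟨U, hU⟩ := Global.exists_sPrincipal K
  choose r hr hrv using fun v : HeightOneSpectrum (𝓞 K) => exists_prime_natCast_mem v
  exact ⟨U.image fun v => ⟨r v, hr v⟩, Global.SPrincipal.mono K hU fun v hv =>
    (mem_placesS K hH).2 ⟨⟨r v, hr v⟩, Finset.mem_image.2 ⟨v, hv, rfl⟩, hrv v⟩⟩

end Over

end Fermat.Agent.Duality.Places

end
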