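import Fermat.Agent.Duality.Places.Norm
import Fermat.Agent.Duality.Global.LocalClasses

/-!
# `localPow` is the preimage of the `p`-th powers of the local field
-/

set_option autoImplicit false

open IntermediateField IsDedekindDomain WithZero
open NumberField

namespace Fermat.Agent.Duality.Places

variable (q : ℕ) [Fact q.Prime]

local notation "Ω" => PadicAlgCl q

variable {K : Type} [Field K] [NumberField K]

theorem mem_localPow_placeOf_iff {p : ℕ} (hp : p.Prime) (τ : K →ₐ[ℚ] Ω) (x : Kˣ) :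
    x ∈ Global.localPow (placeOf q τ) p ↔ ∃ z ∈ locField q τ, z ^ p = τ x := by
  rw [← mem_locField_pow_iff q hp τ x, Global.localPow, Subgroup.mem_iInf]
  constructor
  · intro h n
    obtain ⟨_, ⟨y, rfl⟩, c, hc, e⟩ := Subgroup.mem_sup.1 (h n)
    refine ⟨y, ?_⟩
    have he : (x : K) / (y : K) ^ p = (c : K) := by
      rw [← e, Units.val_mul, powMonoidHom_apply, Units.val_pow_eq_pow_val,
        mul_div_cancel_left₀ _ (pow_ne_zero _ y.ne_zero)]
    rw [he]
    exact hc.2
  · intro h n
    obtain ⟨y, hy⟩ := h (n + 1)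
    refine Subgroup.mem_sup.2 ⟨y ^ p, ⟨y, rfl⟩, x / y ^ p,
      Global.congrOne_antitone _ (Nat.le_succ n)
        (Global.mem_congrOne_of_close _ (Nat.succ_ne_zero n) ?_),
      mul_div_cancel _ _⟩
    rw [Units.val_div_eq_div_val, Units.val_pow_eq_pow_val]
    exact hy

/-- Every class of the local field modulo `p`-th powers comes from the number field. -/
theorem exists_mul_pow_eq {p : ℕ} (hp : p.Prime) (τ : K →ₐ[ℚ] Ω) {z : Ω} (hz : z ∈ locField q τ)
    (hz0 : z ≠ 0) : ∃ x : Kˣ, ∃ w ∈ locField q τ, z = τ x * w ^ p := by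
  obtain ⟨δ, hδ, hpow⟩ := exists_pow_eq_of_norm_sub_one_lt q hp
  have hf : ContinuousAt (fun w : Ω => z / w - 1) z :=
    (continuousAt_const.div continuousAt_id hz0).sub continuousAt_const
  obtain ⟨δ', hδ', h'⟩ := Metric.continuousAt_iff.1 hf δ hδ
  obtain ⟨t, ht⟩ := exists_apply_norm_sub_lt q τ hz (lt_min hδ' (norm_pos_iff.2 hz0))
  have ht0 : t ≠ 0 := fun h => by
    rw [h, map_zero, sub_zero] at ht
    exact absurd (ht.trans_le (min_le_right _ _)) (lt_irrefl _)
  have h2 := h' (x := τ t) (by rw [dist_eq_norm, norm_sub_rev]; exact ht.trans_le (min_le_left _ _))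
  rw [dist_eq_norm, div_self hz0, sub_self, sub_zero] at h2
  obtain ⟨w, hw, hwp⟩ := hpow (locField q τ) _ (div_mem hz (mem_locField q τ t)) h2
  exact ⟨Units.mk0 t ht0, w, hw, by rw [hwp, Units.val_mk0, mul_div_cancel₀ _ (by simpa using ht0)]⟩

end Fermat.Agent.Duality.Places
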