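import Fermat.Agent.Duality.Places.Adic
import Fermat.Agent.Duality.Global.Places

/-!
# Local norms and local powers, adically and inside `PadicAlgCl q`
-/

set_option autoImplicit false

open IntermediateField IsDedekindDomain WithZero
open NumberField
open scoped Pointwise Topology

namespace Fermat.Agent.Duality.Places

variable (q : ℕ) [Fact q.Prime]

local notation "Ω" => PadicAlgCl q

variable {K : Type} [Field K] [NumberField K]

theorem mem_locField (τ : K →ₐ[ℚ] Ω) (x : K) : τ x ∈ locField q τ :=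
  subset_adjoin _ _ (Set.mem_range_self x)

/-- The image of a number field is dense in its local field. -/
theorem locField_subset_closure (τ : K →ₐ[ℚ] Ω) :
    (locField q τ : Set Ω) ⊆ closure (Set.range τ) := by
  let R : Subring Ω := τ.range.toSubring.topologicalClosure
  have hR : (R : Set Ω) = closure (Set.range τ) := rfl
  have hconst : ∀ c : ℚ_[q], algebraMap ℚ_[q] Ω c ∈ R := by
    intro c
    show algebraMap ℚ_[q] Ω c ∈ (R : Set Ω)
    rw [hR]
    have hc : c ∈ closure (Set.range (Rat.cast : ℚ → ℚ_[q])) := Padic.denseRange_ratCast q c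
    refine (map_mem_closure (f := algebraMap ℚ_[q] Ω) (continuous_algebraMap _ _) hc ?_)
    rintro _ ⟨r, rfl⟩
    exact ⟨(r : K), by rw [map_ratCast, map_ratCast]⟩
  intro x hx
  have hx' : x ∈ Algebra.adjoin ℚ_[q] (Set.range τ) := by
    rw [← adjoin_toSubalgebra_of_isAlgebraic fun y _ => Algebra.IsAlgebraic.isAlgebraic y]
    exact hx
  rw [← hR]
  refine Algebra.adjoin_induction (p := fun y _ => y ∈ R) ?_ hconst
    (fun y z _ _ => R.add_mem) (fun y z _ _ => R.mul_mem) hx'
  exact fun y hy => subset_closure hy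

theorem exists_apply_norm_sub_lt (τ : K →ₐ[ℚ] Ω) {z : Ω} (hz : z ∈ locField q τ) {ε : ℝ}
    (hε : 0 < ε) : ∃ t : K, ‖z - τ t‖ < ε := by
  obtain ⟨_, ⟨t, rfl⟩, h⟩ := Metric.mem_closure_iff.1 (locField_subset_closure q τ hz) ε hε
  exact ⟨t, by rwa [dist_eq_norm] at h⟩

theorem isometry_galLoc (g : GalLoc q) : Isometry fun w : Ω => g w := by
  refine Isometry.of_dist_eq fun a b => ?_
  rw [dist_eq_norm, dist_eq_norm, ← map_sub, ← coe_nnnorm, nnnorm_padicAlgCl_algEquiv, coe_nnnorm]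

theorem continuous_galLoc (g : GalLoc q) : Continuous fun w : Ω => g w :=
  (isometry_galLoc q g).continuous

/-- `x` is locally a `p`-th power adically iff it is one in the local field. -/
theorem mem_locField_pow_iff {p : ℕ} (hp : p.Prime) (τ : K →ₐ[ℚ] Ω) (x : Kˣ) :
    (∀ n : ℕ, ∃ y : Kˣ, (placeOf q τ).valuation K ((x : K) / (y : K) ^ p - 1) ≤ exp (-(n : ℤ))) ↔
      ∃ z ∈ locField q τ, z ^ p = τ x := by
  have hx0 : τ (x : K) ≠ 0 := by simp
  constructor
  · intro h
    obtain ⟨δ, hδ, hpow⟩ := exists_pow_eq_of_norm_sub_one_lt q hp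
    obtain ⟨n, hn⟩ := exists_norm_lt_of_valuation_le q τ hδ
    obtain ⟨y, hy⟩ := h n
    have h1 := hn _ hy
    rw [map_sub, map_div₀, map_pow, map_one] at h1
    obtain ⟨w, hw, hwp⟩ := hpow (locField q τ) _
      (div_mem (mem_locField q τ x) (pow_mem (mem_locField q τ y) p)) h1
    exact ⟨w * τ y, mul_mem hw (mem_locField q τ y), by
      rw [mul_pow, hwp, div_mul_cancel₀ _ (pow_ne_zero _ (by simp))]⟩
  · rintro ⟨z, hz, hzp⟩ n
    obtain ⟨ε, hε, hε'⟩ := exists_valuation_le_of_norm_lt q τ n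
    have hz0 : z ≠ 0 := fun h => hx0 (by rw [← hzp, h, zero_pow hp.ne_zero])
    have hf : ContinuousAt (fun w : Ω => τ (x : K) / w ^ p - 1) z :=
      ((continuousAt_const.div (continuousAt_id.pow p) (pow_ne_zero _ hz0)).sub continuousAt_const)
    obtain ⟨δ, hδ, hδ'⟩ := Metric.continuousAt_iff.1 hf ε hε
    obtain ⟨t, ht⟩ := exists_apply_norm_sub_lt q τ hz
      (lt_min hδ (norm_pos_iff.2 hz0) : (0 : ℝ) < min δ ‖z‖)
    have ht0 : t ≠ 0 := fun h => by
      rw [h, map_zero, sub_zero] at ht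
      exact absurd (ht.trans_le (min_le_right _ _)) (lt_irrefl _)
    refine ⟨Units.mk0 t ht0, hε' _ ?_⟩
    have h2 := hδ' (x := τ t) (by
      rw [dist_eq_norm, norm_sub_rev]; exact ht.trans_le (min_le_left _ _))
    rw [dist_eq_norm, hzp, div_self hx0, sub_self, sub_zero] at h2
    rwa [Units.val_mk0, map_sub, map_div₀, map_pow, map_one]

variable {L : Type} [Field L] [NumberField L] [Algebra K L] [IsGalois K L]

/-- Extensions of an embedding differ by Galois automorphisms. -/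
theorem exists_aut_comp_eq (τ τ' : L →ₐ[ℚ] Ω)
    (h : ∀ x : K, τ' (algebraMap K L x) = τ (algebraMap K L x)) :
    ∃ σ : L ≃ₐ[K] L, ∀ y, τ' y = τ (σ y) := by
  let : Algebra K Ω := (τ.comp (IsScalarTower.toAlgHom ℚ K L)).toRingHom.toAlgebra
  let T : (L ≃ₐ[K] L) → (L →ₐ[K] Ω) := fun σ =>
    { τ.toRingHom.comp (σ : L →+* L) with
      commutes' := fun x => congrArg τ (σ.commutes x) }
  have hT : Function.Injective T := fun σ σ' hh =>
    AlgEquiv.ext fun y => τ.toRingHom.injective (AlgHom.congr_fun hh y)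
  have hc : Fintype.card (L ≃ₐ[K] L) = Fintype.card (L →ₐ[K] Ω) := by
    rw [AlgHom.card, ← IsGalois.card_aut_eq_finrank K L, Nat.card_eq_fintype_card]
  obtain ⟨σ, hσ⟩ := ((Fintype.bijective_iff_injective_and_card T).2 ⟨hT, hc⟩).2
    { τ'.toRingHom with commutes' := fun x => h x }
  exact ⟨σ, fun y => (AlgHom.congr_fun hσ y).symm⟩

/-- The local field does not grow: every element is a local norm. -/
theorem exists_norm_near_of_locField_le (τ : L →ₐ[ℚ] Ω)
    (hle : locField q τ ≤ locField q (τ.comp (IsScalarTower.toAlgHom ℚ K L))) (x : Kˣ) (n : ℕ) :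
    ∃ y : Lˣ, (placeOf q (τ.comp (IsScalarTower.toAlgHom ℚ K L))).valuation K
      ((x : K) / Algebra.norm K (y : L) - 1) ≤ exp (-(n : ℤ)) := by
  classical
  set τK := τ.comp (IsScalarTower.toAlgHom ℚ K L)
  let τs : (L ≃ₐ[K] L) → (L →ₐ[ℚ] Ω) := fun σ => τ.comp (σ.toAlgHom.restrictScalars ℚ)
  have hdist : ∀ σ, placeOf q (τs σ) = placeOf q τ → σ = 1 := by
    intro σ hσ
    obtain ⟨g, hg⟩ := exists_comp_eq_of_placeOf_eq q hσ.symm
    refine AlgEquiv.ext fun y => τ.toRingHom.injective ?_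
    have hK : locField q τK ≤ fixedField (Subgroup.zpowers g) := by
      rw [locField, adjoin_le_iff]
      rintro _ ⟨a, rfl⟩ ⟨_, m, rfl⟩
      show (g ^ m) (τK a) = τK a
      refine MulAction.mem_stabilizer_iff.1
        (zpow_mem (K := MulAction.stabilizer (Ω ≃ₐ[ℚ_[q]] Ω) (τK a)) ?_ m)
      exact (hg (algebraMap K L a)).trans (congrArg τ (σ.commutes a))
    have := hK (hle (mem_locField q τ y)) ⟨g, Subgroup.mem_zpowers g⟩
    exact (hg y).symm.trans this
  obtain ⟨ε, hε, hε'⟩ := exists_valuation_le_of_norm_lt q τK n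
  let tgt : (L ≃ₐ[K] L) → Ω := fun σ => if σ = 1 then τK (x : K) else 1
  have htgt : ∏ σ, tgt σ = τK (x : K) := by simp [tgt]
  have hne : ∀ σ, tgt σ ≠ 0 := fun σ => by by_cases h : σ = 1 <;> simp [tgt, h]
  have hf : ContinuousAt (fun w : (L ≃ₐ[K] L) → Ω => τK (x : K) / ∏ σ, w σ - 1) tgt := by
    refine (continuousAt_const.div ?_ (by rw [htgt]; simp)).sub continuousAt_const
    exact (continuous_finsetProd _ fun σ _ => continuous_apply σ).continuousAt
  obtain ⟨δ, hδ, hδ'⟩ := Metric.continuousAt_iff.1 hf ε hε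
  obtain ⟨m, hm⟩ : ∃ m : ℕ, ∀ σ, ∀ t : L, (placeOf q (τs σ)).valuation L t ≤ exp (-(m : ℤ)) →
      ‖τs σ t‖ < min δ ‖tgt σ‖ := by
    choose k hk using fun σ =>
      exists_norm_lt_of_valuation_le q (τs σ) (lt_min hδ (norm_pos_iff.2 (hne σ)))
    refine ⟨Finset.univ.sup k, fun σ t ht => hk σ t (ht.trans ?_)⟩
    rw [exp_le_exp, neg_le_neg_iff, Int.ofNat_le]
    exact Finset.le_sup (Finset.mem_univ σ)
  obtain ⟨y, hy⟩ := Global.exists_approx (Finset.univ.image fun σ => placeOf q (τs σ)) m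
    fun w => if w = placeOf q τ then algebraMap K L x else 1
  have hclose : ∀ σ, ‖τs σ y - tgt σ‖ < min δ ‖tgt σ‖ := by
    intro σ
    have h1 := hm σ _ (hy (placeOf q (τs σ)) (Finset.mem_image_of_mem _ (Finset.mem_univ σ)))
    have hone : τs (1 : L ≃ₐ[K] L) = τ := AlgHom.ext fun _ => rfl
    by_cases hσ : σ = 1
    · subst hσ
      rw [map_sub, hone, if_pos rfl] at h1
      rw [hone]
      have e : tgt 1 = τ (algebraMap K L x) := by simp [tgt, τK]
      rw [e] at h1 ⊢
      exact h1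
    · rw [map_sub, if_neg (fun h => hσ (hdist σ h)), map_one] at h1
      have e : tgt σ = 1 := by simp [tgt, hσ]
      rw [e] at h1 ⊢
      exact h1
  have hy0 : y ≠ 0 := fun h => by
    have := hclose 1
    rw [h, map_zero, zero_sub, norm_neg] at this
    exact absurd (this.trans_le (min_le_right _ _)) (lt_irrefl _)
  refine ⟨Units.mk0 y hy0, hε' _ ?_⟩
  have h2 := hδ' (x := fun σ => τs σ y) (by
    rw [dist_pi_lt_iff hδ]
    exact fun σ => by rw [dist_eq_norm]; exact (hclose σ).trans_le (min_le_left _ _))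
  rw [dist_eq_norm, htgt, div_self (by simp), sub_self, sub_zero] at h2
  rw [map_sub, map_div₀, map_one, Units.val_mk0]
  have e : τK (Algebra.norm K y) = ∏ σ, τs σ y := by
    show τ (algebraMap K L (Algebra.norm K y)) = _
    rw [Algebra.norm_eq_prod_automorphisms, map_prod]
    rfl
  rw [e]
  exact h2

/-- A norm from the local field is adically a limit of norms. -/
theorem exists_norm_near (τ : L →ₐ[ℚ] Ω) (g : (L ≃ₐ[K] L) → GalLoc q)
    (hg : ∀ σ y, g σ (τ y) = τ (σ y)) (x : Kˣ) {z : Ω} (hz : z ∈ locField q τ)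
    (hxz : τ (algebraMap K L x) = ∏ σ, g σ z) (n : ℕ) :
    ∃ y : Lˣ, (placeOf q (τ.comp (IsScalarTower.toAlgHom ℚ K L))).valuation K
      ((x : K) / Algebra.norm K (y : L) - 1) ≤ exp (-(n : ℤ)) := by
  classical
  set τK := τ.comp (IsScalarTower.toAlgHom ℚ K L)
  have hx0 : τ (algebraMap K L x) ≠ 0 := by simp
  have hz0 : z ≠ 0 := fun h => hx0 (by
    rw [hxz, h]; exact Finset.prod_eq_zero (Finset.mem_univ 1) (map_zero _))
  obtain ⟨ε, hε, hε'⟩ := exists_valuation_le_of_norm_lt q τK n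
  have hf : ContinuousAt (fun w : Ω => τ (algebraMap K L x) / ∏ σ, g σ w - 1) z := by
    refine (continuousAt_const.div ?_ (by rw [← hxz]; exact hx0)).sub continuousAt_const
    exact (continuous_finsetProd _ fun σ _ => continuous_galLoc q (g σ)).continuousAt
  obtain ⟨δ, hδ, hδ'⟩ := Metric.continuousAt_iff.1 hf ε hε
  obtain ⟨t, ht⟩ := exists_apply_norm_sub_lt q τ hz (lt_min hδ (norm_pos_iff.2 hz0))
  have ht0 : t ≠ 0 := fun h => by
    rw [h, map_zero, sub_zero] at ht
    exact absurd (ht.trans_le (min_le_right _ _)) (lt_irrefl _)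
  refine ⟨Units.mk0 t ht0, hε' _ ?_⟩
  have h2 := hδ' (x := τ t) (by
    rw [dist_eq_norm, norm_sub_rev]; exact ht.trans_le (min_le_left _ _))
  rw [dist_eq_norm, ← hxz, div_self hx0, sub_self, sub_zero] at h2
  rw [map_sub, map_div₀, map_one, Units.val_mk0]
  have e : τK (Algebra.norm K t) = ∏ σ, g σ (τ t) := by
    show τ (algebraMap K L (Algebra.norm K t)) = _
    rw [Algebra.norm_eq_prod_automorphisms, map_prod]
    exact Finset.prod_congr rfl fun σ _ => (hg σ t).symm
  rw [e]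
  exact h2

/-- If the local field grows then every automorphism is induced locally. -/
theorem exists_local_aut (hp : (Module.finrank K L).Prime) (τ : L →ₐ[ℚ] Ω)
    (hne : ¬ locField q τ ≤ locField q (τ.comp (IsScalarTower.toAlgHom ℚ K L))) :
    ∀ σ : L ≃ₐ[K] L, ∃ g ∈ (locField q (τ.comp (IsScalarTower.toAlgHom ℚ K L))).fixingSubgroup,
      ∀ y, g (τ y) = τ (σ y) := by
  set F := locField q (τ.comp (IsScalarTower.toAlgHom ℚ K L))
  let S : Subgroup (L ≃ₐ[K] L) :=
    { carrier := {σ | ∃ g ∈ F.fixingSubgroup, ∀ y, g (τ y) = τ (σ y)}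
      one_mem' := ⟨1, one_mem _, fun _ => rfl⟩
      mul_mem' := fun {a b} ⟨g, hg, h⟩ ⟨g', hg', h'⟩ =>
        ⟨g * g', mul_mem hg hg', fun y => by rw [AlgEquiv.mul_apply, h', h]; rfl⟩
      inv_mem' := fun {a} ⟨g, hg, h⟩ => ⟨g⁻¹, inv_mem hg, fun y => by
        apply g.injective
        rw [h, AlgEquiv.aut_inv, AlgEquiv.apply_symm_apply, AlgEquiv.aut_inv,
          AlgEquiv.apply_symm_apply]⟩ }
  have hcard : (Nat.card (L ≃ₐ[K] L)).Prime := by rwa [IsGalois.card_aut_eq_finrank]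
  have := Fact.mk hcard
  rcases Subgroup.eq_bot_or_eq_top_of_prime_card S with h | h
  · exfalso
    refine hne fun z hz => ?_
    have : IsGalois ℚ_[q] Ω := IsAlgClosure.isGalois ℚ_[q] Ω
    rw [← InfiniteGalois.fixedField_fixingSubgroup F]
    rintro ⟨g, hg⟩
    have hfix : locField q τ ≤ fixedField (Subgroup.zpowers g) := by
      rw [locField, adjoin_le_iff]
      rintro _ ⟨a, rfl⟩ ⟨_, m, rfl⟩
      show (g ^ m) (τ a) = τ a
      refine MulAction.mem_stabilizer_iff.1
        (zpow_mem (K := MulAction.stabilizer (Ω ≃ₐ[ℚ_[q]] Ω) (τ a)) ?_ m)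
      show g (τ a) = τ a
      obtain ⟨σ, hσ⟩ := exists_aut_comp_eq (K := K) q τ
        (((g : Ω →ₐ[ℚ_[q]] Ω).restrictScalars ℚ).comp τ) (fun x =>
          (mem_fixingSubgroup_iff _ g).1 hg _ (mem_locField q _ x))
      have hmem : σ ∈ S := ⟨g, hg, fun y => hσ y⟩
      rw [h, Subgroup.mem_bot] at hmem
      have h3 := hσ a
      rw [hmem] at h3
      exact h3
    exact hfix hz ⟨g, Subgroup.mem_zpowers g⟩
  · intro σ
    have : σ ∈ S := by rw [h]; exact Subgroup.mem_top σ
    exact this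

end Fermat.Agent.Duality.Places
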