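import Fermat.Agent.Duality.Places.FiniteSupport
import Fermat.Agent.Duality.Places.HasseBrauer
import Fermat.Agent.Duality.Places.AuxPrime
import Fermat.Agent.Duality.Places.LocalSymbol
import Fermat.Agent.Duality.Global.HasseNorm

/-!
# Reciprocity for `H²(ℚ, μ_p)`

No class lives at a single prime, any two primes carry a class; the invariants normalised at `p`
therefore sum to zero.
-/

set_option autoImplicit false

noncomputable section

namespace Fermat.Agent.Duality.Places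

variable {p : ℕ} [Fact p.Prime]

instance fact_prime_natPrimes (r : Nat.Primes) : Fact (r : ℕ).Prime := ⟨r.2⟩

/-- The Hasse norm theorem in the form used here. -/
theorem hasseNorm (hp2 : p ≠ 2) : HasseNorm p := by
  intro K L _ _ _ _ _ _ hdeg ⟨z, hz⟩ x hx
  obtain ⟨y, hy⟩ := Global.hasse_norm (Fact.out : p.Prime) hp2 hdeg hz hx
  exact ⟨y, congrArg Units.val hy⟩

variable (p) in
/-- The local groups are cyclic of order `p`. -/
def LocalIso : Prop :=
  ∀ (r : ℕ) [Fact r.Prime], Nonempty (H2μ p (locBase r) ≃+ ZMod p)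

section Tools

/-- A `p`-th power residue `q ^ v` of a non-residue `q` has `p ∣ v`. -/
theorem dvd_of_pow_eq_pow {K : Type} [Field K] {q y : K} {v : ℕ} (hq0 : q ≠ 0)
    (hq : ∀ z : K, z ^ p ≠ q) (h : y ^ p = q ^ v) : p ∣ v := by
  by_contra hv
  obtain ⟨a, ha⟩ : ∃ a : ℕ, v * a % p = 1 := by
    obtain ⟨a, ha⟩ := Nat.exists_mul_mod_eq_one_of_coprime
      (((Fact.out : p.Prime).coprime_iff_not_dvd).2 hv).symm (Fact.out : p.Prime).one_lt
    exact ⟨a, ha.2⟩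
  refine hq (y ^ a / q ^ (v * a / p)) ?_
  rw [div_pow, div_eq_iff (pow_ne_zero _ (pow_ne_zero _ hq0)), ← pow_mul, ← pow_mul, mul_comm a p,
    pow_mul, h, ← pow_mul, ← pow_succ', ← ha]
  congr 1
  rw [add_comm, mul_comm (v * a / p) p, Nat.mod_add_div]

omit [Fact (Nat.Prime p)] in
theorem exists_pow_eq_natCast {ℓ m : ℕ} (hm : m ≠ 0)
    (h : ∀ r : ℕ, r.Prime → r ∣ m → (∃ y : ZMod ℓ, y ^ p = (r : ZMod ℓ)) ∨ p ∣ padicValNat r m) :
    ∃ y : ZMod ℓ, y ^ p = (m : ZMod ℓ) := by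
  have h1 : (∏ r ∈ m.primeFactors, (r : ZMod ℓ) ^ padicValNat r m) ∈
      MonoidHom.mrange (powMonoidHom p : ZMod ℓ →* ZMod ℓ) := prod_mem fun r hr => by
    rcases h r (Nat.prime_of_mem_primeFactors hr) (Nat.dvd_of_mem_primeFactors hr) with
      ⟨y, hy⟩ | ⟨k, hk⟩
    · exact pow_mem (show (r : ZMod ℓ) ∈ MonoidHom.mrange (powMonoidHom p : ZMod ℓ →* ZMod ℓ)
        from ⟨y, hy⟩) _
    · refine ⟨(r : ZMod ℓ) ^ k, ?_⟩
      rw [powMonoidHom_apply, ← pow_mul, hk, mul_comm]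
  have h2 : (∏ r ∈ m.primeFactors, (r : ZMod ℓ) ^ padicValNat r m) = (m : ZMod ℓ) := by
    conv_rhs => rw [← Nat.prod_factorization_pow_eq_self hm]
    rw [Finsupp.prod, Nat.cast_prod, Nat.support_factorization]
    refine Finset.prod_congr rfl fun r hr => ?_
    rw [Nat.cast_pow, Nat.factorization_def m (Nat.prime_of_mem_primeFactors hr)]
  obtain ⟨y, hy⟩ := h1
  exact ⟨y, hy.trans h2⟩

theorem resLE₂_cupChi_eq_zero {F L : Type} [Field F] [Field L] [Algebra F L] [IsAlgClosed L]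
    [CharZero L] [Normal F L] {H K : Subgroup (L ≃ₐ[F] L)} (h : K ≤ H) (χ : Char1 p H)
    (hK : ∀ k : K, (χ : H → Zp p) (Subgroup.inclusion h k) = 0) (a : Coh.inv H (Lx L)) :
    resLE₂ h (cupChi χ a) = 0 := by
  rw [resLE₂, map_cupChi _ (RingHom.id L) (fun _ _ => rfl) _ (fun _ => rfl) χ a
    ⟨(a : Lx L), fun k => a.2 (Subgroup.inclusion h k)⟩ (Additive.toMul.injective (Units.ext rfl)),
    show pullChar (compat_inclusion h) χ = 0 from Subtype.ext (funext hK)]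
  simp [cupChi]

variable {ℓ : ℕ} [Fact ℓ.Prime] {χ : GalQ →* Multiplicative (ZMod p)}
  {ψ : (ZMod ℓ)ˣ →* Multiplicative (ZMod p)}

/-- The symbol of the auxiliary character and a natural number. -/
def AuxChar.symbol (hχ : AuxChar p χ ψ) (n : ℕ) (hn : n ≠ 0) : H2μ p (⊤ : Subgroup GalQ) :=
  cupChi (topChar χ hχ.ok_ker) (natInv ⊤ n hn)

theorem AuxChar.symbol_mul (hχ : AuxChar p χ ψ) {a b : ℕ} (ha : a ≠ 0) (hb : b ≠ 0) :
    hχ.symbol (a * b) (mul_ne_zero ha hb) = hχ.symbol a ha + hχ.symbol b hb := by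
  rw [AuxChar.symbol, natInv_mul ⊤ ha hb, map_add]; rfl

theorem AuxChar.symbol_pow (hχ : AuxChar p χ ψ) {a : ℕ} (ha : a ≠ 0) (k : ℕ) :
    hχ.symbol (a ^ k) (pow_ne_zero k ha) = k • hχ.symbol a ha := by
  rw [AuxChar.symbol, natInv_pow ⊤ ha k, map_nsmul]; rfl

theorem AuxChar.baseLoc_symbol_ne_zero (hχ : AuxChar p χ ψ) (r : ℕ) [Fact r.Prime] (hr : r ≠ ℓ)
    (hpow : ∀ y : ZMod ℓ, y ^ p ≠ (r : ZMod ℓ)) :
    baseLoc r (hχ.symbol r (Fact.out : r.Prime).ne_zero) ≠ 0 := fun h => by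
  have h1 := hχ.dvd_padicValNat r hr hpow _ h
  rw [padicValNat_self] at h1
  exact (Fact.out : p.Prime).not_dvd_one h1

theorem exists_nsmul_eq (hI : LocalIso p) {r : ℕ} [Fact r.Prime] (x : H2μ p (locBase r))
    {y : H2μ p (locBase r)} (hy : y ≠ 0) : ∃ k : ℕ, x = k • y := by
  obtain ⟨e⟩ := hI r
  refine ⟨(e x * (e y)⁻¹).val, e.injective ?_⟩
  rw [map_nsmul, nsmul_eq_mul, ZMod.natCast_zmod_val,
    inv_mul_cancel_right₀ ((AddEquiv.map_ne_zero_iff e).2 hy)]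

end Tools

/-- No class over `ℚ` lives at a single prime. -/
theorem eq_zero_of_baseLoc_eq_zero_of_ne (hp2 : p ≠ 2) (hI : LocalIso p) {q₀ : ℕ}
    [Fact q₀.Prime] (x : H2μ p (⊤ : Subgroup GalQ))
    (hx : ∀ (r : ℕ) [Fact r.Prime], r ≠ q₀ → baseLoc r x = 0) : x = 0 := by
  have hq₀ : q₀.Prime := Fact.out
  obtain ⟨ℓ, hℓ, -, hℓq, -, hpℓ, hpow, -⟩ := exists_aux_prime (Fact.out : p.Prime) hq₀ hq₀ ∅
  have := Fact.mk hℓ
  obtain ⟨χ, ψ, hχ⟩ := exists_auxChar p hpℓ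
  set A := hχ.symbol q₀ hq₀.ne_zero
  have hA : baseLoc q₀ A ≠ 0 := hχ.baseLoc_symbol_ne_zero q₀ hℓq.symm hpow
  -- the class splits over the kernel of `χ`
  have hresA : resLE₂ (le_top : χ.ker ≤ ⊤) A = 0 := resLE₂_cupChi_eq_zero _ _ (fun k => by
    show Zp.of (Multiplicative.toAdd (χ (k : GalQ))) = 0
    rw [MonoidHom.mem_ker.1 k.2, toAdd_one, map_zero]) _
  have hres : resLE₂ (le_top : χ.ker ≤ ⊤) x = 0 := by
    refine eq_zero_of_locallyZero (hasseNorm hp2) _ hχ.ok_ker _ fun r _ g => ?_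
    rw [locμ₂_resLE₂ r le_top g x (locGroup_mono r le_top g), locμ₂_top]
    by_cases hr : r = q₀
    · subst hr
      obtain ⟨k, hk⟩ := exists_nsmul_eq hI (baseLoc r x) hA
      rw [hk, map_nsmul, ← locμ₂_top, map_nsmul,
        ← locμ₂_resLE₂ r le_top g A (locGroup_mono r le_top g), hresA, map_zero, nsmul_zero]
    · rw [hx r hr, map_zero, map_zero]
  have htop : (galLevels ℚ Qbar).ok (⊤ : Subgroup GalQ) := (galLevels ℚ Qbar).top_ok
  obtain ⟨a, ha⟩ : ∃ a, cupChi (topChar χ hχ.ok_ker) a = x := by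
    have hker : chiKer (topChar χ hχ.ok_ker) = χ.ker.subgroupOf ⊤ := by
      ext g
      rw [mem_chiKer, topChar_apply, Subgroup.mem_subgroupOf, MonoidHom.mem_ker,
        ← toAdd_eq_zero]
      exact ⟨fun h => Zp.of.injective (h.trans (map_zero Zp.of).symm), fun h => by rw [h, map_zero]⟩
    refine exists_cupChi_eq _ (fun h => ?_) htop x ?_
    · obtain ⟨s, hs⟩ := hχ.surjective (Multiplicative.ofAdd 1)
      have h1 : s ∈ χ.ker := by
        have : (⟨s, Subgroup.mem_top s⟩ : (⊤ : Subgroup GalQ)) ∈ chiKer (topChar χ hχ.ok_ker) := by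
          rw [mem_chiKer, h]; rfl
        rwa [hker] at this
      rw [MonoidHom.mem_ker, hs] at h1
      have : Fact (1 < p) := ⟨(Fact.out : p.Prime).one_lt⟩
      have h2 := congrArg Multiplicative.toAdd h1
      rw [toAdd_one, toAdd_ofAdd] at h2
      exact one_ne_zero h2
    · generalize hN : chiKer (topChar χ hχ.ok_ker) = N
      rw [hker] at hN
      subst hN
      exact res₂_subgroupOf_eq_zero le_top hres
  obtain ⟨n, hn, b, rfl⟩ := exists_natInv_add_nsmul hp2 a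
  rw [map_add, map_nsmul, nsmul_H2μ, add_zero] at ha
  change hχ.symbol n hn = x at ha
  subst ha
  obtain ⟨k, n₁, hℓn₁, rfl⟩ := Nat.exists_eq_pow_mul_and_not_dvd hn ℓ hℓ.ne_one
  obtain ⟨v, m, hqm, rfl⟩ := Nat.exists_eq_pow_mul_and_not_dvd (right_ne_zero_of_mul hn) q₀
    hq₀.ne_one
  have hn₁ : q₀ ^ v * m ≠ 0 := right_ne_zero_of_mul hn
  have hm : m ≠ 0 := right_ne_zero_of_mul hn₁
  rw [hχ.symbol_mul (pow_ne_zero k hℓ.ne_zero) hn₁, hχ.symbol_pow hℓ.ne_zero,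
    hχ.symbol_mul (pow_ne_zero v hq₀.ne_zero) hm, hχ.symbol_pow hq₀.ne_zero] at hx ⊢
  have hv : p ∣ v := by
    have hℓ0 : baseLoc ℓ (hχ.symbol (q₀ ^ v * m) hn₁) = 0 := by
      have h := hx ℓ hℓq
      rw [← hχ.symbol_pow hq₀.ne_zero, ← hχ.symbol_mul (pow_ne_zero v hq₀.ne_zero) hm, map_add,
        map_nsmul, show baseLoc ℓ (hχ.symbol ℓ hℓ.ne_zero) = 0 from hχ.baseLoc_self_eq_zero,
        nsmul_zero, zero_add] at h
      exact h
    obtain ⟨y, hy⟩ := hχ.exists_pow_eq_of_baseLoc hn₁ hℓn₁ hℓ0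
    obtain ⟨z, hz⟩ := exists_pow_eq_natCast (p := p) (ℓ := ℓ) hm fun r hr hrm => by
      have := Fact.mk hr
      by_cases hpr : ∃ y : ZMod ℓ, y ^ p = (r : ZMod ℓ)
      · exact .inl hpr
      push Not at hpr
      refine .inr ?_
      have hrq : r ≠ q₀ := fun h => hqm (h ▸ hrm)
      have hrℓ : r ≠ ℓ := fun h => hℓn₁ ((h ▸ hrm).mul_left _)
      have h := hx r hrq
      rw [map_add, map_add, map_nsmul, map_nsmul,
        show baseLoc r (hχ.symbol ℓ hℓ.ne_zero) = 0 from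
          hχ.baseLoc_eq_zero r hrℓ _ fun h => hrℓ ((Nat.prime_dvd_prime_iff_eq hr hℓ).1 h),
        show baseLoc r (hχ.symbol q₀ hq₀.ne_zero) = 0 from
          hχ.baseLoc_eq_zero r hrℓ _ fun h => hrq ((Nat.prime_dvd_prime_iff_eq hr hq₀).1 h),
        nsmul_zero, nsmul_zero, zero_add, zero_add] at h
      exact hχ.dvd_padicValNat r hrℓ hpr hm h
    have hm0 : (m : ZMod ℓ) ≠ 0 := fun h =>
      hℓn₁ (((ZMod.natCast_eq_zero_iff _ _).1 h).mul_left _)
    refine dvd_of_pow_eq_pow (q := (q₀ : ZMod ℓ)) (y := y / z) ?_ hpow ?_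
    · exact fun h => hℓq ((Nat.prime_dvd_prime_iff_eq hℓ hq₀).1
        ((ZMod.natCast_eq_zero_iff _ _).1 h))
    · rw [div_pow, hy, hz, Nat.cast_mul, Nat.cast_pow, mul_div_cancel_right₀ _ hm0]
  have h0 : baseLoc q₀ (k • hχ.symbol ℓ hℓ.ne_zero +
      (v • hχ.symbol q₀ hq₀.ne_zero + hχ.symbol m hm)) = 0 := by
    obtain ⟨c, rfl⟩ := hv
    rw [map_add, map_add, map_nsmul, map_nsmul,
      show baseLoc q₀ (hχ.symbol ℓ hℓ.ne_zero) = 0 from
        hχ.baseLoc_eq_zero q₀ hℓq.symm _ fun h =>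
          hℓq ((Nat.prime_dvd_prime_iff_eq hq₀ hℓ).1 h).symm,
      show baseLoc q₀ (hχ.symbol m hm) = 0 from hχ.baseLoc_eq_zero q₀ hℓq.symm _ hqm,
      mul_comm p c, mul_nsmul', nsmul_H2μ, nsmul_zero, nsmul_zero, add_zero, add_zero]
  refine eq_zero_of_locallyZero (hasseNorm hp2) _ htop _ fun r _ g => ?_
  rw [locμ₂_top]
  by_cases hr : r = q₀
  · subst hr; rw [h0, map_zero]
  · rw [hx r hr, map_zero]

/-- Any two primes carry a class. -/
theorem exists_twoPoint (hI : LocalIso p) {q q₀ : ℕ} [Fact q.Prime] [Fact q₀.Prime]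
    (hne : q ≠ q₀) : ∃ y : H2μ p (⊤ : Subgroup GalQ), baseLoc q y ≠ 0 ∧
      ∀ (r : ℕ) [Fact r.Prime], r ≠ q → r ≠ q₀ → baseLoc r y = 0 := by
  have hq : q.Prime := Fact.out
  have hq₀ : q₀.Prime := Fact.out
  obtain ⟨ℓ, hℓ, -, hℓq, hℓq₀, hpℓ, hpow, hpow₀⟩ :=
    exists_aux_prime (Fact.out : p.Prime) hq hq₀ ∅
  have := Fact.mk hℓ
  obtain ⟨χ, ψ, hχ⟩ := exists_auxChar p hpℓ
  set A := hχ.symbol q hq.ne_zero
  set B := hχ.symbol q₀ hq₀.ne_zero
  have hB : baseLoc ℓ B ≠ 0 := fun h => by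
    obtain ⟨y, hy⟩ := hχ.exists_pow_eq_of_baseLoc hq₀.ne_zero
      (fun hd => hℓq₀ ((Nat.prime_dvd_prime_iff_eq hℓ hq₀).1 hd)) h
    exact hpow₀ y hy
  obtain ⟨k, hk⟩ := exists_nsmul_eq hI (baseLoc ℓ A) hB
  have hzero : ∀ (s : ℕ) (hs : s.Prime) (r : ℕ) [Fact r.Prime], r ≠ ℓ → r ≠ s →
      baseLoc r (hχ.symbol s hs.ne_zero) = 0 := fun s hs r _ h1 h2 =>
    hχ.baseLoc_eq_zero r h1 _ fun h => h2 ((Nat.prime_dvd_prime_iff_eq Fact.out hs).1 h)
  refine ⟨A - k • B, ?_, fun r _ h1 h2 => ?_⟩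
  · rw [map_sub, map_nsmul, hzero q₀ hq₀ q hℓq.symm hne, nsmul_zero, sub_zero]
    exact hχ.baseLoc_symbol_ne_zero q hℓq.symm hpow
  · by_cases hr : r = ℓ
    · subst hr; rw [map_sub, map_nsmul, hk, sub_self]
    · rw [map_sub, map_nsmul, hzero q hq r hr h1, hzero q₀ hq₀ r hr h2, nsmul_zero, sub_zero]

section Invariants

variable (hI : LocalIso p)

/-- Some coordinate on the local group. -/
def locEquiv (r : ℕ) [Fact r.Prime] : H2μ p (locBase r) ≃+ ZMod p := (hI r).some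

/-- A chosen class at `q` and `p`. -/
def twoPoint (q : ℕ) [Fact q.Prime] (hne : q ≠ p) : H2μ p (⊤ : Subgroup GalQ) :=
  (exists_twoPoint hI hne).choose

theorem baseLoc_twoPoint_ne_zero (q : ℕ) [Fact q.Prime] (hne : q ≠ p) :
    baseLoc q (twoPoint hI q hne) ≠ 0 :=
  (exists_twoPoint hI hne).choose_spec.1

theorem baseLoc_twoPoint_eq_zero (q : ℕ) [Fact q.Prime] (hne : q ≠ p) (r : ℕ) [Fact r.Prime]
    (h1 : r ≠ q) (h2 : r ≠ p) : baseLoc r (twoPoint hI q hne) = 0 :=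
  (exists_twoPoint hI hne).choose_spec.2 r h1 h2

/-- The factor comparing the coordinates at `q` and at `p`. -/
def invFactor (q : ℕ) [Fact q.Prime] : ZMod p :=
  if h : q = p then 1
  else -locEquiv hI p (baseLoc p (twoPoint hI q h)) *
    (locEquiv hI q (baseLoc q (twoPoint hI q h)))⁻¹

/-- The local invariants, normalised at `p`. -/
def invLoc (q : ℕ) [Fact q.Prime] : H2μ p (locBase q) →+ ZMod p :=
  (AddMonoidHom.mulLeft (invFactor hI q)).comp (locEquiv hI q).toAddMonoidHom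

theorem invLoc_apply (q : ℕ) [Fact q.Prime] (z : H2μ p (locBase q)) :
    invLoc hI q z = invFactor hI q * locEquiv hI q z := rfl

theorem invFactor_ne_zero (hp2 : p ≠ 2) (q : ℕ) [Fact q.Prime] : invFactor hI q ≠ 0 := by
  rw [invFactor]
  split_ifs with h
  · exact one_ne_zero
  refine mul_ne_zero (neg_ne_zero.2 fun h0 => ?_)
    (inv_ne_zero ((AddEquiv.map_ne_zero_iff _).2 (baseLoc_twoPoint_ne_zero hI q h)))
  rw [AddEquiv.map_eq_zero_iff] at h0
  refine baseLoc_twoPoint_ne_zero hI q h ?_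
  rw [eq_zero_of_baseLoc_eq_zero_of_ne hp2 hI (q₀ := q) (twoPoint hI q h) fun r _ hr => ?_,
    map_zero]
  by_cases hrp : r = p
  · subst hrp; exact h0
  · exact baseLoc_twoPoint_eq_zero hI q h r hr hrp

theorem invLoc_bijective (hp2 : p ≠ 2) (q : ℕ) [Fact q.Prime] :
    Function.Bijective (invLoc hI q) :=
  (mulLeft_bijective₀ _ (invFactor_ne_zero hI hp2 q)).comp (locEquiv hI q).bijective

/-- The invariant at `r` of a class over `ℚ`. -/
def invAt (r : Nat.Primes) : H2μ p (⊤ : Subgroup GalQ) →+ ZMod p :=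
  (invLoc hI r).comp (baseLoc r)

/-- The coefficient of `twoPoint` matching a local class at `r`. -/
def twoCoeff (r : Nat.Primes) (z : H2μ p (locBase (r : ℕ))) : ℕ :=
  if h : (r : ℕ) = p then 0
  else (locEquiv hI r z * (locEquiv hI r (baseLoc r (twoPoint hI r h)))⁻¹).val

/-- The multiple of `twoPoint` matching a local class at `r`. -/
def twoTerm (r : Nat.Primes) (z : H2μ p (locBase (r : ℕ))) : H2μ p (⊤ : Subgroup GalQ) :=
  if h : (r : ℕ) = p then 0 else twoCoeff hI r z • twoPoint hI r h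

theorem baseLoc_twoTerm (r : Nat.Primes) (hr : (r : ℕ) ≠ p) (z : H2μ p (locBase (r : ℕ))) :
    baseLoc r (twoTerm hI r z) = z := by
  rw [twoTerm, dif_neg hr, twoCoeff, dif_neg hr]
  apply (locEquiv hI r).injective
  rw [map_nsmul, map_nsmul, nsmul_eq_mul, ZMod.natCast_zmod_val, inv_mul_cancel_right₀
    ((AddEquiv.map_ne_zero_iff _).2 (baseLoc_twoPoint_ne_zero hI r hr))]

theorem baseLoc_twoTerm_of_ne (r : Nat.Primes) (z : H2μ p (locBase (r : ℕ))) (s : ℕ)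
    [Fact s.Prime] (h1 : s ≠ r) (h2 : s ≠ p) : baseLoc s (twoTerm hI r z) = 0 := by
  rw [twoTerm]
  split_ifs with h
  · exact map_zero _
  · rw [map_nsmul, baseLoc_twoPoint_eq_zero hI r h s h1 h2, nsmul_zero]

theorem locEquiv_baseLoc_twoTerm (r : Nat.Primes) (hr : (r : ℕ) ≠ p)
    (z : H2μ p (locBase (r : ℕ))) :
    locEquiv hI p (baseLoc p (twoTerm hI r z)) = -invLoc hI r z := by
  rw [twoTerm, dif_neg hr, twoCoeff, dif_neg hr, map_nsmul, map_nsmul, nsmul_eq_mul,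
    ZMod.natCast_zmod_val, invLoc_apply, invFactor, dif_neg hr]
  ring

/-- Corrections at the primes of a finite set leave a class supported at `p`. -/
theorem baseLoc_sum_twoTerm (T : Finset Nat.Primes) (_hT : ∀ r ∈ T, (r : ℕ) ≠ p)
    (z : ∀ r : Nat.Primes, H2μ p (locBase (r : ℕ))) (s : Nat.Primes) (hs : (s : ℕ) ≠ p) :
    baseLoc s (∑ r ∈ T, twoTerm hI r (z r)) = if s ∈ T then z s else 0 := by
  classical
  rw [map_sum]
  split_ifs with h
  · rw [Finset.sum_eq_single_of_mem s h fun r _ hrs =>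
      baseLoc_twoTerm_of_ne hI r _ s (fun e => hrs (Subtype.ext e.symm)) hs,
      baseLoc_twoTerm hI s hs]
  · exact Finset.sum_eq_zero fun r hr =>
      baseLoc_twoTerm_of_ne hI r _ s (fun e => h (show s ∈ T by
        rwa [show s = r from Subtype.ext e])) hs

/-- **Reciprocity**: the invariants of a class over `ℚ` sum to zero. -/
theorem sum_invAt_eq_zero (hp2 : p ≠ 2) (x : H2μ p (⊤ : Subgroup GalQ)) (T : Finset Nat.Primes)
    (hT : ∀ r : Nat.Primes, r ∉ T → baseLoc r x = 0) : ∑ r ∈ T, invAt hI r x = 0 := by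
  classical
  set P : Nat.Primes := ⟨p, Fact.out⟩
  rw [show ∑ r ∈ T, invAt hI r x = ∑ r ∈ insert P T, invAt hI r x from
    Finset.sum_subset (Finset.subset_insert P T) fun r _ hr => by
      rw [invAt, AddMonoidHom.comp_apply, hT r hr, map_zero]]
  rw [← Finset.add_sum_erase _ _ (Finset.mem_insert_self P T)]
  set T' := (insert P T).erase P
  have hT' : ∀ r ∈ T', (r : ℕ) ≠ p := fun r hr e => Finset.ne_of_mem_erase hr (Subtype.ext e)
  set y := ∑ r ∈ T', twoTerm hI r (baseLoc r x)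
  have h0 : x - y = 0 := eq_zero_of_baseLoc_eq_zero_of_ne hp2 hI (q₀ := p) _ fun s hs hsp => by
    have h := baseLoc_sum_twoTerm hI T' hT' (fun r => baseLoc r x) ⟨s, hs.out⟩ hsp
    rw [map_sub, sub_eq_zero, h]
    split_ifs with hmem
    · rfl
    · exact hT ⟨s, hs.out⟩ fun hsT => hmem (Finset.mem_erase.2
        ⟨fun e => hsp (congrArg Subtype.val e), Finset.mem_insert_of_mem hsT⟩)
  have hP : invAt hI P x = locEquiv hI p (baseLoc p x) := by
    show invFactor hI p * locEquiv hI p (baseLoc p x) = _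
    rw [invFactor, dif_pos rfl, one_mul]
  rw [hP, sub_eq_zero.1 h0, map_sum, map_sum,
    Finset.sum_congr rfl fun r hr => locEquiv_baseLoc_twoTerm hI r (hT' r hr) _,
      ← Finset.sum_add_distrib]
  refine Finset.sum_eq_zero fun r hr => ?_
  rw [invAt, AddMonoidHom.comp_apply, ← sub_eq_zero.1 h0]
  exact neg_add_cancel _

end Invariants

end Fermat.Agent.Duality.Places

end
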