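import Fermat.Agent.Duality.Places.CupLoc
import Fermat.Agent.Duality.Places.SplitField
import Fermat.Agent.Duality.Global.LocalNorm

/-!
# Symbols that vanish locally everywhere

A symbol `χ ∪ κ(a)` over a number field which vanishes at every place makes `a` a local norm
everywhere, so it vanishes by the Hasse norm theorem.
-/

set_option autoImplicit false

noncomputable section

open IntermediateField IsDedekindDomain
open NumberField

namespace Fermat.Agent.Duality.Places

/-- The Hasse norm theorem for cyclic extensions of degree `p` over fields containing `μ_p`. -/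
def HasseNorm (p : ℕ) : Prop :=
  ∀ (K L : Type) [Field K] [NumberField K] [Field L] [NumberField L] [Algebra K L] [IsGalois K L],
    Module.finrank K L = p → (∃ ζ : K, IsPrimitiveRoot ζ p) →
      ∀ x : Kˣ, (∀ v, x ∈ Global.localNorm L v) → ∃ y : L, Algebra.norm K y = x

variable {p : ℕ} [Fact p.Prime]

/-- The multiplicative form of a sum of translates. -/
theorem coe_sum_smul {F L : Type} [Field F] [Field L] [Algebra F L] (H : Subgroup (L ≃ₐ[F] L))
    {ι : Type} (s : Finset ι) (f : ι → H) (a : Lx L) :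
    (((∑ i ∈ s, f i • a : Lx L).toMul : Lˣ) : L) =
      ∏ i ∈ s, (f i : L ≃ₐ[F] L) (((a.toMul : Lˣ) : L)) := by
  rw [toMul_sum, Units.coe_prod]
  rfl

/-- The number field unit underlying an invariant unit. -/
theorem exists_unit_of_inv (K : IntermediateField ℚ Qbar)
    (a : Coh.inv K.fixingSubgroup (Lx Qbar)) :
    ∃ x : Kˣ, ((x : K) : Qbar) = (((a : Lx Qbar).toMul : Qbarˣ) : Qbar) := by
  have : IsGalois ℚ Qbar := Fermat.Agent.Gal.isGalois_rat_qbar
  have hmem : (((a : Lx Qbar).toMul : Qbarˣ) : Qbar) ∈ K := by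
    refine (InfiniteGalois.fixedField_fixingSubgroup K).le fun s => ?_
    exact congrArg (fun y : Lx Qbar => ((y.toMul : Qbarˣ) : Qbar)) (a.2 s)
  exact ⟨Units.mk0 ⟨_, hmem⟩ fun h => (a : Lx Qbar).toMul.ne_zero (congrArg Subtype.val h), rfl⟩

variable (K : IntermediateField ℚ Qbar) [NumberField K] (χ : Char1 p K.fixingSubgroup)
  (a : Coh.inv K.fixingSubgroup (Lx Qbar))

instance numberField_splitField : NumberField (splitField K χ) := ⟨⟩

/-- Local vanishing of a symbol gives a local norm. -/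
theorem mem_localNorm_of_locμ₂_eq_zero (hχ : χ ≠ 0) {x : Kˣ}
    (hx : ((x : K) : Qbar) = (((a : Lx Qbar).toMul : Qbarˣ) : Qbar))
    (q : ℕ) [Fact q.Prime] (g : GalQ)
    (h : locμ₂ p q K.fixingSubgroup g (cupChi χ a) = 0) :
    letI := splitAlgebra K χ
    x ∈ Global.localNorm (splitField K χ) (placeOf q (twistEmb q K g)) := by
  let := splitAlgebra K χ
  obtain ⟨t₀, ht₀⟩ := exists_chiVal_eq_one χ hχ
  obtain ⟨hgal, hdeg, -⟩ := exists_equiv_aut K χ hχ ht₀
  have := hgal
  rw [Global.mem_localNorm_iff]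
  intro n
  set τL := twistEmb q (splitField K χ) g
  have hτ : τL.comp (IsScalarTower.toAlgHom ℚ K (splitField K χ)) = twistEmb q K g :=
    AlgHom.ext fun _ => rfl
  rw [← hτ]
  have : IsGalois ℚ_[q] (PadicAlgCl q) := IsAlgClosure.isGalois ℚ_[q] (PadicAlgCl q)
  set χ' := locChar q g χ with hχ'def
  by_cases hχ' : χ' = 0
  · refine exists_norm_near_of_locField_le q τL ?_ x n
    rw [hτ]
    intro z hz
    refine (InfiniteGalois.fixedField_fixingSubgroup (locField q (twistEmb q K g))).le ?_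
    rintro ⟨d, hd⟩
    show d z = z
    refine (mem_fixingSubgroup_iff (locField q τL) d).1 ?_ z hz
    rw [← twisted_eq_fixingSubgroup] at hd
    rw [← twisted_eq_fixingSubgroup, Coh.mem_twisted, fixingSubgroup_splitField]
    refine (mem_kerGroup K χ
      (h := Coh.twistHom (localGaloisToGlobal q) g K.fixingSubgroup ⟨d, hd⟩)).2 ?_
    rw [mem_chiKer, ← locChar_apply, ← hχ'def, hχ']
    rfl
  · rw [locμ₂_cupChi, ← hχ'def] at h
    have hok : (galLevels ℚ_[q] (PadicAlgCl q)).ok (locGroup q K.fixingSubgroup g) :=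
      Coh.ok_twisted (compat_localGaloisToGlobal q) (galLevels_ok_fixingSubgroup K) g
    have := ((galLevels ℚ_[q] (PadicAlgCl q)).restrict (locGroup q K.fixingSubgroup g)).finiteIndex
      (ok_chiKer χ')
    let : Fintype (locGroup q K.fixingSubgroup g ⧸ chiKer χ') := Fintype.ofFinite _
    obtain ⟨b, hb⟩ := (cupChi_eq_zero_iff χ' hχ' hok (locInv q g a)).1 h
    set s := chiGen χ' hχ'
    set t := Coh.twistHom (localGaloisToGlobal q) g K.fixingSubgroup s
    have ht : chiVal χ t = 1 := by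
      exact chiVal_chiGen χ' hχ' 
    obtain ⟨-, -, e, he⟩ := exists_equiv_aut K χ hχ ht
    set z : PadicAlgCl q := (((b : Lx (PadicAlgCl q)).toMul : (PadicAlgCl q)ˣ) : PadicAlgCl q)
    have hz : z ∈ locField q τL := by
      refine (InfiniteGalois.fixedField_fixingSubgroup (locField q τL)).le ?_
      rintro ⟨d, hd⟩
      rw [← twisted_eq_fixingSubgroup, Coh.mem_twisted, fixingSubgroup_splitField] at hd
      have hd' : d ∈ locGroup q K.fixingSubgroup g := Coh.mem_twisted.2 (kerGroup_le K χ hd)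
      have hker : (⟨d, hd'⟩ : locGroup q K.fixingSubgroup g) ∈ chiKer χ' := by
        rw [mem_chiKer, hχ'def, locChar_apply]
        exact (mem_kerGroup K χ).1 hd
      exact congrArg (fun y : Lx (PadicAlgCl q) => ((y.toMul : (PadicAlgCl q)ˣ) : PadicAlgCl q))
        (b.2 ⟨_, hker⟩)
    refine exists_norm_near q τL
      (fun σ => ((s ^ ((e.symm σ : Fin p) : ℕ) : locGroup q K.fixingSubgroup g) : GalLoc q))
      ?_ x hz ?_ n
    · intro σ y
      obtain ⟨j, rfl⟩ := e.surjective σ
      rw [Equiv.symm_apply_apply, twistEmb_apply, twistEmb_apply, he,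
        ← padicEmbedding_localGaloisToGlobal]
      congr 1
      rw [show (t ^ (j : ℕ)) = Coh.twistHom (localGaloisToGlobal q) g K.fixingSubgroup (s ^ (j : ℕ))
        from (map_pow _ _ _).symm, Coh.coe_twistHom, AlgEquiv.mul_apply, AlgEquiv.mul_apply,
        AlgEquiv.aut_inv, AlgEquiv.apply_symm_apply]
    · have h1 := congrArg (fun y : Coh.inv (locGroup q K.fixingSubgroup g) (Lx (PadicAlgCl q)) =>
        ((((y : Lx (PadicAlgCl q))).toMul : (PadicAlgCl q)ˣ) : PadicAlgCl q)) hb
      rw [cor₀_chiKer χ' hχ', genSum, coe_locInv, coe_sum_smul,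
        ← Fin.prod_univ_eq_prod_range] at h1
      rw [← Equiv.prod_comp e]
      simp only [Equiv.symm_apply_apply]
      exact (congrArg (fun w => padicEmbedding q (g w)) hx).trans h1.symm

/-- A symbol with a norm entry vanishes. -/
theorem cupChi_eq_zero_of_norm (hχ : χ ≠ 0) {x : Kˣ}
    (hx : ((x : K) : Qbar) = (((a : Lx Qbar).toMul : Qbarˣ) : Qbar))
    (y : splitField K χ)
    (hy : letI := splitAlgebra K χ; Algebra.norm K y = (x : K)) : cupChi χ a = 0 := by
  let := splitAlgebra K χ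
  have := ((galLevels ℚ Qbar).restrict K.fixingSubgroup).finiteIndex (ok_chiKer χ)
  let : Fintype (K.fixingSubgroup ⧸ chiKer χ) := Fintype.ofFinite _
  obtain ⟨hgal, hdeg, e, he⟩ := exists_equiv_aut K χ hχ (chiVal_chiGen χ hχ)
  have := hgal
  have hy0 : (y : Qbar) ≠ 0 := fun h => x.ne_zero (by
    rw [← hy, show y = 0 from Subtype.ext h, Algebra.norm_zero])
  rw [cupChi_eq_zero_iff χ hχ (galLevels_ok_fixingSubgroup K) a]
  refine ⟨⟨Additive.ofMul (Units.mk0 (y : Qbar) hy0), fun n => Additive.toMul.injective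
    (Units.ext ?_)⟩, Subtype.ext ?_⟩
  · show ((n : K.fixingSubgroup) : GalQ) (y : Qbar) = y
    exact y.2 ⟨_, (mem_kerGroup K χ).2 n.2⟩
  · rw [cor₀_chiKer χ hχ, genSum]
    refine Additive.toMul.injective (Units.ext ?_)
    rw [coe_sum_smul, ← Fin.prod_univ_eq_prod_range, ← hx, ← hy]
    have h1 := congrArg Subtype.val (Algebra.norm_eq_prod_automorphisms K y)
    rw [← Equiv.prod_comp e, IntermediateField.coe_prod] at h1
    simp only [he] at h1
    exact h1.symm

/-- **A symbol over a field containing `μ_p` that vanishes everywhere vanishes.** -/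
theorem cupChi_eq_zero_of_locally (hHN : HasseNorm p) (hζ : ∃ ζ : K, IsPrimitiveRoot ζ p)
    (hloc : ∀ (q : ℕ) [Fact q.Prime] (g : GalQ), locμ₂ p q K.fixingSubgroup g (cupChi χ a) = 0) :
    cupChi χ a = 0 := by
  by_cases hχ : χ = 0
  · subst hχ
    simp [cupChi]
  let := splitAlgebra K χ
  obtain ⟨t₀, ht₀⟩ := exists_chiVal_eq_one χ hχ
  obtain ⟨hgal, hdeg, -⟩ := exists_equiv_aut K χ hχ ht₀
  have := hgal
  obtain ⟨x, hx⟩ := exists_unit_of_inv K a
  obtain ⟨y, hy⟩ := hHN K (splitField K χ) hdeg hζ x fun v => by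
    obtain ⟨q, hq, hqv⟩ := exists_prime_natCast_mem v
    have := Fact.mk hq
    obtain ⟨τ, hτ⟩ := exists_placeOf_eq q v hqv
    obtain ⟨g, hg⟩ := exists_twistEmb_eq q K τ
    subst hg hτ
    exact mem_localNorm_of_locμ₂_eq_zero K χ a hχ hx q g (hloc q g)
  exact cupChi_eq_zero_of_norm K χ a hχ hx y hy

end Fermat.Agent.Duality.Places

end
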